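/-
Project S36, leaf [CUSP-T2] (helper23; prefix `s36ct_`), part 7: THE RING-LEVEL FACTS OF THE S34
PACKAGE ON ONE CHART OF A TOWER `E' ≤ E ≤ Quot(O((X)))`, free of any `Algebra ↥E' ↥E` instance in
the statement (so that they can be consumed under the `β`-structure).

* `s36ct_si_facts` : for the chart map `φA` (through the inclusion `α`): integrality, the closure
  property `hBcl` THROUGH `β = W ∘ α` (for any ring hom `f` with `f b = W (α b)`), `(π) = P1 ∩ P2`,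
  `P_i ∩ B' = (π)`, `B = φA B' + P1`, `B^q ⊆ φA B' + P2`, `W` exchanges `P1` and `P2`.
-/
import Mathlib
import Fermat.Agent.SS.Model.SmoothInst
import Fermat.Agent.SS.Model.NodeCross

set_option autoImplicit false
set_option linter.unusedSectionVars false
set_option linter.unusedVariables false
set_option linter.style.haveILetI false

noncomputable section

open ModularCurve IntermediateField IsLocalRing Polynomial
open Fermat.Agent.JT3 Fermat.Agent.SS

namespace Fermat.Agent.S36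

section Generic

variable {L : Type*} [Field L] [CharZero L] (O : ValuationSubring L)
  [IsDiscreteValuationRing O] {π : O} (hπ : Irreducible π)
variable (q : ℕ) [NeZero q] [hq : Fact q.Prime] [CharP (ResidueField O) q]
variable (E' E : IntermediateField L (LaurentSeries L)) (hle : E' ≤ E)
  (hE : E ≤ gq_quotField O L)

set_option synthInstance.maxHeartbeats 200000 in
set_option maxHeartbeats 800000 in
/-- **the ring-level facts of the S34 package on one chart.** -/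
theorem s36ct_si_facts (W : ↥E ≃+* ↥E) (hWW : ∀ x, W (W x) = x)
    (hW : ∀ z : ↥E', ((W (IntermediateField.inclusion hle z) : ↥E) : LaurentSeries L) =
      qExpand L q (z : LaurentSeries L))
    (hrank : IntermediateField.relfinrank E' E = q + 1)
    (ys : LaurentSeries O) (hyF : ssm_ga_FrobFixed q ys) (n : ℤ) (hn : ¬ (q : ℤ) ∣ n)
    (hyn : residue O (ys.coeff n) ≠ 0) (lam' : ↥E')
    (hlam : (lam' : LaurentSeries L) = coeffMap (algebraMap O L) ys)
    (y : ↥E') (yE : ↥E) (hyE : IntermediateField.inclusion hle y = yE)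
    (hy : Transcendental L y) [FiniteDimensional L⟮y⟯ ↥E'] (hyEt : Transcendental L yE)
    (hover : ssm_tp_Over (algebraMap ↥O (Algebra.adjoin ↥O ({y} : Set ↥E')) π)
      (gq_valSubOf π hπ.ne_zero hπ.maximalIdeal_eq E' (hle.trans hE)))
    (H : ssm_tp_Hyp (algebraMap ↥O (Algebra.adjoin ↥O ({yE} : Set ↥E)) π)
      (gq_valSubOf π hπ.ne_zero hπ.maximalIdeal_eq E hE)
      ((gq_valSubOf π hπ.ne_zero hπ.maximalIdeal_eq E hE).comap (W : ↥E →+* ↥E)))
    (hprime : Prime (algebraMap ↥O (fc_chart ↥O ({y} : Set ↥E')) π))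
    (hic : IsIntegrallyClosed (fc_chart ↥O ({y} : Set ↥E') ⧸
      (Ideal.span {algebraMap ↥O (fc_chart ↥O ({y} : Set ↥E')) π} :
        Ideal (fc_chart ↥O ({y} : Set ↥E')))))
    (hWB : ∀ b ∈ fc_chart ↥O ({yE} : Set ↥E), W b ∈ fc_chart ↥O ({yE} : Set ↥E))
    (φA : fc_chart ↥O ({y} : Set ↥E') →+* fc_chart ↥O ({yE} : Set ↥E))
    (hφA : ∀ b : fc_chart ↥O ({y} : Set ↥E'), ((φA b : fc_chart ↥O ({yE} : Set ↥E)) : ↥E) =
      IntermediateField.inclusion hle (b : ↥E')) :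
    φA.IsIntegral ∧
    (∀ f : fc_chart ↥O ({y} : Set ↥E') →+* ↥E,
      (∀ b : fc_chart ↥O ({y} : Set ↥E'), f b = W (IntermediateField.inclusion hle (b : ↥E'))) →
      ∀ z : ↥E, f.IsIntegralElem z → z ∈ fc_chart ↥O ({yE} : Set ↥E)) ∧
    Ideal.span {φA (algebraMap ↥O (fc_chart ↥O ({y} : Set ↥E')) π)} =
      ssm_tp_P (fc_chart ↥O ({yE} : Set ↥E)) (gq_valSubOf π hπ.ne_zero hπ.maximalIdeal_eq E hE) ⊓
      ssm_tp_P (fc_chart ↥O ({yE} : Set ↥E))
        ((gq_valSubOf π hπ.ne_zero hπ.maximalIdeal_eq E hE).comap (W : ↥E →+* ↥E)) ∧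
    (ssm_tp_P (fc_chart ↥O ({yE} : Set ↥E))
      (gq_valSubOf π hπ.ne_zero hπ.maximalIdeal_eq E hE)).comap φA =
      Ideal.span {algebraMap ↥O (fc_chart ↥O ({y} : Set ↥E')) π} ∧
    (ssm_tp_P (fc_chart ↥O ({yE} : Set ↥E))
      ((gq_valSubOf π hπ.ne_zero hπ.maximalIdeal_eq E hE).comap (W : ↥E →+* ↥E))).comap φA =
      Ideal.span {algebraMap ↥O (fc_chart ↥O ({y} : Set ↥E')) π} ∧
    (∀ b : fc_chart ↥O ({yE} : Set ↥E), ∃ b' : fc_chart ↥O ({y} : Set ↥E'),
      b - φA b' ∈ ssm_tp_P (fc_chart ↥O ({yE} : Set ↥E))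
        (gq_valSubOf π hπ.ne_zero hπ.maximalIdeal_eq E hE)) ∧
    (∀ b : fc_chart ↥O ({yE} : Set ↥E), ∃ b' : fc_chart ↥O ({y} : Set ↥E'),
      b ^ q - φA b' ∈ ssm_tp_P (fc_chart ↥O ({yE} : Set ↥E))
        ((gq_valSubOf π hπ.ne_zero hπ.maximalIdeal_eq E hE).comap (W : ↥E →+* ↥E))) ∧
    (∀ b : fc_chart ↥O ({yE} : Set ↥E),
      b ∈ ssm_tp_P (fc_chart ↥O ({yE} : Set ↥E))
        (gq_valSubOf π hπ.ne_zero hπ.maximalIdeal_eq E hE) ↔
      ssm_inf_equiv W hWW _ hWB b ∈ ssm_tp_P (fc_chart ↥O ({yE} : Set ↥E))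
        ((gq_valSubOf π hπ.ne_zero hπ.maximalIdeal_eq E hE).comap (W : ↥E →+* ↥E))) ∧
    (ssm_tp_P (fc_chart ↥O ({yE} : Set ↥E))
      (gq_valSubOf π hπ.ne_zero hπ.maximalIdeal_eq E hE)).IsPrime ∧
    (ssm_tp_P (fc_chart ↥O ({yE} : Set ↥E))
      ((gq_valSubOf π hπ.ne_zero hπ.maximalIdeal_eq E hE).comap (W : ↥E →+* ↥E))).IsPrime := by
  subst hyE
  letI := ssm_gi_algebra hle
  letI := ssm_gi_algebraV hle (gq_valSubOf π hπ.ne_zero hπ.maximalIdeal_eq E' (hle.trans hE))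
  haveI := ssm_gi_isScalarTower hle
    (gq_valSubOf π hπ.ne_zero hπ.maximalIdeal_eq E' (hle.trans hE))
  have hfr : Module.finrank ↥E' ↥E = q + 1 := (ssm_gt_finrank_eq hle).trans hrank
  haveI : FiniteDimensional ↥E' ↥E := ssm_gi_finiteDimensional hfr
  haveI : Algebra.IsSeparable ↥E' ↥E := ssm_gi_isSeparable
  haveI := ssm_go_isScalarTower O E
  haveI := ssm_go_isScalarTower O E'
  haveI := ssm_gt_isScalarTower O hle
  have D := ssm_gt_data O hπ q E' E hle hE W hWW hW hrank ys hyF n hn hyn lam' hlam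
  have hVK : ∀ z : ↥E', z ∈ gq_valSubOf π hπ.ne_zero hπ.maximalIdeal_eq E' (hle.trans hE) ↔
      z ∈ (algebraMap ↥(gq_valSubOf π hπ.ne_zero hπ.maximalIdeal_eq E' (hle.trans hE)) ↥E').range :=
    fun z => (ssm_gi_mem_range _ z).symm
  have Lk := ssm_cpi_link_ff (L := L) D hπ hy hyEt hprime
    (gq_valSubOf π hπ.ne_zero hπ.maximalIdeal_eq E' (hle.trans hE)) hVK hover H
  have h1 := ssm_cpi_ff (L := L) D hπ hy hyEt hprime hic
    (gq_valSubOf π hπ.ne_zero hπ.maximalIdeal_eq E' (hle.trans hE)) hVK hover H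
  have hC := ssm_tp_ff_chart (L := L) hπ hyEt
  have hyEA : Transcendental ↥O (algebraMap ↥E' ↥E y) := fc_ff_transcendental (L := L) hyEt
  haveI : IsIntegrallyClosed (Algebra.adjoin ↥O ({algebraMap ↥E' ↥E y} : Set ↥E)) :=
    fc_ff_isIntegrallyClosed hyEA
  haveI : FaithfulSMul (Algebra.adjoin ↥O ({algebraMap ↥E' ↥E y} : Set ↥E)) ↥E :=
    (faithfulSMul_iff_algebraMap_injective _ _).2 Subtype.val_injective
  have hφAeq : φA = ssm_cpi_phi ↥O ↥E y := by
    ext b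
    rw [hφA, ssm_cpi_phi_coe]
    rfl
  subst hφAeq
  have hφπ : ssm_cpi_phi ↥O ↥E y (algebraMap ↥O (fc_chart ↥O ({y} : Set ↥E')) π) =
      algebraMap ↥O (fc_chart ↥O ({algebraMap ↥E' ↥E y} : Set ↥E)) π :=
    ssm_cpi_phi_algebraMap y π
  refine ⟨ssm_cpi_phi_isIntegral (A0 := ↥O) (E := ↥E) y, ?_, ?_, ssm_cpi_comap1 Lk,
    ssm_cpi_comap2 D Lk, h1.1, h1.2.1, ?_, Lk.P1_isPrime, Lk.P2_isPrime⟩
  · -- `hBcl` through `β`
    intro f hf z hz
    obtain ⟨p, hp, hpz⟩ := hz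
    have h2 : IsIntegral (fc_chart ↥O ({y} : Set ↥E')) (W z) := by
      refine ⟨p, hp, ?_⟩
      have h3 := Polynomial.hom_eval₂ p f (W : ↥E →+* ↥E) z
      rw [hpz, map_zero] at h3
      have h4 : ((W : ↥E →+* ↥E).comp f) = algebraMap (fc_chart ↥O ({y} : Set ↥E')) ↥E := by
        refine RingHom.ext fun b => ?_
        change W (f b) = _
        rw [hf, hWW]
        rfl
      rw [h4] at h3
      exact h3.symm
    have h5 : W z ∈ fc_chart ↥O ({algebraMap ↥E' ↥E y} : Set ↥E) := ssm_nx_hBcl y (W z) h2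
    have h6 := hWB _ h5
    rwa [hWW] at h6
  · rw [hφπ]
    exact H.P_inf hC _ rfl
  · intro b
    exact ssm_inf_W_mem_iff _ Lk.le1' Lk.le2' W hWW (fun z => Iff.rfl) hWB b

end Generic

end Fermat.Agent.S36
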