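/-
Project S36, leaf [CUSP-T2] (helper23; prefix `s36ct_`), part 6: helper16's package `s36oc_Hyp`
THROUGH `β` AT A CUSP POINT, abstract assembly.

`K ⊆ E` with `[Algebra K E]` = THE `β`-STRUCTURE (`f(X) ↦ f(X^q)`), charts `B' ⊆ K`, `B ⊆ E`,
`φB : B' →+* B` the chart map through `β`; `φA : B' →+* B` the chart map through the inclusion `α`
and `WB : B ≃+* B` the involution with `φB = WB ∘ φA`.  `P1`, `P2` the two vertical primes of `B`
(`P1` the Gauss one, `α`-isomorphic: `B = φA B' + P1`, `B^q ⊆ φA B' + P2`), exchanged by `WB`.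

* `s36ct_add_beta`, `s36ct_pow_beta`, `s36ct_comap_beta` : the `β`-transports of the S34 clauses;
* `s36ct_unique_over` : over a prime `y0` of `B'` there is at most one prime of `B` on the purely
  inseparable component;
* `s36ct_hyp_beta` : the package `s36oc_Hyp φB y0 S q P2 P1 π' t' u`.
-/
import Mathlib
import Fermat.Agent.S36.CReg.OrdGCover

set_option autoImplicit false
set_option linter.unusedSectionVars false
set_option linter.unusedVariables false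
set_option linter.style.haveILetI false

namespace Fermat.Agent.S36

open Fermat.Agent.JT3 Fermat.Agent.SS Polynomial IsLocalRing

section Ring

variable {B' B : Type*} [CommRing B'] [CommRing B]
  (φA φB : B' →+* B) (WB : B ≃+* B) (hWW : ∀ b, WB (WB b) = b)
  (hAB : ∀ b', φB b' = WB (φA b'))
  (P1 P2 : Ideal B) (hW12 : ∀ b, b ∈ P1 ↔ WB b ∈ P2)

include hWW hW12 in
theorem s36ct_W21 (b : B) : b ∈ P2 ↔ WB b ∈ P1 := by
  rw [hW12 (WB b), hWW]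

include hWW hAB hW12 in
/-- `B = φB B' + P2`. -/
theorem s36ct_add_beta (hadd : ∀ b : B, ∃ b' : B', b - φA b' ∈ P1) (b : B) :
    ∃ b' : B', b - φB b' ∈ P2 := by
  obtain ⟨b', hb'⟩ := hadd (WB b)
  refine ⟨b', ?_⟩
  have h1 : WB (WB b - φA b') ∈ P2 := (hW12 _).1 hb'
  rwa [map_sub, hWW, ← hAB] at h1

include hWW hAB hW12 in
/-- `B^q ⊆ φB B' + P1`. -/
theorem s36ct_pow_beta {q : ℕ} (hpow : ∀ b : B, ∃ b' : B', b ^ q - φA b' ∈ P2) (b : B) :
    ∃ b' : B', b ^ q - φB b' ∈ P1 := by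
  obtain ⟨b', hb'⟩ := hpow (WB b)
  refine ⟨b', ?_⟩
  have h1 : WB (WB b ^ q - φA b') ∈ P1 := (s36ct_W21 WB hWW P1 P2 hW12 _).1 hb'
  rwa [map_sub, map_pow, hWW, ← hAB] at h1

include hWW hAB hW12 in
theorem s36ct_comap_beta1 : P1.comap φB = P2.comap φA := by
  ext b'
  rw [Ideal.mem_comap, Ideal.mem_comap, hAB, ← s36ct_W21 WB hWW P1 P2 hW12]

include hWW hAB hW12 in
theorem s36ct_comap_beta2 : P2.comap φB = P1.comap φA := by
  ext b'
  rw [Ideal.mem_comap, Ideal.mem_comap, hAB, ← hW12]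

/-- **uniqueness of the point on the purely inseparable component**: if `B^q ⊆ φ B' + P` then two
primes of `B` containing `P` with the same contraction to `B'` are equal. -/
theorem s36ct_unique_over (φ : B' →+* B) (P : Ideal B) {q : ℕ} (hq : 0 < q)
    (hpow : ∀ b : B, ∃ b' : B', b ^ q - φ b' ∈ P)
    (𝔫 𝔫' : Ideal B) [h𝔫 : 𝔫.IsPrime] [h𝔫' : 𝔫'.IsPrime] (hP : P ≤ 𝔫) (hP' : P ≤ 𝔫')
    (hc : 𝔫.comap φ = 𝔫'.comap φ) : 𝔫 = 𝔫' := by
  have key : ∀ (𝔞 𝔟 : Ideal B), 𝔞.IsPrime → 𝔟.IsPrime → P ≤ 𝔞 → P ≤ 𝔟 →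
      𝔞.comap φ = 𝔟.comap φ → 𝔞 ≤ 𝔟 := by
    intro 𝔞 𝔟 h𝔞 h𝔟 hPa hPb hab b hb
    obtain ⟨b', hb'⟩ := hpow b
    have h1 : φ b' ∈ 𝔞 := by
      have e : φ b' = b ^ q - (b ^ q - φ b') := by ring
      rw [e]
      exact 𝔞.sub_mem (Ideal.pow_mem_of_mem _ hb q hq) (hPa hb')
    have h2 : b' ∈ 𝔟.comap φ := hab ▸ (Ideal.mem_comap.2 h1)
    have h3 : b ^ q ∈ 𝔟 := by
      have e : b ^ q = (b ^ q - φ b') + φ b' := by ring
      rw [e]
      exact 𝔟.add_mem (hPb hb') h2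
    exact h𝔟.mem_of_pow_mem q h3
  exact le_antisymm (key 𝔫 𝔫' h𝔫 h𝔫' hP hP' hc) (key 𝔫' 𝔫 h𝔫' h𝔫 hP' hP hc.symm)

include hWW hAB in
/-- `φB = WB ∘ φA` is integral. -/
theorem s36ct_isIntegral_beta (hintA : φA.IsIntegral) : φB.IsIntegral := by
  intro b
  obtain ⟨p, hp, hpb⟩ := hintA (WB b)
  refine ⟨p, hp, ?_⟩
  have h1 := Polynomial.hom_eval₂ p φA (WB : B →+* B) (WB b)
  rw [hpb, map_zero] at h1
  have h2 : ((WB : B →+* B).comp φA) = φB := by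
    ext b'
    exact (hAB b').symm
  rw [h2] at h1
  have h3 : (WB : B →+* B) (WB b) = b := hWW b
  rw [h3] at h1
  exact h1.symm

end Ring

section Cover

variable {A0 : Type*} [CommRing A0] {K E : Type*} [Field K] [Field E] [Algebra K E]
  [Algebra A0 K] [Algebra A0 E]
  {B' : Subalgebra A0 K} {B : Subalgebra A0 E}

/-- **helper16's package through `β`** (`[Algebra K E]` is the `β`-structure), at a point `𝔫` of
the Gauss component `P1` of `B` lying over `y0` through `β`. -/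
theorem s36ct_hyp_beta (φA φB : B' →+* B) (WB : B ≃+* B) (hWW : ∀ b, WB (WB b) = b)
    (hAB : ∀ b', φB b' = WB (φA b'))
    (hφ : ∀ b' : B', (φB b' : E) = algebraMap K E (b' : K))
    (hintA : φA.IsIntegral) (hBcl : ∀ z : E, IsIntegral B' z → z ∈ B)
    (y0 : Ideal B') [hy0 : y0.IsMaximal] (S : Type*) [CommRing S] [IsLocalRing S] [Algebra B' S]
    [IsLocalization.AtPrime S y0]
    {q : ℕ} (hq : q.Prime) {π' : B'} (hqπ : (q : B') ∈ Ideal.span {π'})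
    (P1 P2 : Ideal B) [hP1 : P1.IsPrime] [hP2 : P2.IsPrime] (hW12 : ∀ b, b ∈ P1 ↔ WB b ∈ P2)
    (hPA : Ideal.span {φA π'} = P1 ⊓ P2) (hWπ : φB π' = φA π')
    (hc1 : P1.comap φA = Ideal.span {π'}) (hc2 : P2.comap φA = Ideal.span {π'})
    (hadd : ∀ b : B, ∃ b' : B', b - φA b' ∈ P1) (hpow : ∀ b : B, ∃ b' : B', b ^ q - φA b' ∈ P2)
    (hperf : ∀ s : S, ∃ z : S, s - z ^ q ∈ maximalIdeal S)
    {t' : B'} (hgen : tq_GenBy π' t' y0)
    {u : B} (𝔫 : Ideal B) [h𝔫 : 𝔫.IsMaximal] (h𝔫y : 𝔫.comap φB = y0) (hP1𝔫 : P1 ≤ 𝔫)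
    (hu : tq_GenBy (φB π') u 𝔫)
    (hord : ∀ 𝔫' : Ideal B, 𝔫'.IsPrime → 𝔫'.comap φB = y0 → ¬ (P2 ≤ 𝔫' ∧ P1 ≤ 𝔫')) :
    s36oc_Hyp φB y0 S q P2 P1 π' t' u where
  hφ := hφ
  hint := s36ct_isIntegral_beta φA φB WB hWW hAB hintA
  hBcl := hBcl
  hy0 := hy0
  hq₀ := hq
  hq := hqπ
  hP := by rw [hWπ, hPA, inf_comm]
  hc1 := by
    rw [s36ct_comap_beta2 φA φB WB hWW hAB P1 P2 hW12, hc1, Ideal.span_singleton_le_iff_mem]
    exact hgen.1
  hc2 := by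
    rw [s36ct_comap_beta1 φA φB WB hWW hAB P1 P2 hW12, hc2, Ideal.span_singleton_le_iff_mem]
    exact hgen.1
  hadd := s36ct_add_beta φA φB WB hWW hAB P1 P2 hW12 hadd
  hpow := s36ct_pow_beta φA φB WB hWW hAB P1 P2 hW12 hpow
  hm := by
    haveI := hy0.isPrime
    exact tqb_maximalIdeal_eq hgen S
  hperf := hperf
  hord := hord
  hsm := by
    intro 𝔫' h𝔫' h𝔫'y hP1'
    haveI := h𝔫.isPrime
    haveI := h𝔫'.isPrime
    have e : 𝔫' = 𝔫 := s36ct_unique_over φB P1 hq.pos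
      (s36ct_pow_beta φA φB WB hWW hAB P1 P2 hW12 hpow) 𝔫' 𝔫 hP1' hP1𝔫 (h𝔫'y.trans h𝔫y.symm)
    rw [e]
    exact hu

end Cover

end Fermat.Agent.S36
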