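/-
Project S36, leaf [CUSP-TRANS] (helper23; prefix `s36ct_`), part 1: small facts about the
localisation `Localization.AtPrime n` of a domain `B` in the elementwise `tq_` vocabulary of
`JT3/Model/TameQuotient.lean`:

* `s36ct_dvd_loc_iff`    : divisibility in the local ring, with denominators cleared;
* `s36ct_max_of_genBy`   : `tq_GenBy π t n` ⟹ the maximal ideal of the local ring is `(π, t)`;
* `s36ct_prime_of_dom`   : `tq_Dom π n` ⟹ `π` is a prime element of the local ring;
* `s36ct_dom_of_prime`   : the converse.
-/
import Mathlib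
import Fermat.Agent.JT3.Model.TameQuotient

set_option autoImplicit false
set_option linter.unusedSectionVars false
set_option linter.style.haveILetI false

namespace Fermat.Agent.S36

open Fermat.Agent.JT3 IsLocalRing

section Loc

variable {B : Type*} [CommRing B] [IsDomain B] (n : Ideal B) [hn : n.IsPrime]

theorem s36ct_algebraMap_injective :
    Function.Injective (algebraMap B (Localization.AtPrime n)) :=
  IsLocalization.injective (Localization.AtPrime n) n.primeCompl_le_nonZeroDivisors

theorem s36ct_isUnit_of_notMem {s : B} (hs : s ∉ n) :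
    IsUnit (algebraMap B (Localization.AtPrime n) s) :=
  IsLocalization.map_units (Localization.AtPrime n) (⟨s, hs⟩ : n.primeCompl)

/-- divisibility in the local ring, with denominators cleared. -/
theorem s36ct_dvd_loc_iff (d x : B) :
    algebraMap B (Localization.AtPrime n) d ∣ algebraMap B (Localization.AtPrime n) x ↔
      ∃ s : B, s ∉ n ∧ d ∣ s * x := by
  constructor
  · rintro ⟨r, hr⟩
    obtain ⟨r0, s, rfl⟩ := IsLocalization.exists_mk'_eq n.primeCompl r
    refine ⟨s, s.2, r0, ?_⟩
    apply s36ct_algebraMap_injective n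
    rw [map_mul, map_mul, hr, mul_comm (algebraMap B _ (s : B)), mul_assoc,
      IsLocalization.mk'_spec]
  · rintro ⟨s, hs, c, hc⟩
    obtain ⟨u, hu⟩ := s36ct_isUnit_of_notMem n hs
    refine ⟨algebraMap B _ c * ((u⁻¹ : (Localization.AtPrime n)ˣ) : Localization.AtPrime n), ?_⟩
    have h1 : algebraMap B (Localization.AtPrime n) s * algebraMap B (Localization.AtPrime n) x =
        algebraMap B (Localization.AtPrime n) d * algebraMap B (Localization.AtPrime n) c := by
      rw [← map_mul, ← map_mul, hc]
    rw [← hu] at h1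
    calc algebraMap B (Localization.AtPrime n) x
        = ((u⁻¹ : (Localization.AtPrime n)ˣ) : Localization.AtPrime n) *
            ((u : Localization.AtPrime n) * algebraMap B (Localization.AtPrime n) x) := by
          rw [← mul_assoc, Units.inv_mul, one_mul]
      _ = _ := by rw [h1]; ring

/-- an element of the local ring is a unit times the image of an element of `B`. -/
theorem s36ct_exists_unit_mul (r : Localization.AtPrime n) :
    ∃ (u : (Localization.AtPrime n)ˣ) (r0 : B),
      r = (u : Localization.AtPrime n) * algebraMap B (Localization.AtPrime n) r0 := by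
  obtain ⟨r0, s, rfl⟩ := IsLocalization.exists_mk'_eq n.primeCompl r
  obtain ⟨u, hu⟩ := s36ct_isUnit_of_notMem n s.2
  refine ⟨u⁻¹, r0, ?_⟩
  rw [IsLocalization.mk'_eq_iff_eq_mul, mul_comm ((u⁻¹ : (Localization.AtPrime n)ˣ) :
    Localization.AtPrime n), mul_assoc, ← hu, Units.inv_mul, mul_one]

theorem s36ct_mem_maximalIdeal_iff (x : B) :
    algebraMap B (Localization.AtPrime n) x ∈ maximalIdeal (Localization.AtPrime n) ↔ x ∈ n :=
  IsLocalization.AtPrime.to_map_mem_maximal_iff (Localization.AtPrime n) n x

/-- `tq_GenBy π t n` ⟹ the maximal ideal of the local ring is `(π, t)`. -/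
theorem s36ct_max_of_genBy {π t : B} (h : tq_GenBy π t n) :
    maximalIdeal (Localization.AtPrime n) =
      Ideal.span {algebraMap B (Localization.AtPrime n) π,
        algebraMap B (Localization.AtPrime n) t} := by
  obtain ⟨hπ, ht, hgen⟩ := h
  apply le_antisymm
  · rw [← Localization.AtPrime.map_eq_maximalIdeal, Ideal.map_le_iff_le_comap]
    intro x hx
    obtain ⟨s, hs, hsx⟩ := hgen x hx
    rw [Ideal.mem_comap]
    obtain ⟨a, b, hab⟩ := Ideal.mem_span_pair.1 hsx
    obtain ⟨u, hu⟩ := s36ct_isUnit_of_notMem n hs
    have h1 : (u : Localization.AtPrime n) * algebraMap B (Localization.AtPrime n) x =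
        algebraMap B _ a * algebraMap B _ π + algebraMap B _ b * algebraMap B _ t := by
      rw [hu, ← map_mul, ← hab, map_add, map_mul, map_mul]
    have h2 : algebraMap B (Localization.AtPrime n) x =
        ((u⁻¹ : (Localization.AtPrime n)ˣ) : Localization.AtPrime n) *
          ((u : Localization.AtPrime n) * algebraMap B (Localization.AtPrime n) x) := by
      rw [← mul_assoc, Units.inv_mul, one_mul]
    rw [h2, h1]
    refine Ideal.mul_mem_left _ _ (Ideal.add_mem _ ?_ ?_)
    · exact Ideal.mul_mem_left _ _ (Ideal.subset_span (by simp))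
    · exact Ideal.mul_mem_left _ _ (Ideal.subset_span (by simp))
  · rw [Ideal.span_le]
    rintro x (rfl | rfl)
    · exact (s36ct_mem_maximalIdeal_iff n π).2 hπ
    · exact (s36ct_mem_maximalIdeal_iff n t).2 ht

/-- `tq_Dom π n` ⟹ `π` is a prime element of the local ring. -/
theorem s36ct_prime_of_dom {π : B} (hπ0 : π ≠ 0) (hπn : π ∈ n) (h : tq_Dom π n) :
    Prime (algebraMap B (Localization.AtPrime n) π) := by
  refine ⟨?_, ?_, ?_⟩
  · rw [Ne, map_eq_zero_iff _ (s36ct_algebraMap_injective n)]; exact hπ0
  · intro hu
    exact ((mem_maximalIdeal _).1 ((s36ct_mem_maximalIdeal_iff n π).2 hπn)) hu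
  · intro a b hab
    obtain ⟨u, a0, rfl⟩ := s36ct_exists_unit_mul n a
    obtain ⟨v, b0, rfl⟩ := s36ct_exists_unit_mul n b
    have h1 : algebraMap B (Localization.AtPrime n) π ∣
        algebraMap B (Localization.AtPrime n) (a0 * b0) := by
      rw [map_mul]
      have : (u : Localization.AtPrime n) * algebraMap B _ a0 * ((v : Localization.AtPrime n) *
          algebraMap B _ b0) = ((u * v : (Localization.AtPrime n)ˣ) : Localization.AtPrime n) *
            (algebraMap B _ a0 * algebraMap B _ b0) := by
        rw [Units.val_mul]; ring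
      rw [this] at hab
      exact (Units.dvd_mul_left).1 hab
    obtain ⟨s, hs, c, hc⟩ := (s36ct_dvd_loc_iff n π (a0 * b0)).1 h1
    have h2 : (s * a0) * b0 ∈ Ideal.span {π} := by
      rw [Ideal.mem_span_singleton]; exact ⟨c, by rw [← hc]; ring⟩
    obtain ⟨s', hs', h3 | h3⟩ := h (s * a0) b0 h2
    · left
      rw [Ideal.mem_span_singleton] at h3
      have h4 : algebraMap B (Localization.AtPrime n) π ∣
          algebraMap B (Localization.AtPrime n) a0 :=
        (s36ct_dvd_loc_iff n π a0).2 ⟨s' * s, fun hmem =>
          (hn.mem_or_mem hmem).elim hs' hs, by rw [mul_assoc]; exact h3⟩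
      exact Dvd.dvd.mul_left h4 _
    · right
      rw [Ideal.mem_span_singleton] at h3
      have h4 : algebraMap B (Localization.AtPrime n) π ∣
          algebraMap B (Localization.AtPrime n) b0 :=
        (s36ct_dvd_loc_iff n π b0).2 ⟨s', hs', h3⟩
      exact Dvd.dvd.mul_left h4 _

/-- a prime element of the local ring coming from `B` satisfies `tq_Dom`. -/
theorem s36ct_dom_of_prime {t : B} (h : Prime (algebraMap B (Localization.AtPrime n) t)) :
    tq_Dom t n := by
  intro a b hab
  rw [Ideal.mem_span_singleton] at hab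
  have h1 : algebraMap B (Localization.AtPrime n) t ∣
      algebraMap B (Localization.AtPrime n) a * algebraMap B (Localization.AtPrime n) b := by
    rw [← map_mul]; exact map_dvd _ hab
  rcases h.dvd_or_dvd h1 with h2 | h2
  · obtain ⟨s, hs, h3⟩ := (s36ct_dvd_loc_iff n t a).1 h2
    exact ⟨s, hs, Or.inl (Ideal.mem_span_singleton.2 h3)⟩
  · obtain ⟨s, hs, h3⟩ := (s36ct_dvd_loc_iff n t b).1 h2
    exact ⟨s, hs, Or.inr (Ideal.mem_span_singleton.2 h3)⟩

end Loc

end Fermat.Agent.S36
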