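/-
Project S36, leaf [CUSP-TRANS] (helper23; prefix `s36ct_`), part 2: THE AVERAGING LEMMA.

`B = C^H` (`H` finite, `|H|` invertible in `B`), `π, y ∈ B`, `w ∈ C` with `w ^ N = y` and
`h • w ∈ C w` for all `h ∈ H`; `n ∋ π, y` a maximal ideal of `B`.  If every maximal ideal `Q` of `C`
over `n` is locally generated by `π, w` (the étale chart over the Kummer base), `π` is a
non-zero-divisor modulo `w`, and `B` is regular at `n` in the `tq_` sense, then the cusp divisor
`y = 0` is TRANSVERSAL to the fibre `π = 0` at `n`: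

  there is `t ∈ B` with `n = (π, t)` locally, `t` a prime element locally, and `y = unit · t ^ e`
  locally (`e ≥ 1`);  moreover `t` generates `w C ∩ B` locally.

Proof: for `c ∈ n`, `s c = π a'' + w b''` upstairs with an `H`-invariant `s ∉ n`; the trace gives
`|H| s c = π a + d` with `a, d ∈ B`, `w ∣ d`.  So `n = π B_n + 𝔭 B_n`, `𝔭 := w C ∩ B`; Nakayama
gives `𝔭 B_n = d B_n`; `d` is irreducible in the UFD `B_n` (`fc_ufd`), hence prime; `y = d ^ e y₁`
with `d ∤ y₁`, and a minimal prime of `y₁` would contain `y`, hence (lying over, `w ^ N = y`) `d`,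
hence be `(d)` (Krull): so `y₁` is a unit.
-/
import Mathlib
import Fermat.Agent.JT3.Model.TameQuotient
import Fermat.Agent.JT3.FCore.LocalUFD
import Fermat.Agent.S36.CuspTrans.Loc

set_option autoImplicit false
set_option linter.unusedSectionVars false
set_option linter.unusedVariables false
set_option linter.style.haveILetI false

namespace Fermat.Agent.S36

open Fermat.Agent.JT3 IsLocalRing

section Avg

variable {B C : Type*} [CommRing B] [CommRing C] [Algebra B C]
  (H : Type*) [Group H] [Finite H] [MulSemiringAction H C] [SMulCommClass H B C]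
  [Algebra.IsInvariant B C H]

/-- the ideal `(π, w)` of `C` is `H`-stable. -/
theorem s36ct_pair_stable {π : B} {w : C} (hw : ∀ h : H, ∃ ζ : C, h • w = ζ * w) (g : H) (x : C)
    (hx : x ∈ Ideal.span {algebraMap B C π, w}) :
    g • x ∈ Ideal.span {algebraMap B C π, w} := by
  obtain ⟨a, b, rfl⟩ := Ideal.mem_span_pair.1 hx
  obtain ⟨ζ, hζ⟩ := hw g
  rw [smul_add, smul_mul', smul_mul', smul_algebraMap, hζ]
  exact Ideal.mem_span_pair.2 ⟨g • a, g • b * ζ, by ring⟩

/-- **the averaging step**: every `c ∈ n` is, locally at `n`, of the form `π a + d` with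
`w ∣ d`. -/
theorem s36ct_avg (hinj : Function.Injective (algebraMap B C)) {π : B} {w : C}
    (hw : ∀ h : H, ∃ ζ : C, h • w = ζ * w)
    (hcard : IsUnit ((Nat.card H : ℕ) : B))
    (n : Ideal B) [hn : n.IsMaximal]
    (hup : ∀ Q : Ideal C, Q.IsMaximal → Q.comap (algebraMap B C) = n → ∀ x ∈ Q,
      ∃ s : C, s ∉ Q ∧ s * x ∈ Ideal.span {algebraMap B C π, w})
    {c : B} (hc : c ∈ n) :
    ∃ s a d : B, s ∉ n ∧ s * c = π * a + d ∧ w ∣ algebraMap B C d := by
  classical
  letI : Fintype H := Fintype.ofFinite H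
  have hint : Algebra.IsIntegral B C := Algebra.IsInvariant.isIntegral B C H
  obtain ⟨Q, hQmax, hQn⟩ := Ideal.exists_ideal_over_maximal_of_isIntegral (S := C) n
    (by
      rw [(RingHom.injective_iff_ker_eq_bot _).1 hinj]
      exact bot_le)
  haveI : Q.IsPrime := hQmax.isPrime
  have hcQ : algebraMap B C c ∈ Q := by
    have : c ∈ Q.comap (algebraMap B C) := by rw [hQn]; exact hc
    exact this
  obtain ⟨s'', hs''Q, hs''⟩ := hup Q hQmax hQn _ hcQ
  -- an invariant multiplier
  set I : Ideal C := Ideal.span {algebraMap B C π, w} with hI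
  have hstab : ∀ (g : H) (x : C), x ∈ tq_colon I (algebraMap B C c) →
      g • x ∈ tq_colon I (algebraMap B C c) := by
    intro g x hx
    rw [tq_mem_colon] at hx ⊢
    have h1 := s36ct_pair_stable H hw g _ hx
    rwa [smul_mul', smul_algebraMap] at h1
  obtain ⟨s0, hs0I, hs0Q⟩ := tq_exists_of_stable (A := B) (G := H)
    (tq_colon I (algebraMap B C c)) hstab Q ⟨s'', hs'', hs''Q⟩
  have hs0n : s0 ∉ n := by
    intro hmem
    apply hs0Q
    have : s0 ∈ Q.comap (algebraMap B C) := by rw [hQn]; exact hmem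
    exact this
  rw [tq_mem_colon] at hs0I
  obtain ⟨a'', b'', hab⟩ := Ideal.mem_span_pair.1 hs0I
  -- the trace
  obtain ⟨a, ha⟩ := tq_exists_sum (A := B) (G := H) a''
  obtain ⟨d, hd⟩ := tq_exists_sum (A := B) (G := H) (b'' * w)
  have hwd : w ∣ algebraMap B C d := by
    rw [hd]
    apply Finset.dvd_sum
    intro g _
    obtain ⟨ζ, hζ⟩ := hw g
    rw [smul_mul', hζ]
    exact ⟨g • b'' * ζ, by ring⟩
  obtain ⟨k, hk⟩ := hcard
  refine ⟨((Nat.card H : ℕ) : B) * s0, a, d, ?_, ?_, hwd⟩
  · intro hmem
    rcases hn.isPrime.mem_or_mem hmem with h1 | h1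
    · exact hn.ne_top (Ideal.eq_top_of_isUnit_mem _ h1 ⟨k, hk⟩)
    · exact hs0n h1
  · apply hinj
    have hsum : ∑ g : H, g • (algebraMap B C s0 * algebraMap B C c) =
        ((Nat.card H : ℕ) : C) * (algebraMap B C s0 * algebraMap B C c) := by
      have : ∀ g : H, g • (algebraMap B C s0 * algebraMap B C c) =
          algebraMap B C s0 * algebraMap B C c := by
        intro g; rw [smul_mul', smul_algebraMap, smul_algebraMap]
      simp only [this, Finset.sum_const, Finset.card_univ, nsmul_eq_mul,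
        Nat.card_eq_fintype_card]
    have hsum2 : ∑ g : H, g • (algebraMap B C s0 * algebraMap B C c) =
        algebraMap B C π * ∑ g : H, g • a'' + ∑ g : H, g • (b'' * w) := by
      rw [← hab, Finset.mul_sum, ← Finset.sum_add_distrib]
      apply Finset.sum_congr rfl
      intro g _
      rw [smul_add, smul_mul', smul_algebraMap]
      ring
    rw [map_mul, map_mul, map_add, map_mul, map_natCast, ha, hd, mul_assoc, ← hsum, hsum2]

end Avg

end Fermat.Agent.S36
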