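/-
Project S36, leaf [CUSP-TRANS] (helper23; prefix `s36ct_`), part 3: TRANSVERSALITY, abstract form
(`s36ct_descend`), see the header of `CuspTrans/Avg.lean`.
-/
import Mathlib
import Fermat.Agent.JT3.Model.TameQuotient
import Fermat.Agent.JT3.FCore.LocalUFD
import Fermat.Agent.S36.CuspTrans.Loc
import Fermat.Agent.S36.CuspTrans.Avg

set_option autoImplicit false
set_option linter.unusedSectionVars false
set_option linter.unusedVariables false
set_option linter.style.haveILetI false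

namespace Fermat.Agent.S36

open Fermat.Agent.JT3 IsLocalRing

section Trans

variable {B C : Type*} [CommRing B] [IsDomain B] [IsNoetherianRing B] [CommRing C] [Algebra B C]
  (H : Type*) [Group H] [Finite H] [MulSemiringAction H C] [SMulCommClass H B C]
  [Algebra.IsInvariant B C H]

set_option maxHeartbeats 800000 in
/-- **Transversality of the cusp divisor**, abstract form. -/
theorem s36ct_descend (hinj : Function.Injective (algebraMap B C)) {π y : B} {w : C} {N : ℕ}
    (hN : 0 < N) (hy : algebraMap B C y = w ^ N) (hy0 : y ≠ 0) (hπ0 : π ≠ 0)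
    (hw : ∀ h : H, ∃ ζ : C, h • w = ζ * w)
    (hcard : IsUnit ((Nat.card H : ℕ) : B))
    (hNZD : ∀ a : C, w ∣ algebraMap B C π * a → w ∣ a)
    (n : Ideal B) [hn : n.IsMaximal] (hπn : π ∈ n) (hyn : y ∈ n)
    (hπdom : tq_Dom π n) (hgen : ∃ u, tq_GenBy π u n)
    (hup : ∀ Q : Ideal C, Q.IsMaximal → Q.comap (algebraMap B C) = n → ∀ x ∈ Q,
      ∃ s : C, s ∉ Q ∧ s * x ∈ Ideal.span {algebraMap B C π, w}) :
    ∃ t : B, tq_GenBy π t n ∧ tq_Dom t n ∧ w ∣ algebraMap B C t ∧
      (∀ p : B, w ∣ algebraMap B C p → ∃ s : B, s ∉ n ∧ t ∣ s * p) ∧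
      ∃ (e : ℕ) (s v : B), 0 < e ∧ s ∉ n ∧ v ∉ n ∧ s * y = v * t ^ e := by
  classical
  haveI hnp : n.IsPrime := hn.isPrime
  have hint : Algebra.IsIntegral B C := Algebra.IsInvariant.isIntegral B C H
  -- Step 1: a generator `d` with `w ∣ d`
  obtain ⟨u, hπn', hun, hugen⟩ := hgen
  obtain ⟨s1, a1, d, hs1, hs1u, hwd⟩ := s36ct_avg H hinj hw hcard n hup hun
  have hdn : d ∈ n := by
    have : d = s1 * u - π * a1 := by rw [hs1u]; ring
    rw [this]
    exact Ideal.sub_mem _ (Ideal.mul_mem_left _ _ hun) (Ideal.mul_mem_right _ _ hπn)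
  have hdgen : tq_GenBy π d n := by
    refine ⟨hπn, hdn, fun x hx => ?_⟩
    obtain ⟨s', hs', hs'x⟩ := hugen x hx
    obtain ⟨α, β, hαβ⟩ := Ideal.mem_span_pair.1 hs'x
    refine ⟨s1 * s', fun hmem => (hnp.mem_or_mem hmem).elim hs1 hs', ?_⟩
    refine Ideal.mem_span_pair.2 ⟨s1 * α + β * a1, β, ?_⟩
    calc (s1 * α + β * a1) * π + β * d = s1 * (α * π + β * u) + β * (π * a1 + d - s1 * u) := by ring
      _ = s1 * (s' * x) := by rw [hαβ, hs1u]; ring
      _ = s1 * s' * x := by ring
  -- the local ring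
  set R := Localization.AtPrime n with hR
  set π' : R := algebraMap B R π with hπ'
  set d' : R := algebraMap B R d with hd'
  have hmax : maximalIdeal R = Ideal.span {π', d'} := s36ct_max_of_genBy n hdgen
  have hπprime : Prime π' := s36ct_prime_of_dom n hπ0 hπn hπdom
  haveI : IsNoetherianRing R := IsLocalization.isNoetherianRing n.primeCompl R inferInstance
  haveI hufd : UniqueFactorizationMonoid R := fc_ufd hπprime hmax
  -- `w ∈ Q` for every prime `Q` of `C` whose contraction contains `y`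
  have hwQ : ∀ Q : Ideal C, Q.IsPrime → y ∈ Q.comap (algebraMap B C) → w ∈ Q := by
    intro Q hQ hyQ
    rw [Ideal.mem_comap, hy] at hyQ
    exact hQ.mem_of_pow_mem N hyQ
  -- the ideal `𝔭 = w C ∩ B` and its extension `P` to `R`
  set 𝔭 : Ideal B := (Ideal.span {w}).comap (algebraMap B C) with h𝔭
  have hmem𝔭 : ∀ p : B, p ∈ 𝔭 ↔ w ∣ algebraMap B C p := fun p => by
    rw [h𝔭, Ideal.mem_comap, Ideal.mem_span_singleton]
  have h𝔭n : 𝔭 ≤ n := by
    intro p hp
    obtain ⟨Q, hQmax, hQn⟩ := Ideal.exists_ideal_over_maximal_of_isIntegral (S := C) n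
      (by
        rw [(RingHom.injective_iff_ker_eq_bot _).1 hinj]
        exact bot_le)
    have hwQ' : w ∈ Q := hwQ Q hQmax.isPrime (by rw [hQn]; exact hyn)
    have : p ∈ Q.comap (algebraMap B C) := by
      rw [Ideal.mem_comap]
      obtain ⟨c, hc⟩ := (hmem𝔭 p).1 hp
      rw [hc]; exact Ideal.mul_mem_right _ _ hwQ'
    rwa [hQn] at this
  set P : Ideal R := 𝔭.map (algebraMap B R) with hP
  -- Step 2: Nakayama, `P ≤ (d')`
  have hPle : P ≤ Ideal.span {d'} := by
    have hfg : (P : Submodule R R).FG := IsNoetherian.noetherian P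
    have hjac : Ideal.span {π'} ≤ (⊥ : Ideal R).jacobson := by
      rw [IsLocalRing.jacobson_eq_maximalIdeal ⊥ bot_ne_top, hmax]
      exact Ideal.span_mono (by intro x hx; left; exact hx)
    refine Submodule.le_of_le_smul_of_le_jacobson_bot hfg hjac ?_
    rw [hP, Ideal.map_le_iff_le_comap]
    intro p hp
    rw [Ideal.mem_comap]
    obtain ⟨s', hs', hs'p⟩ := hdgen.2.2 p (h𝔭n hp)
    obtain ⟨α, β, hαβ⟩ := Ideal.mem_span_pair.1 hs'p
    -- `α ∈ 𝔭`
    have hα : α ∈ 𝔭 := by
      rw [hmem𝔭]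
      apply hNZD
      have h1 : algebraMap B C π * algebraMap B C α =
          algebraMap B C s' * algebraMap B C p - algebraMap B C β * algebraMap B C d := by
        rw [← map_mul, ← map_mul, ← map_mul, ← map_sub]
        congr 1
        rw [← hαβ]; ring
      rw [h1]
      exact dvd_sub (Dvd.dvd.mul_left ((hmem𝔭 p).1 hp) _) (Dvd.dvd.mul_left hwd _)
    obtain ⟨v, hv⟩ := s36ct_isUnit_of_notMem n hs'
    have h2 : (v : R) * algebraMap B R p = algebraMap B R α * π' + algebraMap B R β * d' := by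
      rw [hv, ← map_mul, ← hαβ, map_add, map_mul, map_mul]
    have h3 : algebraMap B R p = ((v⁻¹ : Rˣ) : R) * ((v : R) * algebraMap B R p) := by
      rw [← mul_assoc, Units.inv_mul, one_mul]
    rw [h3, h2, mul_add, add_comm]
    refine Submodule.add_mem_sup ?_ ?_
    · exact Ideal.mul_mem_left _ _ (Ideal.mul_mem_left _ _ (Ideal.mem_span_singleton_self d'))
    · -- the `π'` term lies in `(π') • P`
      have : ((v⁻¹ : Rˣ) : R) * (algebraMap B R α * π') =
          π' • (((v⁻¹ : Rˣ) : R) * algebraMap B R α) := by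
        rw [smul_eq_mul]; ring
      rw [this]
      exact Submodule.smul_mem_smul (Ideal.mem_span_singleton_self π')
        (Ideal.mul_mem_left _ _ (Ideal.mem_map_of_mem _ hα))
  -- `y' ∈ P`
  set y' : R := algebraMap B R y with hy'
  have hy'0 : y' ≠ 0 := by
    rw [hy', Ne, map_eq_zero_iff _ (s36ct_algebraMap_injective n)]; exact hy0
  have hy𝔭 : y ∈ 𝔭 := by
    rw [hmem𝔭, hy]; exact dvd_pow_self w hN.ne'
  have hdy : d' ∣ y' := by
    have : y' ∈ P := Ideal.mem_map_of_mem _ hy𝔭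
    exact Ideal.mem_span_singleton.1 (hPle this)
  have hd'0 : d' ≠ 0 := by
    intro h0
    rw [h0, zero_dvd_iff] at hdy
    exact hy'0 hdy
  have hd'mem : d' ∈ maximalIdeal R := (s36ct_mem_maximalIdeal_iff n d).2 hdn
  have hπ'mem : π' ∈ maximalIdeal R := (s36ct_mem_maximalIdeal_iff n π).2 hπn
  -- Step 3: `d'` is irreducible, hence prime
  have hirr : Irreducible d' := by
    rw [irreducible_iff]
    refine ⟨(mem_maximalIdeal _).1 hd'mem, fun a b hab => ?_⟩
    by_contra hcon
    push Not at hcon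
    obtain ⟨ha, hb⟩ := hcon
    have ha' : a ∈ maximalIdeal R := (mem_maximalIdeal _).2 ha
    have hb' : b ∈ maximalIdeal R := (mem_maximalIdeal _).2 hb
    -- `𝔪 ≤ (π')`
    have hle : maximalIdeal R ≤ Ideal.span {π'} := by
      have hfg : (maximalIdeal R : Submodule R R).FG := IsNoetherian.noetherian _
      have hjac : maximalIdeal R ≤ (⊥ : Ideal R).jacobson := by
        rw [IsLocalRing.jacobson_eq_maximalIdeal ⊥ bot_ne_top]
      refine Submodule.le_of_le_smul_of_le_jacobson_bot hfg hjac ?_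
      nth_rw 1 [hmax]
      rw [Ideal.span_le]
      rintro x (rfl | rfl)
      · exact Submodule.mem_sup_left (Ideal.mem_span_singleton_self _)
      · apply Submodule.mem_sup_right
        rw [hab]
        exact Submodule.smul_mem_smul ha' hb'
    obtain ⟨c, hc⟩ := Ideal.mem_span_singleton.1 (hle hd'mem)
    obtain ⟨v, c0, rfl⟩ := s36ct_exists_unit_mul n c
    -- `c0 ∈ 𝔭`
    have h1 : π' ∣ d' := ⟨_, hc⟩
    obtain ⟨s', hs', c1, hc1⟩ := (s36ct_dvd_loc_iff n π d).1 h1
    have hc1𝔭 : c1 ∈ 𝔭 := by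
      rw [hmem𝔭]
      apply hNZD
      rw [← map_mul, ← hc1, map_mul]
      exact Dvd.dvd.mul_left hwd _
    have h2 : algebraMap B R c1 ∈ Ideal.span {d'} := hPle (Ideal.mem_map_of_mem _ hc1𝔭)
    obtain ⟨c2, hc2⟩ := Ideal.mem_span_singleton.1 h2
    obtain ⟨vs, hvs⟩ := s36ct_isUnit_of_notMem n hs'
    -- `vs * d' = π' * d' * c2`
    have h3 : (vs : R) * d' = π' * (d' * c2) := by
      rw [hvs, hd', ← map_mul, hc1, map_mul, hc2]
    have h4 : d' * ((vs : R) - π' * c2) = 0 := by
      calc d' * ((vs : R) - π' * c2) = (vs : R) * d' - π' * (d' * c2) := by ring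
        _ = 0 := by rw [h3, sub_self]
    have h5 : (vs : R) - π' * c2 = 0 := (mul_eq_zero.1 h4).resolve_left hd'0
    have h6 : (vs : R) ∈ maximalIdeal R := by
      have : (vs : R) = π' * c2 := sub_eq_zero.1 h5
      rw [this]; exact Ideal.mul_mem_right _ _ hπ'mem
    exact (mem_maximalIdeal _).1 h6 vs.isUnit
  have hd'prime : Prime d' := UniqueFactorizationMonoid.irreducible_iff_prime.1 hirr
  -- Step 4: `y' = d' ^ e * y₁`, `y₁` a unit
  obtain ⟨e, y1, hy1, hyy1⟩ := WfDvdMonoid.max_power_factor hy'0 hirr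
  have he : 0 < e := by
    rcases Nat.eq_zero_or_pos e with h0 | h0
    · exfalso
      rw [h0, pow_zero, one_mul] at hyy1
      exact hy1 (hyy1 ▸ hdy)
    · exact h0
  have hy1unit : IsUnit y1 := by
    by_contra hnu
    have hy1m : y1 ∈ maximalIdeal R := (mem_maximalIdeal _).2 hnu
    have hle : Ideal.span {y1} ≤ maximalIdeal R := by
      rw [Ideal.span_le]; intro x hx; rw [Set.mem_singleton_iff.1 hx]; exact hy1m
    obtain ⟨𝔮, h𝔮min, h𝔮le⟩ := Ideal.exists_minimalPrimes_le hle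
    haveI h𝔮prime : 𝔮.IsPrime := h𝔮min.1.1
    have h𝔮ht : 𝔮.height ≤ 1 :=
      Ideal.height_le_one_of_isPrincipal_of_mem_minimalPrimes (Ideal.span {y1}) 𝔮 h𝔮min
    have hy1𝔮 : y1 ∈ 𝔮 := h𝔮min.1.2 (Ideal.mem_span_singleton_self y1)
    have hy'𝔮 : y' ∈ 𝔮 := by rw [hyy1]; exact Ideal.mul_mem_left _ _ hy1𝔮
    -- `d' ∈ 𝔮` by lying over
    have hd'𝔮 : d' ∈ 𝔮 := by
      set 𝔮B : Ideal B := 𝔮.comap (algebraMap B R) with h𝔮B
      haveI : 𝔮B.IsPrime := Ideal.comap_isPrime _ _
      obtain ⟨Q, -, hQprime, hQ⟩ := Ideal.exists_ideal_over_prime_of_isIntegral (S := C) 𝔮B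
        (⊥ : Ideal C) (by
          intro x hx
          rw [Ideal.mem_comap, Ideal.mem_bot] at hx
          rw [(map_eq_zero_iff _ hinj).1 hx]; exact Ideal.zero_mem _)
      have hwQ' : w ∈ Q := hwQ Q hQprime (by rw [hQ]; exact hy'𝔮)
      have : d ∈ Q.comap (algebraMap B C) := by
        rw [Ideal.mem_comap]
        obtain ⟨c, hc⟩ := hwd
        rw [hc]; exact Ideal.mul_mem_right _ _ hwQ'
      rw [hQ] at this
      exact this
    have hspan_prime : (Ideal.span {d'}).IsPrime :=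
      (Ideal.span_singleton_prime hd'0).2 hd'prime
    have hle' : Ideal.span {d'} ≤ 𝔮 := by
      rw [Ideal.span_le]; intro x hx; rw [Set.mem_singleton_iff.1 hx]; exact hd'𝔮
    have heq : Ideal.span {d'} = 𝔮 := by
      by_contra hne
      have hlt : Ideal.span {d'} < 𝔮 := lt_of_le_of_ne hle' hne
      have hbot : (⊥ : Ideal R) < Ideal.span {d'} := by
        rw [bot_lt_iff_ne_bot, Ne, Ideal.span_singleton_eq_bot]; exact hd'0
      haveI : (⊥ : Ideal R).IsPrime := Ideal.isPrime_bot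
      have h1 := Ideal.height_add_one_le_of_lt_of_isPrime hbot
      have h2 := Ideal.height_add_one_le_of_lt_of_isPrime hlt
      have h3 : (1 : ℕ∞) + 1 ≤ 𝔮.height := by
        calc (1 : ℕ∞) + 1 ≤ (⊥ : Ideal R).height + 1 + 1 := by
              gcongr; exact le_add_self
          _ ≤ (Ideal.span {d'}).height + 1 := by gcongr
          _ ≤ 𝔮.height := h2
      have h4 : (1 : ℕ∞) + 1 ≤ 1 := le_trans h3 h𝔮ht
      exact absurd h4 (by decide)
    rw [← heq] at hy1𝔮
    exact hy1 (Ideal.mem_span_singleton.1 hy1𝔮)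
  -- Step 5: back to `B`
  refine ⟨d, hdgen, s36ct_dom_of_prime n hd'prime, hwd, ?_, ?_⟩
  · intro p hp
    have : algebraMap B R p ∈ Ideal.span {d'} :=
      hPle (Ideal.mem_map_of_mem _ ((hmem𝔭 p).2 hp))
    exact (s36ct_dvd_loc_iff n d p).1 (Ideal.mem_span_singleton.1 this)
  · obtain ⟨v, v0, rfl⟩ := s36ct_exists_unit_mul n y1
    -- `v0 ∉ n`
    have hv0 : v0 ∉ n := by
      intro hmem
      have h1 : algebraMap B R v0 ∈ maximalIdeal R := (s36ct_mem_maximalIdeal_iff n v0).2 hmem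
      have h2 : (v : R) * algebraMap B R v0 ∈ maximalIdeal R := Ideal.mul_mem_left _ _ h1
      exact (mem_maximalIdeal _).1 h2 hy1unit
    -- `d ^ e * v0 ∣ y` locally, and conversely
    have h1 : algebraMap B R (d ^ e * v0) ∣ algebraMap B R y := by
      rw [← hy', hyy1, map_mul, map_pow]
      exact ⟨(v : R), by ring⟩
    obtain ⟨s, hs, c, hc⟩ := (s36ct_dvd_loc_iff n (d ^ e * v0) y).1 h1
    -- `c ∉ n`
    have hcn : c ∉ n := by
      intro hmem
      have h2 : algebraMap B R (s * y) = algebraMap B R (d ^ e * v0 * c) := by rw [hc]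
      rw [map_mul, ← hy', hyy1, map_mul, map_mul, map_pow] at h2
      obtain ⟨vs, hvs⟩ := s36ct_isUnit_of_notMem n hs
      have h3 : d' ^ e * algebraMap B R v0 * ((vs : R) * (v : R) - algebraMap B R c) = 0 := by
        rw [← hvs] at h2
        linear_combination h2
      have h4 : d' ^ e * algebraMap B R v0 ≠ 0 := by
        refine mul_ne_zero (pow_ne_zero _ hd'0) ?_
        rw [Ne, map_eq_zero_iff _ (s36ct_algebraMap_injective n)]
        rintro rfl
        exact hv0 n.zero_mem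
      have h5 : (vs : R) * (v : R) = algebraMap B R c :=
        sub_eq_zero.1 ((mul_eq_zero.1 h3).resolve_left h4)
      have h6 : algebraMap B R c ∈ maximalIdeal R := (s36ct_mem_maximalIdeal_iff n c).2 hmem
      rw [← h5] at h6
      exact (mem_maximalIdeal _).1 h6 (vs * v).isUnit
    refine ⟨e, s, v0 * c, he, hs, fun hmem => (hnp.mem_or_mem hmem).elim hv0 hcn, ?_⟩
    rw [hc]; ring

end Trans

end Fermat.Agent.S36
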