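/-
Project S36, leaf [CUSP-TRANS] (helper23; prefix `s36ct_`), part 4: the twin of `tc_cusp_global`
(`JT3/Model/CuspChart.lean`) WITH TRANSVERSALITY.

`A''` the Kummer base (`O[W]` localised), `p, W ∈ A''` with every maximal ideal containing `p, W`
equal to `(p, W)`, `W` a non-zero-divisor modulo... precisely `W ∣ p a → W ∣ a`; `B''` finite free
over `A''`, unramified in codimension one; `B = (B'')^{Gal(E''/E)}`, `π ↦ p`, `y ↦ W ^ N`.
Then at every maximal ideal `n ∋ π, y` of `B` there is `t` with `n = (π, t)` locally, `t` prime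
locally and `y = unit · t ^ e` locally.
-/
import Mathlib
import Fermat.Agent.JT3.Model.CuspChart
import Fermat.Agent.S36.CuspTrans.Trans

set_option autoImplicit false
set_option linter.unusedSectionVars false
set_option linter.unusedVariables false
set_option linter.style.haveILetI false

namespace Fermat.Agent.S36

open Fermat.Agent.JT3 IsLocalRing Module

attribute [local instance] FractionRing.liftAlgebra

/-- the conclusion of [CUSP-TRANS] at a maximal ideal `n` of `B`: `n = (π, t)` locally, `t` a prime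
element locally, `y = unit · t ^ e` locally. -/
def s36ct_TransAt {B : Type*} [CommRing B] (π y : B) (n : Ideal B) : Prop :=
  ∃ t : B, tq_GenBy π t n ∧ tq_Dom t n ∧
    ∃ (e : ℕ) (s v : B), 0 < e ∧ s ∉ n ∧ v ∉ n ∧ s * y = v * t ^ e

section CuspGlobal

variable {A'' : Type*} [CommRing A''] [IsDomain A''] [IsNoetherianRing A''] [IsIntegrallyClosed A'']
  {B'' : Type*} [CommRing B''] [IsDomain B''] [IsIntegrallyClosed B''] [Algebra A'' B'']
  [Module.IsTorsionFree A'' B''] [Module.Finite A'' B'']
  [Algebra.IsSeparable (FractionRing A'') (FractionRing B'')]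
  {ι : Type*} [Fintype ι] [DecidableEq ι]
  {B : Type*} [CommRing B] [IsNoetherianRing B] [IsIntegrallyClosed B] [Algebra B B'']
  (E E'' : Type*) [Field E] [Field E''] [Algebra B E] [IsFractionRing B E]
  [Algebra B'' E''] [IsFractionRing B'' E''] [Algebra E E''] [Algebra B E'']
  [IsScalarTower B E E''] [IsScalarTower B B'' E''] [IsIntegralClosure B'' B E'']
  [FiniteDimensional E E''] [IsGalois E E'']

set_option maxHeartbeats 800000 in
/-- **The cusp chart with transversality, global base.** -/
theorem s36ct_cusp_global (b : Basis ι A'' B'') {p W : A''} (hp : Prime p)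
    [IsPrincipalIdealRing (A'' ⧸ Ideal.span {p})]
    (hunr : ∀ P : Ideal B'', ∀ _ : P.IsPrime, (P.under A'').height = 1 →
      Algebra.IsUnramifiedAt A'' P)
    (hmW : ∀ m : Ideal A'', m.IsMaximal → p ∈ m → W ∈ m → m = Ideal.span {p, W})
    (hWp : ∀ a : A'', W ∣ p * a → W ∣ a)
    {π y : B} (hπ : algebraMap B B'' π = algebraMap A'' B'' p)
    {N : ℕ} (hN : 0 < N) (hy : algebraMap B B'' y = algebraMap A'' B'' W ^ N) (hy0 : y ≠ 0)
    (hdeg : IsUnit ((Module.finrank E E'' : ℕ) : B))
    (n : Ideal B) [hn : n.IsMaximal] (hπn : π ∈ n) (hyn : y ∈ n) :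
    s36ct_TransAt π y n := by
  classical
  haveI : IsDomain B := (IsFractionRing.injective B E).isDomain (algebraMap B E)
  have hinjBE'' : Function.Injective (algebraMap B E'') := by
    rw [IsScalarTower.algebraMap_eq B E E'']
    exact (algebraMap E E'').injective.comp (IsFractionRing.injective B E)
  have hinj : Function.Injective (algebraMap B B'') := by
    have h1 := hinjBE''
    rw [IsScalarTower.algebraMap_eq B B'' E''] at h1
    exact Function.Injective.of_comp h1
  haveI : Finite (B'' ≃ₐ[B] B'') := Finite.of_equiv _ (galRestrict B E E'' B'').toEquiv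
  haveI : Algebra.IsInvariant B B'' (B'' ≃ₐ[B] B'') := Algebra.isInvariant_of_isGalois' B E E'' B''
  have hcard : Nat.card (B'' ≃ₐ[B] B'') = Module.finrank E E'' := by
    rw [← Nat.card_congr (galRestrict B E E'' B'').toEquiv, IsGalois.card_aut_eq_finrank]
  -- regularity (JT3)
  obtain ⟨hgen, -, hdom⟩ := tc_cusp_global E E'' b hp hunr hπ hdeg n hπn
  -- `π ≠ 0`
  have hinjA'' : Function.Injective (algebraMap A'' B'') := by
    intro x z hxz
    have h1 : (x - z) • (1 : B'') = 0 := by
      rw [Algebra.smul_def, mul_one, map_sub, hxz, sub_self]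
    rcases smul_eq_zero.1 h1 with h2 | h2
    · exact sub_eq_zero.1 h2
    · exact absurd h2 one_ne_zero
  have hπ0 : π ≠ 0 := by
    rintro rfl
    rw [map_zero] at hπ
    exact hp.ne_zero (hinjA'' (by rw [← hπ, map_zero]))
  set w : B'' := algebraMap A'' B'' W with hw_def
  -- the Galois group multiplies `w` by roots of unity
  have hw : ∀ h : (B'' ≃ₐ[B] B''), ∃ ζ : B'', h • w = ζ * w := by
    intro h
    by_cases hw0 : w = 0
    · exact ⟨1, by rw [hw0, smul_zero, mul_zero]⟩
    have h1 : (h • w) ^ N = w ^ N := by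
      rw [← smul_pow', ← hy]
      exact h.commutes y
    -- the quotient in `E''`
    set z : E'' := algebraMap B'' E'' (h • w) / algebraMap B'' E'' w with hz
    have hwE : algebraMap B'' E'' w ≠ 0 := by
      rw [Ne, map_eq_zero_iff _ (IsFractionRing.injective B'' E'')]; exact hw0
    have hzN : z ^ N = 1 := by
      rw [hz, div_pow, ← map_pow, ← map_pow, h1, div_self]
      rw [map_pow]; exact pow_ne_zero _ hwE
    have hzint : IsIntegral B z := by
      refine ⟨Polynomial.X ^ N - 1, Polynomial.monic_X_pow_sub_C 1 hN.ne', ?_⟩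
      simp [hzN]
    obtain ⟨ζ, hζ⟩ := (IsIntegralClosure.isIntegral_iff (A := B'')).1 hzint
    refine ⟨ζ, ?_⟩
    apply IsFractionRing.injective B'' E''
    rw [map_mul, hζ, hz, div_mul_cancel₀ _ hwE]
  -- `π` is a non-zero-divisor modulo `w`
  have hNZD : ∀ a : B'', w ∣ algebraMap B B'' π * a → w ∣ a := by
    intro a ⟨c, hc⟩
    rw [hπ] at hc
    -- coordinates
    have hcoord : ∀ i, W ∣ b.repr a i := by
      intro i
      apply hWp
      refine ⟨b.repr c i, ?_⟩
      have h1 := congrArg (fun x => b.repr x i) hc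
      simp only [hw_def, ← Algebra.smul_def, map_smul, Finsupp.smul_apply, smul_eq_mul] at h1
      exact h1
    choose a' ha' using hcoord
    refine ⟨∑ i, a' i • b i, ?_⟩
    conv_lhs => rw [← b.sum_repr a]
    rw [hw_def, Finset.mul_sum]
    apply Finset.sum_congr rfl
    intro i _
    rw [ha' i, mul_smul, Algebra.smul_def (W : A'')]
  -- the étale chart upstairs
  have hd : IsUnit (Algebra.discr A'' b) := el_isUnit_discr_of_unram_codim_one b hunr
  have hup : ∀ Q : Ideal B'', Q.IsMaximal → Q.comap (algebraMap B B'') = n → ∀ x ∈ Q,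
      ∃ s : B'', s ∉ Q ∧ s * x ∈ Ideal.span {algebraMap B B'' π, w} := by
    intro Q hQmax hQn x hx
    haveI := hQmax
    haveI : Algebra.IsIntegral A'' B'' := Algebra.IsIntegral.of_finite A'' B''
    have hmmax : (Q.under A'').IsMaximal := Ideal.isMaximal_comap_of_isIntegral_of_isMaximal Q
    have hπQ : algebraMap B B'' π ∈ Q := by
      have : π ∈ Q.comap (algebraMap B B'') := by rw [hQn]; exact hπn
      exact this
    have hpm : p ∈ Q.under A'' := by
      change algebraMap A'' B'' p ∈ Q
      rw [← hπ]; exact hπQ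
    have hWm : W ∈ Q.under A'' := by
      change algebraMap A'' B'' W ∈ Q
      have : y ∈ Q.comap (algebraMap B B'') := by rw [hQn]; exact hyn
      rw [Ideal.mem_comap, hy] at this
      exact hQmax.isPrime.mem_of_pow_mem N this
    obtain ⟨s, hs, hsx⟩ := el_maximal_under b hd Q hx
    refine ⟨s, hs, ?_⟩
    rw [hmW _ hmmax hpm hWm, Ideal.map_span, Set.image_pair, ← hπ] at hsx
    exact hsx
  obtain ⟨t, h1, h2, -, -, h3⟩ := s36ct_descend (B'' ≃ₐ[B] B'') hinj hN hy hy0 hπ0 hw
    (hcard ▸ hdeg) hNZD n hπn hyn hdom hgen hup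
  exact ⟨t, h1, h2, h3⟩

end CuspGlobal

end Fermat.Agent.S36
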