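/-
Project S36, leaf [CUSP-TRANS] (helper23; prefix `s36ct_`), part 5: the twin of
`tc_cusp_integralClosure` (`JT3/Model/CuspInst.lean`) WITH TRANSVERSALITY: all rings are literally
integral closures.  The plumbing is copied from `tc_cusp_integralClosure`; only the last line
differs (`s36ct_cusp_global` instead of `tc_cusp_global`).
-/
import Mathlib
import Fermat.Agent.JT3.Model.CuspInst
import Fermat.Agent.S36.CuspTrans.Global

set_option autoImplicit false
set_option linter.unusedSectionVars false
set_option linter.unusedVariables false
set_option linter.style.haveILetI false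

namespace Fermat.Agent.S36

open Fermat.Agent.JT3 Module

attribute [local instance] FractionRing.liftAlgebra

section Inst

variable {A A'' : Type*} [CommRing A] [IsDomain A] [IsNoetherianRing A] [IsIntegrallyClosed A]
  [CharZero A]
  [CommRing A''] [IsDomain A''] [IsNoetherianRing A''] [IsIntegrallyClosed A'']
  [Algebra A A''] [Algebra.IsIntegral A A'']
  (K E K'' E'' : Type*) [Field K] [Field E] [Field K''] [Field E'']
  [Algebra A K] [IsFractionRing A K] [Algebra K E] [Algebra A E] [IsScalarTower A K E]
  [FiniteDimensional K E]
  [Algebra A'' K''] [IsFractionRing A'' K''] [Algebra K'' E''] [Algebra A'' E'']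
  [IsScalarTower A'' K'' E''] [FiniteDimensional K'' E'']
  [Algebra E E''] [Algebra A E''] [IsScalarTower A A'' E''] [IsScalarTower A E E'']
  [FiniteDimensional E E''] [IsGalois E E'']

include K K'' in
set_option maxHeartbeats 800000 in
/-- **The cusp chart for integral closures, with transversality.** -/
theorem s36ct_cusp_integralClosure {π y : A} {W : A''} (hp : Prime (algebraMap A A'' π))
    (hjac : algebraMap A A'' π ∈ (⊥ : Ideal A'').jacobson)
    [IsPrincipalIdealRing (A'' ⧸ Ideal.span {algebraMap A A'' π})]
    (hunr : ∀ P : Ideal (integralClosure A'' E''), ∀ _ : P.IsPrime, (P.under A'').height = 1 →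
      Algebra.IsUnramifiedAt A'' P)
    (hmW : ∀ m : Ideal A'', m.IsMaximal → algebraMap A A'' π ∈ m → W ∈ m →
      m = Ideal.span {algebraMap A A'' π, W})
    (hWp : ∀ a : A'', W ∣ algebraMap A A'' π * a → W ∣ a)
    {N : ℕ} (hN : 0 < N) (hy : algebraMap A A'' y = W ^ N) (hy0 : y ≠ 0)
    (hdeg : IsUnit ((Module.finrank E E'' : ℕ) : A))
    (n : Ideal (integralClosure A E)) [hn : n.IsMaximal]
    (hπn : algebraMap A (integralClosure A E) π ∈ n)
    (hyn : algebraMap A (integralClosure A E) y ∈ n) :
    s36ct_TransAt (algebraMap A (integralClosure A E) π) (algebraMap A (integralClosure A E) y)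
      n := by
  classical
  -- injectivity and characteristic zero
  have hinjAE : Function.Injective (algebraMap A E) := by
    rw [IsScalarTower.algebraMap_eq A K E]
    exact (algebraMap K E).injective.comp (IsFractionRing.injective A K)
  have hinjA''E'' : Function.Injective (algebraMap A'' E'') := by
    rw [IsScalarTower.algebraMap_eq A'' K'' E'']
    exact (algebraMap K'' E'').injective.comp (IsFractionRing.injective A'' K'')
  have hinjAE'' : Function.Injective (algebraMap A E'') := by
    rw [IsScalarTower.algebraMap_eq A E E'']
    exact (algebraMap E E'').injective.comp hinjAE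
  have hinjAA'' : Function.Injective (algebraMap A A'') := by
    rw [IsScalarTower.algebraMap_eq A A'' E''] at hinjAE''
    exact Function.Injective.of_comp hinjAE''
  haveI : CharZero A'' := charZero_of_injective_algebraMap hinjAA''
  haveI : CharZero K := charZero_of_injective_algebraMap (IsFractionRing.injective A K)
  haveI : CharZero K'' := charZero_of_injective_algebraMap (IsFractionRing.injective A'' K'')
  haveI : Algebra.IsSeparable K E := inferInstance
  haveI : Algebra.IsSeparable K'' E'' := inferInstance
  -- the two normalisations
  haveI : IsIntegrallyClosed (integralClosure A E) :=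
    integralClosure.isIntegrallyClosedOfFiniteExtension K
  haveI : IsIntegrallyClosed (integralClosure A'' E'') :=
    integralClosure.isIntegrallyClosedOfFiniteExtension K''
  haveI : Module.Finite A (integralClosure A E) := IsIntegralClosure.finite A K E _
  haveI : Module.Finite A'' (integralClosure A'' E'') := IsIntegralClosure.finite A'' K'' E'' _
  haveI : IsNoetherianRing (integralClosure A E) := IsNoetherianRing.of_finite A _
  haveI : IsFractionRing (integralClosure A E) E :=
    integralClosure.isFractionRing_of_finite_extension K E
  haveI : IsFractionRing (integralClosure A'' E'') E'' :=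
    integralClosure.isFractionRing_of_finite_extension K'' E''
  haveI : FaithfulSMul A'' (integralClosure A'' E'') := by
    rw [faithfulSMul_iff_algebraMap_injective]
    intro x y hxy
    apply hinjA''E''
    have := congrArg (algebraMap (integralClosure A'' E'') E'') hxy
    rwa [← IsScalarTower.algebraMap_apply, ← IsScalarTower.algebraMap_apply] at this
  haveI : Module.IsTorsionFree A'' (integralClosure A'' E'') := inferInstance
  haveI : CharZero (FractionRing A'') :=
    charZero_of_injective_algebraMap (IsFractionRing.injective A'' (FractionRing A''))
  haveI : Algebra.IsSeparable (FractionRing A'') (FractionRing (integralClosure A'' E'')) :=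
    inferInstance
  -- the algebra structures
  letI : Algebra (integralClosure A E) (integralClosure A'' E'') :=
    (tc_inclHom (A := A) (A'' := A'') E E'').toAlgebra
  haveI : IsScalarTower (integralClosure A E) E E'' := inferInstance
  haveI : IsScalarTower (integralClosure A E) (integralClosure A'' E'') E'' :=
    IsScalarTower.of_algebraMap_eq fun x => rfl
  haveI : IsScalarTower A (integralClosure A E) E'' := IsScalarTower.of_algebraMap_eq fun x => by
    change algebraMap A E'' x = algebraMap E E'' (algebraMap A E x)
    rw [← IsScalarTower.algebraMap_apply]
  haveI : IsIntegralClosure (integralClosure A'' E'') (integralClosure A E) E'' := by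
    refine ⟨Subtype.val_injective, fun {x} => ⟨fun hx => ?_, ?_⟩⟩
    · have h1 : IsIntegral A x := isIntegral_trans x hx
      exact ⟨⟨x, h1.tower_top⟩, rfl⟩
    · rintro ⟨y, rfl⟩
      have h1 : IsIntegral A (y : E'') := isIntegral_trans (y : E'') y.2
      exact h1.tower_top
  -- a basis
  haveI : Module.Free A'' (integralClosure A'' E'') :=
    nfr_free K'' E'' (integralClosure A'' E'') hp hjac
  let b := Module.Free.chooseBasis A'' (integralClosure A'' E'')
  have hπeq : algebraMap (integralClosure A E) (integralClosure A'' E'')
      (algebraMap A (integralClosure A E) π) =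
      algebraMap A'' (integralClosure A'' E'') (algebraMap A A'' π) := by
    apply Subtype.ext
    change algebraMap E E'' (algebraMap A E π) = algebraMap A'' E'' (algebraMap A A'' π)
    rw [← IsScalarTower.algebraMap_apply, ← IsScalarTower.algebraMap_apply]
  have hyeq : algebraMap (integralClosure A E) (integralClosure A'' E'')
      (algebraMap A (integralClosure A E) y) =
      algebraMap A'' (integralClosure A'' E'') W ^ N := by
    rw [← map_pow, ← hy]
    apply Subtype.ext
    change algebraMap E E'' (algebraMap A E y) = algebraMap A'' E'' (algebraMap A A'' y)
    rw [← IsScalarTower.algebraMap_apply, ← IsScalarTower.algebraMap_apply]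
  have hy0' : algebraMap A (integralClosure A E) y ≠ 0 := by
    intro h0
    apply hy0
    apply hinjAE
    have := congrArg (algebraMap (integralClosure A E) E) h0
    rwa [← IsScalarTower.algebraMap_apply, map_zero, ← map_zero (algebraMap A E)] at this
  have hdeg' : IsUnit ((Module.finrank E E'' : ℕ) : integralClosure A E) := by
    have := hdeg.map (algebraMap A (integralClosure A E))
    rwa [map_natCast] at this
  exact s36ct_cusp_global E E'' b hp hunr hmW hWp hπeq hN hyeq hy0' hdeg' n hπn hyn

end Inst

end Fermat.Agent.S36
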