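/-
Project S36, leaf [CUSP-TRANS] (helper23; prefix `s36ct_`), part 6: `s36ct_TransAt` descends from
a localisation and is invariant under ring isomorphisms (twins of `mch_*_of_localization`,
`mch_*_equiv` of `JT3/Model/Charts.lean`), and may be checked on a localisation of the base of a
normalised chart (twin of `mch_regAt_of_localization`).
-/
import Mathlib
import Fermat.Agent.JT3.Model.Charts
import Fermat.Agent.S36.CuspTrans.Global

set_option autoImplicit false
set_option linter.unusedSectionVars false
set_option linter.unusedVariables false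
set_option linter.style.haveILetI false

namespace Fermat.Agent.S36

open Fermat.Agent.JT3

section Transfer

variable {B S : Type*} [CommRing B] [CommRing S] [Algebra B S] (M : Submonoid B)
  [IsLocalization M S]
variable (n : Ideal B) [hn : n.IsPrime] (hdisj : ∀ s ∈ M, s ∉ n)

include hdisj

/-- **`tq_GenBy` descends from a localisation, with the generator.** -/
theorem s36ct_genBy_of_localization {π t : B}
    (h : tq_GenBy (algebraMap B S π) (algebraMap B S t) (n.map (algebraMap B S))) :
    tq_GenBy π t n := by
  obtain ⟨hπ, ht, hgen⟩ := h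
  have hcm := mch_comap_map (S := S) M n hdisj
  have hπn : π ∈ n := by rw [← hcm]; exact hπ
  have htn : t ∈ n := by rw [← hcm]; exact ht
  refine ⟨hπn, htn, fun x hx => ?_⟩
  obtain ⟨s', hs', hmem⟩ := hgen (algebraMap B S x) (Ideal.mem_map_of_mem _ hx)
  obtain ⟨s0, m0, hs0, hsm⟩ := mch_exists_num M n hdisj s' hs'
  have h1 : algebraMap B S (s0 * x) ∈ Ideal.span {algebraMap B S π, algebraMap B S t} := by
    rw [map_mul, ← hsm, mul_right_comm]
    exact Ideal.mul_mem_right _ _ hmem
  obtain ⟨m1, hm1, hmem1⟩ := (mch_mem_span_pair_iff M π t (s0 * x)).1 h1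
  refine ⟨m1 * s0, fun hc => ?_, by rwa [mul_assoc]⟩
  rcases hn.mem_or_mem hc with hc | hc
  · exact hdisj m1 hm1 hc
  · exact hs0 hc

/-- **`s36ct_TransAt` descends from a localisation.** -/
theorem s36ct_transAt_of_localization {π y : B}
    (h : s36ct_TransAt (algebraMap B S π) (algebraMap B S y) (n.map (algebraMap B S))) :
    s36ct_TransAt π y n := by
  obtain ⟨t', hgen, hdom, e, s', v', he, hs', hv', hrel⟩ := h
  obtain ⟨t0, mt, rfl⟩ := IsLocalization.exists_mk'_eq M t'
  have hspec : IsLocalization.mk' S t0 mt * algebraMap B S mt = algebraMap B S t0 :=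
    IsLocalization.mk'_spec S t0 mt
  have hmk : IsLocalization.mk' S t0 mt = IsLocalization.mk' S 1 mt * algebraMap B S t0 := by
    rw [mul_comm, IsLocalization.mul_mk'_eq_mk'_of_mul, mul_one]
  have hprime' := mch_map_isPrime (S := S) M n hdisj
  -- the generator may be taken to be `algebraMap t0`
  have hgen0 : tq_GenBy (algebraMap B S π) (algebraMap B S t0) (n.map (algebraMap B S)) := by
    obtain ⟨h1, h2, h3⟩ := hgen
    refine ⟨h1, by rw [← hspec]; exact Ideal.mul_mem_right _ _ h2, fun x hx => ?_⟩
    obtain ⟨s, hs, hsx⟩ := h3 x hx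
    refine ⟨s, hs, ?_⟩
    have hle : Ideal.span {algebraMap B S π, IsLocalization.mk' S t0 mt} ≤
        Ideal.span {algebraMap B S π, algebraMap B S t0} := by
      rw [Ideal.span_le]
      rintro z (rfl | rfl)
      · exact Ideal.subset_span (by simp)
      · rw [hmk]
        exact Ideal.mul_mem_left _ _ (Ideal.subset_span (by simp))
    exact hle hsx
  have hdom0 : tq_Dom (algebraMap B S t0) (n.map (algebraMap B S)) := by
    intro a b hab
    have hab' : a * b ∈ Ideal.span {IsLocalization.mk' S t0 mt} := by
      rw [Ideal.mem_span_singleton] at hab ⊢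
      obtain ⟨c, hc⟩ := hab
      exact ⟨c * algebraMap B S mt, by rw [hc, ← hspec]; ring⟩
    obtain ⟨s, hs, hor⟩ := hdom a b hab'
    refine ⟨s, hs, ?_⟩
    have hle : Ideal.span {IsLocalization.mk' S t0 mt} ≤ Ideal.span {algebraMap B S t0} := by
      rw [Ideal.span_le]
      rintro z rfl
      rw [SetLike.mem_coe, hmk]
      exact Ideal.mul_mem_left _ _ (Ideal.subset_span (by simp))
    exact hor.imp (fun h => hle h) (fun h => hle h)
  refine ⟨t0, s36ct_genBy_of_localization M n hdisj hgen0,
    mch_dom_of_localization M n hdisj hdom0, e, ?_⟩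
  -- the relation
  obtain ⟨s0, m0, hs0, hsm⟩ := mch_exists_num M n hdisj s' hs'
  obtain ⟨v0, m0', hv0, hvm⟩ := mch_exists_num M n hdisj v' hv'
  have h1 : algebraMap B S (s0 * m0' * (mt : B) ^ e * y) =
      algebraMap B S ((m0 : B) * v0 * t0 ^ e) := by
    simp only [map_mul, map_pow]
    rw [← hsm, ← hvm, ← hspec]
    calc s' * algebraMap B S m0 * algebraMap B S m0' * algebraMap B S mt ^ e * algebraMap B S y
        = (s' * algebraMap B S y) * (algebraMap B S m0 * algebraMap B S m0' *
            algebraMap B S mt ^ e) := by ring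
      _ = (v' * IsLocalization.mk' S t0 mt ^ e) * (algebraMap B S m0 * algebraMap B S m0' *
            algebraMap B S mt ^ e) := by rw [hrel]
      _ = _ := by ring
  obtain ⟨m1, hm1⟩ := (IsLocalization.eq_iff_exists M S).1 h1
  refine ⟨m1 * (s0 * m0' * (mt : B) ^ e), m1 * ((m0 : B) * v0), he, ?_, ?_, ?_⟩
  · intro hc
    rcases hn.mem_or_mem hc with hc | hc
    · exact hdisj m1 m1.2 hc
    · rcases hn.mem_or_mem hc with hc | hc
      · rcases hn.mem_or_mem hc with hc | hc
        · exact hs0 hc
        · exact hdisj m0' m0'.2 hc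
      · exact hdisj mt mt.2 (hn.mem_of_pow_mem e hc)
  · intro hc
    rcases hn.mem_or_mem hc with hc | hc
    · exact hdisj m1 m1.2 hc
    · rcases hn.mem_or_mem hc with hc | hc
      · exact hdisj m0 m0.2 hc
      · exact hv0 hc
  · calc (m1 : B) * (s0 * m0' * (mt : B) ^ e) * y = m1 * (s0 * m0' * (mt : B) ^ e * y) := by ring
      _ = m1 * ((m0 : B) * v0 * t0 ^ e) := hm1
      _ = _ := by ring

end Transfer

section Equiv

variable {B B' : Type*} [CommRing B] [CommRing B'] (e : B ≃+* B')

/-- **`s36ct_TransAt` is invariant under ring isomorphisms.** -/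
theorem s36ct_transAt_equiv {π y : B} {n' : Ideal B'}
    (h : s36ct_TransAt π y (n'.comap (e : B →+* B'))) : s36ct_TransAt (e π) (e y) n' := by
  obtain ⟨t, hgen, hdom, k, s, v, hk, hs, hv, hrel⟩ := h
  refine ⟨e t, mch_genBy_equiv e hgen, mch_dom_equiv e hdom, k, e s, e v, hk,
    fun hc => hs (Ideal.mem_comap.2 hc), fun hc => hv (Ideal.mem_comap.2 hc), ?_⟩
  rw [← map_mul, hrel, map_mul, map_pow]

end Equiv

section IntegralClosure

variable {R0 Rm E : Type*} [CommRing R0] [CommRing Rm] [Field E] [Algebra R0 Rm] [Algebra R0 E]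
  [Algebra Rm E] [IsScalarTower R0 Rm E]

/-- **Transversality of a normalised chart may be checked on a localisation of the base**
(twin of `mch_regAt_of_localization`). -/
theorem s36ct_transAt_of_localization_base (π y : R0)
    (n : Ideal (integralClosure R0 E)) [hn : n.IsMaximal]
    (hπ : algebraMap R0 (integralClosure R0 E) π ∈ n)
    (hy : algebraMap R0 (integralClosure R0 E) y ∈ n)
    (M : Submonoid R0) (hM : ∀ s ∈ M, algebraMap R0 (integralClosure R0 E) s ∉ n)
    (hM0 : ∀ s ∈ M, algebraMap R0 E s ≠ 0) [IsLocalization M Rm]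
    (hloc : ∀ Q : Ideal (integralClosure Rm E), Q.IsMaximal →
      algebraMap Rm (integralClosure Rm E) (algebraMap R0 Rm π) ∈ Q →
      algebraMap Rm (integralClosure Rm E) (algebraMap R0 Rm y) ∈ Q →
      s36ct_TransAt (algebraMap Rm (integralClosure Rm E) (algebraMap R0 Rm π))
        (algebraMap Rm (integralClosure Rm E) (algebraMap R0 Rm y)) Q) :
    s36ct_TransAt (algebraMap R0 (integralClosure R0 E) π)
      (algebraMap R0 (integralClosure R0 E) y) n := by
  letI : Algebra (integralClosure R0 E) (integralClosure Rm E) := (mch_incl (Rm := Rm)).toAlgebra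
  haveI : IsScalarTower (integralClosure R0 E) (integralClosure Rm E) E :=
    IsScalarTower.of_algebraMap_eq fun x => rfl
  haveI : IsScalarTower R0 (integralClosure R0 E) (integralClosure Rm E) :=
    IsScalarTower.of_algebraMap_eq fun x => by
      apply Subtype.ext
      change algebraMap R0 E x = algebraMap R0 E x
      rfl
  haveI : IsLocalization (Algebra.algebraMapSubmonoid E M) E := by
    apply IsLocalization.self
    rintro _ ⟨s, hs, rfl⟩
    exact (hM0 s hs).isUnit
  haveI hlocB : IsLocalization (Algebra.algebraMapSubmonoid (integralClosure R0 E) M)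
      (integralClosure Rm E) := IsLocalization.integralClosure (S := E) (Sf := E) M
  have hdisj : ∀ s ∈ Algebra.algebraMapSubmonoid (integralClosure R0 E) M, s ∉ n := by
    rintro _ ⟨s, hs, rfl⟩
    exact hM s hs
  haveI : n.IsPrime := hn.isPrime
  set MB := Algebra.algebraMapSubmonoid (integralClosure R0 E) M with hMB
  have hQmax := mch_map_isMaximal (S := integralClosure Rm E) MB n hdisj hn
  have hπeq : algebraMap Rm (integralClosure Rm E) (algebraMap R0 Rm π) =
      algebraMap (integralClosure R0 E) (integralClosure Rm E)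
        (algebraMap R0 (integralClosure R0 E) π) := by
    rw [← IsScalarTower.algebraMap_apply, ← IsScalarTower.algebraMap_apply]
  have hyeq : algebraMap Rm (integralClosure Rm E) (algebraMap R0 Rm y) =
      algebraMap (integralClosure R0 E) (integralClosure Rm E)
        (algebraMap R0 (integralClosure R0 E) y) := by
    rw [← IsScalarTower.algebraMap_apply, ← IsScalarTower.algebraMap_apply]
  have h := hloc _ hQmax (by rw [hπeq]; exact Ideal.mem_map_of_mem _ hπ)
    (by rw [hyeq]; exact Ideal.mem_map_of_mem _ hy)
  rw [hπeq, hyeq] at h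
  exact s36ct_transAt_of_localization MB n hdisj h

end IntegralClosure

end Fermat.Agent.S36
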