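/-
Project S36, leaf [CUSP-TRANS] (helper23; prefix `s36ct_`), part 7: the twin of `mdl_cusp_abs`
(`JT3/Model/GenericAbs.lean`) WITH TRANSVERSALITY, in localisation-free form.  Extra data: a prime
element `W` of the Kummer base `P''` with `y = W ^ N`, `W` not dividing `π` nor any `s ∈ M`, and
`(π, W)` a maximal ideal of `P''`.  The plumbing is copied from `mdl_cusp_abs`.
-/
import Mathlib
import Fermat.Agent.JT3.Model.GenericAbs
import Fermat.Agent.S36.CuspTrans.Inst
import Fermat.Agent.S36.CuspTrans.Transfer

set_option autoImplicit false
set_option linter.unusedSectionVars false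
set_option linter.unusedVariables false
set_option linter.style.haveILetI false

namespace Fermat.Agent.S36

open Fermat.Agent.JT3 Module

section Abs

variable {P P'' : Type*} [CommRing P] [IsDomain P] [IsNoetherianRing P] [IsIntegrallyClosed P]
  [CharZero P]
  [CommRing P''] [IsDomain P''] [IsNoetherianRing P''] [IsIntegrallyClosed P'']
  [Algebra P P''] [Algebra.IsIntegral P P'']
  (K E K'' E'' : Type*) [Field K] [Field E] [Field K''] [Field E'']
  [Algebra P K] [IsFractionRing P K] [Algebra K E] [Algebra P E] [IsScalarTower P K E]
  [FiniteDimensional K E]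
  [Algebra P'' K''] [IsFractionRing P'' K''] [Algebra K'' E''] [Algebra P'' E'']
  [IsScalarTower P'' K'' E''] [FiniteDimensional K'' E'']
  [Algebra E E''] [Algebra P E''] [IsScalarTower P P'' E''] [IsScalarTower P E E'']
  [FiniteDimensional E E''] [IsGalois E E'']

include K K'' in
set_option maxHeartbeats 1600000 in
/-- **The cusp chart with transversality, localisation-free abstract form.** -/
theorem s36ct_cusp_abs (π y : P) (W : P'') (M : Submonoid P)
    (hM1 : ∀ s ∈ M, ∀ f : P, s + π * f ∈ M)
    (hπ'' : Prime (algebraMap P P'' π))
    [IsPrincipalIdealRing (P'' ⧸ Ideal.span {algebraMap P P'' π})]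
    (hM2 : ∀ s ∈ M, ¬ algebraMap P P'' π ∣ algebraMap P P'' s)
    (hunr : ∀ (p : Ideal P'') [p.IsPrime], p.height = 1 →
      (∀ s ∈ M, algebraMap P P'' s ∉ p) → jt_Unram (el_bd_loc K'' p) E'')
    (hW : Prime W) (hWπ : ¬ W ∣ algebraMap P P'' π)
    (hWM : ∀ s ∈ M, ¬ W ∣ algebraMap P P'' s)
    (hmax : (Ideal.span {algebraMap P P'' π, W}).IsMaximal)
    {N : ℕ} (hN : 0 < N) (hy : algebraMap P P'' y = W ^ N)
    (hdeg : IsUnit ((Module.finrank E E'' : ℕ) : P))
    (n : Ideal (integralClosure P E)) [hn : n.IsMaximal]
    (hπn : algebraMap P (integralClosure P E) π ∈ n)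
    (hyn : algebraMap P (integralClosure P E) y ∈ n)
    (hMn : ∀ s ∈ M, algebraMap P (integralClosure P E) s ∉ n) :
    s36ct_TransAt (algebraMap P (integralClosure P E) π)
      (algebraMap P (integralClosure P E) y) n := by
  classical
  -- injectivity
  have hinjPK : Function.Injective (algebraMap P K) := IsFractionRing.injective P K
  have hinjPE : Function.Injective (algebraMap P E) := by
    rw [IsScalarTower.algebraMap_eq P K E]
    exact (algebraMap K E).injective.comp hinjPK
  have hinjP''K'' : Function.Injective (algebraMap P'' K'') := IsFractionRing.injective P'' K''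
  have hinjPE'' : Function.Injective (algebraMap P E'') := by
    rw [IsScalarTower.algebraMap_eq P E E'']
    exact (algebraMap E E'').injective.comp hinjPE
  have hinjPP'' : Function.Injective (algebraMap P P'') := by
    rw [IsScalarTower.algebraMap_eq P P'' E''] at hinjPE''
    exact Function.Injective.of_comp hinjPE''
  -- the multiplicative sets
  have hM0 : ∀ s ∈ M, s ≠ 0 := fun s hs h0 => hM2 s hs (by rw [h0, map_zero]; exact dvd_zero _)
  have hMle : M ≤ nonZeroDivisors P := fun s hs => mem_nonZeroDivisors_of_ne_zero (hM0 s hs)
  have hM''le : Algebra.algebraMapSubmonoid P'' M ≤ nonZeroDivisors P'' := by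
    rintro _ ⟨s, hs, rfl⟩
    exact mem_nonZeroDivisors_of_ne_zero ((map_ne_zero_iff _ hinjPP'').2 (hM0 s hs))
  -- the two localisations
  haveI dA : IsDomain (Localization M) :=
    IsLocalization.isDomain_of_le_nonZeroDivisors _ hMle
  haveI nA : IsNoetherianRing (Localization M) :=
    IsLocalization.isNoetherianRing M _ inferInstance
  haveI iA : IsIntegrallyClosed (Localization M) :=
    isIntegrallyClosed_of_isLocalization _ M hMle
  haveI cA : CharZero (Localization M) :=
    charZero_of_injective_algebraMap (IsLocalization.injective (Localization M) hMle)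
  haveI dA'' : IsDomain (Localization (Algebra.algebraMapSubmonoid P'' M)) :=
    IsLocalization.isDomain_of_le_nonZeroDivisors _ hM''le
  haveI nA'' : IsNoetherianRing (Localization (Algebra.algebraMapSubmonoid P'' M)) :=
    IsLocalization.isNoetherianRing (Algebra.algebraMapSubmonoid P'' M) _ inferInstance
  haveI iA'' : IsIntegrallyClosed (Localization (Algebra.algebraMapSubmonoid P'' M)) :=
    isIntegrallyClosed_of_isLocalization _ (Algebra.algebraMapSubmonoid P'' M) hM''le
  haveI intA : Algebra.IsIntegral (Localization M)
      (Localization (Algebra.algebraMapSubmonoid P'' M)) := ⟨isIntegral_localization⟩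
  -- `A → K → E`
  have hunitsK : ∀ s : M, IsUnit (algebraMap P K s) := fun s =>
    isUnit_iff_ne_zero.2 ((map_ne_zero_iff _ hinjPK).2 (hM0 s s.2))
  letI algAK : Algebra (Localization M) K := (IsLocalization.lift (M := M) hunitsK).toAlgebra
  haveI t1 : IsScalarTower P (Localization M) K :=
    IsScalarTower.of_algebraMap_eq fun x => (IsLocalization.lift_eq hunitsK x).symm
  letI algAE : Algebra (Localization M) E :=
    ((algebraMap K E).comp (algebraMap (Localization M) K)).toAlgebra
  haveI t2 : IsScalarTower (Localization M) K E := IsScalarTower.of_algebraMap_eq fun x => rfl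
  haveI t3 : IsScalarTower P (Localization M) E := IsScalarTower.of_algebraMap_eq fun x => by
    rw [IsScalarTower.algebraMap_apply P K E, IsScalarTower.algebraMap_apply P (Localization M) K]
    rfl
  haveI fA : IsFractionRing (Localization M) K :=
    IsFractionRing.isFractionRing_of_isDomain_of_isLocalization M _ K
  -- `A'' → K'' → E''`
  have hunitsK'' : ∀ s : Algebra.algebraMapSubmonoid P'' M, IsUnit (algebraMap P'' K'' s) :=
    fun s => isUnit_iff_ne_zero.2 ((map_ne_zero_iff _ hinjP''K'').2
      (nonZeroDivisors.ne_zero (hM''le s.2)))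
  letI algAK'' : Algebra (Localization (Algebra.algebraMapSubmonoid P'' M)) K'' :=
    (IsLocalization.lift (M := Algebra.algebraMapSubmonoid P'' M) hunitsK'').toAlgebra
  haveI t1'' : IsScalarTower P'' (Localization (Algebra.algebraMapSubmonoid P'' M)) K'' :=
    IsScalarTower.of_algebraMap_eq fun x => (IsLocalization.lift_eq hunitsK'' x).symm
  letI algAE'' : Algebra (Localization (Algebra.algebraMapSubmonoid P'' M)) E'' :=
    ((algebraMap K'' E'').comp
      (algebraMap (Localization (Algebra.algebraMapSubmonoid P'' M)) K'')).toAlgebra
  haveI t2'' : IsScalarTower (Localization (Algebra.algebraMapSubmonoid P'' M)) K'' E'' :=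
    IsScalarTower.of_algebraMap_eq fun x => rfl
  haveI t3'' : IsScalarTower P'' (Localization (Algebra.algebraMapSubmonoid P'' M)) E'' :=
    IsScalarTower.of_algebraMap_eq fun x => by
      rw [IsScalarTower.algebraMap_apply P'' K'' E'',
        IsScalarTower.algebraMap_apply P'' (Localization (Algebra.algebraMapSubmonoid P'' M)) K'']
      rfl
  haveI fA'' : IsFractionRing (Localization (Algebra.algebraMapSubmonoid P'' M)) K'' :=
    IsFractionRing.isFractionRing_of_isDomain_of_isLocalization
      (Algebra.algebraMapSubmonoid P'' M) _ K''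
  -- `A → E''`
  letI algAEE : Algebra (Localization M) E'' :=
    ((algebraMap E E'').comp (algebraMap (Localization M) E)).toAlgebra
  haveI t4 : IsScalarTower (Localization M) E E'' := IsScalarTower.of_algebraMap_eq fun x => rfl
  haveI t5 : IsScalarTower (Localization M) (Localization (Algebra.algebraMapSubmonoid P'' M)) E'' := by
    apply IsScalarTower.of_algebraMap_eq'
    apply IsLocalization.ringHom_ext M
    ext x
    simp only [RingHom.comp_apply]
    rw [← IsScalarTower.algebraMap_apply P (Localization M)
        (Localization (Algebra.algebraMapSubmonoid P'' M)),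
      IsScalarTower.algebraMap_apply P P'' (Localization (Algebra.algebraMapSubmonoid P'' M)),
      ← IsScalarTower.algebraMap_apply P'' (Localization (Algebra.algebraMapSubmonoid P'' M)) E'',
      ← IsScalarTower.algebraMap_apply P P'' E'']
    change algebraMap E E'' (algebraMap (Localization M) E (algebraMap P (Localization M) x)) = _
    rw [← IsScalarTower.algebraMap_apply P (Localization M) E,
      ← IsScalarTower.algebraMap_apply P E E'']
  -- the element `π`
  have hπeq : algebraMap (Localization M) (Localization (Algebra.algebraMapSubmonoid P'' M))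
      (algebraMap P (Localization M) π) =
      algebraMap P'' (Localization (Algebra.algebraMapSubmonoid P'' M)) (algebraMap P P'' π) := by
    rw [← IsScalarTower.algebraMap_apply, ← IsScalarTower.algebraMap_apply]
  have hM2'' : ∀ s ∈ Algebra.algebraMapSubmonoid P'' M, ¬ algebraMap P P'' π ∣ s := by
    rintro _ ⟨s, hs, rfl⟩
    exact hM2 s hs
  have hprime : Prime (algebraMap (Localization M)
      (Localization (Algebra.algebraMapSubmonoid P'' M)) (algebraMap P (Localization M) π)) := by
    rw [hπeq]
    exact mdl_prime_of_isLocalization (Algebra.algebraMapSubmonoid P'' M) hπ'' hM2''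
  have hjacA : algebraMap P (Localization M) π ∈ (⊥ : Ideal (Localization M)).jacobson :=
    el_pb_mem_jacobson_of_isLocalization M π hM1
  have hjac : algebraMap (Localization M) (Localization (Algebra.algebraMapSubmonoid P'' M))
      (algebraMap P (Localization M) π) ∈
      (⊥ : Ideal (Localization (Algebra.algebraMapSubmonoid P'' M))).jacobson :=
    mdl_mem_jacobson_of_isIntegral hjacA
  haveI hpid : IsPrincipalIdealRing (Localization (Algebra.algebraMapSubmonoid P'' M) ⧸
      Ideal.span {algebraMap (Localization M) (Localization (Algebra.algebraMapSubmonoid P'' M))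
        (algebraMap P (Localization M) π)}) := by
    rw [hπeq]
    exact mdl_quot_isPrincipalIdealRing (Algebra.algebraMapSubmonoid P'' M) _
  -- unramifiedness in codimension one
  have hunrA'' : ∀ (p : Ideal (Localization (Algebra.algebraMapSubmonoid P'' M))) [p.IsPrime],
      p.height = 1 → jt_Unram (el_bd_loc K'' p) E'' := by
    intro p hp hp1
    have hp' : (p.under P'').height = 1 := by
      rw [IsLocalization.height_under (Algebra.algebraMapSubmonoid P'' M) p]; exact hp1
    have hMp : ∀ s ∈ M, algebraMap P P'' s ∉ p.under P'' := by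
      intro s hs hmem
      have hu : IsUnit (algebraMap P'' (Localization (Algebra.algebraMapSubmonoid P'' M))
          (algebraMap P P'' s)) :=
        IsLocalization.map_units _ (⟨algebraMap P P'' s, ⟨s, hs, rfl⟩⟩ :
          Algebra.algebraMapSubmonoid P'' M)
      exact hp.ne_top (Ideal.eq_top_of_isUnit_mem p hmem hu)
    exact el_pb_unram_congr E'' (el_bd_loc K'' (p.under P'')) (el_bd_loc K'' p)
      (fun x => el_pb_loc_eq_loc_under (Algebra.algebraMapSubmonoid P'' M) K'' p x)
      (hunr (p.under P'') hp' hMp)
  have hcodim := el_sm_unramCodimOne K'' E'' hunrA''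
  have hdeg' : IsUnit ((Module.finrank E E'' : ℕ) : Localization M) := by
    have := hdeg.map (algebraMap P (Localization M))
    rwa [map_natCast] at this
  have hME0 : ∀ s ∈ M, algebraMap P E s ≠ 0 := fun s hs =>
    (map_ne_zero_iff _ hinjPE).2 (hM0 s hs)
  -- the element `W`
  have hWM'' : ∀ s ∈ Algebra.algebraMapSubmonoid P'' M, ¬ W ∣ s := by
    rintro _ ⟨s, hs, rfl⟩
    exact hWM s hs
  have hWprime : Prime (algebraMap P'' (Localization (Algebra.algebraMapSubmonoid P'' M)) W) :=
    mdl_prime_of_isLocalization (Algebra.algebraMapSubmonoid P'' M) hW hWM''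
  have hWndvd : ¬ algebraMap P'' (Localization (Algebra.algebraMapSubmonoid P'' M)) W ∣
      algebraMap (Localization M) (Localization (Algebra.algebraMapSubmonoid P'' M))
        (algebraMap P (Localization M) π) := by
    rw [hπeq]
    rintro ⟨z, hz⟩
    obtain ⟨z0, s0, rfl⟩ := IsLocalization.exists_mk'_eq (Algebra.algebraMapSubmonoid P'' M) z
    have h1 : algebraMap P'' (Localization (Algebra.algebraMapSubmonoid P'' M))
        (algebraMap P P'' π * (s0 : P'')) =
        algebraMap P'' (Localization (Algebra.algebraMapSubmonoid P'' M)) (W * z0) := by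
      rw [map_mul, map_mul, hz, mul_assoc, IsLocalization.mk'_spec]
    have h2 : algebraMap P P'' π * (s0 : P'') = W * z0 :=
      IsLocalization.injective _ hM''le h1
    have h3 : W ∣ algebraMap P P'' π * (s0 : P'') := ⟨z0, h2⟩
    rcases hW.dvd_or_dvd h3 with h | h
    · exact hWπ h
    · exact hWM'' _ s0.2 h
  have hWp : ∀ a : Localization (Algebra.algebraMapSubmonoid P'' M),
      algebraMap P'' (Localization (Algebra.algebraMapSubmonoid P'' M)) W ∣
        algebraMap (Localization M) (Localization (Algebra.algebraMapSubmonoid P'' M))
          (algebraMap P (Localization M) π) * a →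
      algebraMap P'' (Localization (Algebra.algebraMapSubmonoid P'' M)) W ∣ a := by
    intro a ha
    rcases hWprime.dvd_or_dvd ha with h | h
    · exact absurd h hWndvd
    · exact h
  have hmW : ∀ m : Ideal (Localization (Algebra.algebraMapSubmonoid P'' M)), m.IsMaximal →
      algebraMap (Localization M) (Localization (Algebra.algebraMapSubmonoid P'' M))
        (algebraMap P (Localization M) π) ∈ m →
      algebraMap P'' (Localization (Algebra.algebraMapSubmonoid P'' M)) W ∈ m →
      m = Ideal.span {algebraMap (Localization M)
          (Localization (Algebra.algebraMapSubmonoid P'' M)) (algebraMap P (Localization M) π),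
        algebraMap P'' (Localization (Algebra.algebraMapSubmonoid P'' M)) W} := by
    intro m hm hπm hWm
    rw [hπeq] at hπm ⊢
    have hle : Ideal.span {algebraMap P P'' π, W} ≤
        m.comap (algebraMap P'' (Localization (Algebra.algebraMapSubmonoid P'' M))) := by
      rw [Ideal.span_le]
      rintro x (rfl | rfl)
      · exact hπm
      · exact hWm
    have hne : m.comap (algebraMap P'' (Localization (Algebra.algebraMapSubmonoid P'' M))) ≠ ⊤ :=
      (Ideal.comap_isPrime _ m).ne_top
    have heq : Ideal.span {algebraMap P P'' π, W} =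
        m.comap (algebraMap P'' (Localization (Algebra.algebraMapSubmonoid P'' M))) :=
      hmax.eq_of_le hne hle
    have h1 : (m.comap (algebraMap P'' (Localization (Algebra.algebraMapSubmonoid P'' M)))).map
        (algebraMap P'' (Localization (Algebra.algebraMapSubmonoid P'' M))) = m :=
      IsLocalization.map_under (Algebra.algebraMapSubmonoid P'' M)
        (Localization (Algebra.algebraMapSubmonoid P'' M)) m
    rw [← heq, Ideal.map_span] at h1
    rw [← h1]
    congr 1
    ext x
    simp [Set.image_pair]
  have hyeq : algebraMap (Localization M) (Localization (Algebra.algebraMapSubmonoid P'' M))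
      (algebraMap P (Localization M) y) =
      algebraMap P'' (Localization (Algebra.algebraMapSubmonoid P'' M)) W ^ N := by
    rw [← map_pow, ← hy, ← IsScalarTower.algebraMap_apply, ← IsScalarTower.algebraMap_apply]
  have hy0 : algebraMap P (Localization M) y ≠ 0 := by
    intro h0
    have h1 : algebraMap P'' (Localization (Algebra.algebraMapSubmonoid P'' M)) W ^ N = 0 := by
      rw [← hyeq, h0, map_zero]
    exact hWprime.ne_zero (pow_eq_zero_iff hN.ne' |>.1 h1)
  refine s36ct_transAt_of_localization_base (Rm := Localization M) π y n hπn hyn M hMn hME0 ?_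
  intro Q hQ hπQ hyQ
  haveI := hQ
  exact s36ct_cusp_integralClosure K E K'' E'' hprime hjac (fun P hP h => @hcodim P hP h)
    hmW hWp hN hyeq hy0 hdeg' Q hπQ hyQ

end Abs

end Fermat.Agent.S36
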