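/-
Project S36, leaf [CUSP-TRANS] (helper23; prefix `s36ct_`), part 8: the twin of
`mdl_cusp_poly_aux` / `mdl_cusp_poly` (`JT3/Model/GenericCusp.lean`) WITH TRANSVERSALITY:
`P = O[X]`, Kummer base `P'' = mdl_PW O N c` (`X = W^N + c`), `W = X` (of `mdl_PW`), `y = X - c`.
-/
import Mathlib
import Fermat.Agent.JT3.Model.GenericCusp
import Fermat.Agent.S36.CuspTrans.Abs

set_option autoImplicit false
set_option linter.unusedSectionVars false
set_option linter.unusedVariables false
set_option linter.style.haveILetI false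

namespace Fermat.Agent.S36

open Fermat.Agent.JT3 Polynomial IsLocalRing

section Aux

variable {O : Type*} [CommRing O] [IsDomain O] [IsDiscreteValuationRing O]

/-- `(ϖ, X)` is a maximal ideal of `O[X]`. -/
theorem s36ct_span_C_X_isMaximal {ϖ : O} (hϖ : Irreducible ϖ) :
    (Ideal.span {C ϖ, (X : O[X])}).IsMaximal := by
  have hsurj : Function.Surjective ((residue O).comp (evalRingHom (0 : O))) := by
    intro z
    obtain ⟨a, rfl⟩ := residue_surjective z
    exact ⟨C a, by simp⟩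
  have h : Ideal.span {C ϖ, (X : O[X])} = RingHom.ker ((residue O).comp (evalRingHom (0 : O))) := by
    apply le_antisymm
    · rw [Ideal.span_le]
      rintro x (rfl | rfl)
      · rw [SetLike.mem_coe, RingHom.mem_ker, RingHom.comp_apply, coe_evalRingHom, eval_C,
          residue_eq_zero_iff, hϖ.maximalIdeal_eq]
        exact Ideal.mem_span_singleton_self ϖ
      · rw [SetLike.mem_coe, RingHom.mem_ker, RingHom.comp_apply, coe_evalRingHom, eval_X,
          map_zero]
    · intro f hf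
      rw [RingHom.mem_ker, RingHom.comp_apply, coe_evalRingHom, residue_eq_zero_iff,
        hϖ.maximalIdeal_eq, Ideal.mem_span_singleton'] at hf
      obtain ⟨a, ha⟩ := hf
      have h1 : f = f.divX * X + C a * C ϖ := by
        rw [← C_mul, ha, ← coeff_zero_eq_eval_zero, divX_mul_X_add]
      rw [h1]
      exact Ideal.add_mem _ (Ideal.mul_mem_left _ _ (Ideal.subset_span (by simp)))
        (Ideal.mul_mem_left _ _ (Ideal.subset_span (by simp)))
  rw [h]
  exact RingHom.ker_isMaximal_of_surjective _ hsurj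

/-- `X ∣ f(X^N + c)` iff `f(c) = 0`. -/
theorem s36ct_X_dvd_sigma_iff {N : ℕ} (hN : 0 < N) (c : O) (f : O[X]) :
    (X : O[X]) ∣ mdl_sigma N c f ↔ f.eval c = 0 := by
  rw [X_dvd_iff, coeff_zero_eq_eval_zero, mdl_sigma_apply, eval_comp, eval_add, eval_pow, eval_X,
    eval_C, zero_pow hN.ne', zero_add]

/-- elements of `el_pb_M g` take unit values where `g` does. -/
theorem s36ct_eval_ne_zero_of_mem_M {g s : O[X]} (c : O) (hgc : IsUnit (g.eval c))
    (hs : s ∈ el_pb_M g) : s.eval c ≠ 0 := by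
  obtain ⟨k, hk⟩ := el_pb_mem_M.1 hs
  intro h0
  have h1 := congrArg (Polynomial.eval (residue O c)) hk
  rw [eval_pow, el_pb_red_apply, el_pb_red_apply, eval_map_apply, eval_map_apply, h0, map_zero]
    at h1
  have h2 : residue O (g.eval c) ≠ 0 := by
    rw [Ne, residue_eq_zero_iff]
    exact fun h => (mem_maximalIdeal _).1 h hgc
  exact pow_ne_zero k h2 h1

end Aux

section CuspPolyAux

variable {O : Type*} [CommRing O] [IsDomain O] [IsDiscreteValuationRing O] [CharZero O]
  (N : ℕ) (c : O)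
  (K E K'' E'' : Type*) [Field K] [Field E] [Field K''] [Field E'']
  [Algebra O[X] K] [IsFractionRing O[X] K] [Algebra K E] [Algebra O[X] E] [IsScalarTower O[X] K E]
  [FiniteDimensional K E]
  [aK'' : Algebra (mdl_PW O N c) K''] [fK'' : IsFractionRing (mdl_PW O N c) K'']
  [Algebra K'' E''] [aE'' : Algebra (mdl_PW O N c) E'']
  [t1 : IsScalarTower (mdl_PW O N c) K'' E''] [FiniteDimensional K'' E'']
  [Algebra E E''] [Algebra O[X] E''] [IsScalarTower O[X] E E'']
  [t2 : IsScalarTower O[X] (mdl_PW O N c) E'']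
  [FiniteDimensional E E''] [IsGalois E E'']

include K K'' in
/-- `s36ct_cusp_abs` for `P = O[X]`, `P'' = mdl_PW O N c`, `M = el_pb_M g`, `W = X`,
`y = X - c`. -/
theorem s36ct_cusp_poly_aux {ϖ : O} (hϖ : Irreducible ϖ) (hN : 0 < N) (g : O[X])
    (hg : el_pb_red g ≠ 0)
    (hunr : ∀ (p'' : Ideal (mdl_PW O N c)) [p''.IsPrime], p''.height = 1 →
      algebraMap O[X] (mdl_PW O N c) g ∉ p'' → jt_Unram (el_bd_loc K'' p'') E'')
    (hdeg : IsUnit ((Module.finrank E E'' : ℕ) : O))
    (n : Ideal (integralClosure O[X] E)) [hn : n.IsMaximal]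
    (hπn : algebraMap O[X] (integralClosure O[X] E) (C ϖ) ∈ n)
    (hyn : algebraMap O[X] (integralClosure O[X] E) (X - C c) ∈ n)
    (hgn : algebraMap O[X] (integralClosure O[X] E) g ∉ n) :
    s36ct_TransAt (algebraMap O[X] (integralClosure O[X] E) (C ϖ))
      (algebraMap O[X] (integralClosure O[X] E) (X - C c)) n := by
  haveI iInt : Algebra.IsIntegral O[X] (mdl_PW O N c) := ⟨mdl_sigma_isIntegral c hN⟩
  have hπeq : algebraMap O[X] (mdl_PW O N c) (C ϖ) = (C ϖ : O[X]) := mdl_sigma_C N c ϖ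
  have hprimeπ : Prime (C ϖ : O[X]) := prime_C_iff.2 hϖ.prime
  have hπ'' : Prime (algebraMap O[X] (mdl_PW O N c) (C ϖ)) := by
    rw [hπeq]; exact hprimeπ
  haveI hpid : IsPrincipalIdealRing
      (mdl_PW O N c ⧸ Ideal.span {algebraMap O[X] (mdl_PW O N c) (C ϖ)}) := by
    rw [hπeq]; exact el_pb_quot_isPrincipalIdealRing hϖ
  have hM2 : ∀ s ∈ el_pb_M g, ¬ algebraMap O[X] (mdl_PW O N c) (C ϖ) ∣
      algebraMap O[X] (mdl_PW O N c) s := by
    intro s hs
    rw [hπeq]
    exact mdl_not_dvd_sigma c hϖ hN hg hs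
  have hdeg' : IsUnit ((Module.finrank E E'' : ℕ) : O[X]) := by
    have := hdeg.map (C : O →+* O[X])
    rwa [map_natCast] at this
  -- the multiplicative set avoids `n`
  have hMn : ∀ s ∈ el_pb_M g, algebraMap O[X] (integralClosure O[X] E) s ∉ n := by
    intro s hs hsn
    obtain ⟨k, hk⟩ := el_pb_mem_M.1 hs
    have hker : g ^ k - s ∈ Ideal.span {C ϖ} := by
      rw [← el_pb_ker_red hϖ, RingHom.mem_ker, map_sub, map_pow, hk, sub_self]
    obtain ⟨r, hr⟩ := Ideal.mem_span_singleton'.1 hker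
    have hpow : algebraMap O[X] (integralClosure O[X] E) (g ^ k) ∈ n := by
      have : g ^ k = s + r * C ϖ := by rw [hr]; ring
      rw [this, map_add, map_mul]
      exact n.add_mem hsn (n.mul_mem_left _ hπn)
    rw [map_pow] at hpow
    exact hgn (hn.isPrime.mem_of_pow_mem k hpow)
  -- `g(c)` is a unit
  have hgc : IsUnit (g.eval c) := by
    by_contra hnu
    have hmem : g.eval c ∈ maximalIdeal O := (mem_maximalIdeal _).2 hnu
    rw [hϖ.maximalIdeal_eq, Ideal.mem_span_singleton'] at hmem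
    obtain ⟨a, ha⟩ := hmem
    have hdecomp : g = (X - C c) * (g /ₘ (X - C c)) + C a * C ϖ := by
      have h1 := modByMonic_add_div g (X - C c)
      rw [modByMonic_X_sub_C_eq_C_eval] at h1
      rw [← C_mul, ha]
      conv_lhs => rw [← h1]
      ring
    apply hgn
    rw [hdecomp, map_add, map_mul, map_mul]
    exact n.add_mem (n.mul_mem_right _ hyn) (n.mul_mem_left _ hπn)
  -- the element `W = X`
  have hW : Prime (X : mdl_PW O N c) := (prime_X : Prime (X : O[X]))
  have hWπ : ¬ (X : mdl_PW O N c) ∣ algebraMap O[X] (mdl_PW O N c) (C ϖ) := by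
    rw [hπeq]
    intro h
    have h1 := (X_dvd_iff (f := (C ϖ : O[X]))).1 h
    rw [coeff_C_zero] at h1
    exact hϖ.ne_zero h1
  have hWM : ∀ s ∈ el_pb_M g, ¬ (X : mdl_PW O N c) ∣ algebraMap O[X] (mdl_PW O N c) s := by
    intro s hs h
    have h1 : (X : O[X]) ∣ mdl_sigma N c s := h
    rw [s36ct_X_dvd_sigma_iff hN] at h1
    exact s36ct_eval_ne_zero_of_mem_M c hgc hs h1
  have hmax : (Ideal.span {algebraMap O[X] (mdl_PW O N c) (C ϖ), (X : mdl_PW O N c)}).IsMaximal := by
    rw [hπeq]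
    exact s36ct_span_C_X_isMaximal hϖ
  have hy : algebraMap O[X] (mdl_PW O N c) (X - C c) = (X : mdl_PW O N c) ^ N :=
    mdl_sigma_X_sub_C_self N c
  exact s36ct_cusp_abs (P := O[X]) (P'' := mdl_PW O N c) K E K'' E'' (C ϖ) (X - C c) X (el_pb_M g)
    (fun s hs f => el_pb_add_mem_M hϖ hs f) hπ'' hM2
    (fun p hp h1 hM => @hunr p hp h1 (hM g (el_pb_h_mem_M g))) hW hWπ hWM hmax hN hy hdeg' n hπn
    hyn hMn

end CuspPolyAux

section CuspPoly

variable {O : Type*} [CommRing O] [IsDomain O] [IsDiscreteValuationRing O] [CharZero O]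
  (K E K'' E'' : Type*) [Field K] [Field E] [Field K''] [Field E'']
  [Algebra O[X] K] [IsFractionRing O[X] K] [Algebra K E] [Algebra O[X] E] [IsScalarTower O[X] K E]
  [FiniteDimensional K E]
  [Algebra O[X] K''] [IsFractionRing O[X] K''] [Algebra K'' E''] [FiniteDimensional K'' E'']
  [Algebra E E''] [Algebra O[X] E''] [IsScalarTower O[X] E E'']
  [FiniteDimensional E E''] [IsGalois E E'']

include K K'' in
/-- **The cusp chart over `O[X]` with transversality, Kummer base `O[W]`, `X = W^N + c`.** -/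
theorem s36ct_cusp_poly {ϖ : O} (hϖ : Irreducible ϖ) {N : ℕ} (hN : 0 < N) (c : O) (g : O[X])
    (hg : el_pb_red g ≠ 0)
    (hσE : ∀ f : O[X],
      algebraMap O[X] E'' f = algebraMap K'' E'' (algebraMap O[X] K'' (mdl_sigma N c f)))
    (hunr : ∀ (p'' : Ideal O[X]) [p''.IsPrime], p''.height = 1 → mdl_sigma N c g ∉ p'' →
      jt_Unram (el_bd_loc K'' p'') E'')
    (hdeg : IsUnit ((Module.finrank E E'' : ℕ) : O))
    (n : Ideal (integralClosure O[X] E)) [hn : n.IsMaximal]
    (hπn : algebraMap O[X] (integralClosure O[X] E) (C ϖ) ∈ n)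
    (hyn : algebraMap O[X] (integralClosure O[X] E) (X - C c) ∈ n)
    (hgn : algebraMap O[X] (integralClosure O[X] E) g ∉ n) :
    s36ct_TransAt (algebraMap O[X] (integralClosure O[X] E) (C ϖ))
      (algebraMap O[X] (integralClosure O[X] E) (X - C c)) n := by
  letI aK'' : Algebra (mdl_PW O N c) K'' := inferInstanceAs (Algebra O[X] K'')
  haveI fK'' : IsFractionRing (mdl_PW O N c) K'' := inferInstanceAs (IsFractionRing O[X] K'')
  letI aE'' : Algebra (mdl_PW O N c) E'' :=
    ((algebraMap K'' E'').comp (algebraMap (mdl_PW O N c) K'')).toAlgebra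
  haveI t1 : IsScalarTower (mdl_PW O N c) K'' E'' := IsScalarTower.of_algebraMap_eq fun _ => rfl
  haveI t2 : IsScalarTower O[X] (mdl_PW O N c) E'' :=
    IsScalarTower.of_algebraMap_eq fun f => hσE f
  have hunr' : ∀ (p'' : Ideal (mdl_PW O N c)) [p''.IsPrime], p''.height = 1 →
      algebraMap O[X] (mdl_PW O N c) g ∉ p'' → jt_Unram (el_bd_loc K'' p'') E'' :=
    fun p'' hp h1 hgp => @hunr p'' hp h1 hgp
  exact s36ct_cusp_poly_aux N c K E K'' E'' hϖ hN g hg hunr' hdeg n hπn hyn hgn

end CuspPoly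

end Fermat.Agent.S36
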