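/-
Project S36, leaf [CUSP-TRANS] (helper23; prefix `s36ct_`), part 9: the twin of
`mdl_cusp_fc_aux` / `mdl_cusp_fc` (`JT3/Model/Generic.lean`) WITH TRANSVERSALITY.  The plumbing is
copied from there; only the last lines differ (`s36ct_cusp_poly` instead of `mdl_cusp_poly`, and
the transport along `el_pb_icEquiv`).
-/
import Mathlib
import Fermat.Agent.JT3.Model.Generic
import Fermat.Agent.S36.CuspTrans.Poly

set_option autoImplicit false
set_option linter.unusedSectionVars false
set_option linter.unusedVariables false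
set_option linter.style.haveILetI false

namespace Fermat.Agent.S36

open Fermat.Agent.JT3 Polynomial IsLocalRing Module

section Final

variable {O L : Type*} [CommRing O] [IsDomain O] [IsDiscreteValuationRing O]
  [Field L] [Algebra O L] [IsFractionRing O L] [CharZero L]
  {K E : Type*} [Field K] [Field E] [Algebra L K] [Algebra K E] [Algebra L E]
  [IsScalarTower L K E] [Algebra O K] [Algebra O E] [IsScalarTower O L K] [IsScalarTower O L E]
  [IsScalarTower O K E] [FiniteDimensional K E]

set_option maxHeartbeats 1600000 in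
/-- The cusp chart with transversality, for given Kummer data `E2 = E(w)`, `w^N = x - c`. -/
theorem s36ct_cusp_fc_aux {ϖ : O} (hϖ : Irreducible ϖ)
    (x : K) (hx : Transcendental L x) (hgenK : IntermediateField.adjoin L {x} = ⊤)
    (N : ℕ) (hN : IsUnit ((N : ℕ) : O))
    (Cs : Finset O) (hC : ∀ c ∈ Cs, ∀ c' ∈ Cs, c ≠ c' → IsUnit (c - c'))
    (S : Finset E) (hS : IntermediateField.adjoin K (S : Set E) = ⊤)
    (hV : ∀ θ ∈ S, mdl_GoodGen O (algebraMap K E x) θ)
    (hH : ∀ (V2 : Subring K) [IsDiscreteValuationRing V2] [IsFractionRing V2 K],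
      (∀ a : L, algebraMap L K a ∈ V2) → x ∈ V2 →
      (∀ c ∈ Cs, (x - algebraMap O K c)⁻¹ ∈ V2) → jt_UnramAt V2 E)
    (c : O) (hc : c ∈ Cs)
    (hT : ∀ (V2 : Subring K) [IsDiscreteValuationRing V2] [IsFractionRing V2 K],
      (∀ a : L, algebraMap L K a ∈ V2) → x ∈ V2 → (x - algebraMap O K c)⁻¹ ∉ V2 →
      ∀ (P : Ideal (integralClosure V2 E)) [P.IsPrime], P ≠ ⊥ → P.ramificationIdx V2 ∣ N)
    (E2 : Type*) [Field E2] [Algebra E E2] [Algebra K E2] [Algebra L E2] [Algebra O E2]
    [IsScalarTower K E E2] [IsScalarTower L K E2] [IsScalarTower O K E2] [IsScalarTower O E E2]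
    [FiniteDimensional E E2] [IsGalois E E2]
    (w : E2) (hw : w ^ N = algebraMap E E2 (algebraMap K E x - algebraMap O E c))
    (hgenE : IntermediateField.adjoin E {w} = ⊤) (hdvd : Module.finrank E E2 ∣ N)
    (n : Ideal (fc_chart O ({algebraMap K E x} : Set E))) [hn : n.IsMaximal]
    (hπn : algebraMap O (fc_chart O ({algebraMap K E x} : Set E)) ϖ ∈ n)
    (y : fc_chart O ({algebraMap K E x} : Set E))
    (hy : (y : E) = algebraMap K E x - algebraMap O E c) (hyn : y ∈ n) :
    s36ct_TransAt (algebraMap O (fc_chart O ({algebraMap K E x} : Set E)) ϖ) y n := by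
  classical
  -- characteristic zero, `0 < N`
  haveI : CharZero O := (algebraMap O L).charZero
  haveI : CharZero K := charZero_of_injective_algebraMap (algebraMap L K).injective
  haveI : CharZero E := charZero_of_injective_algebraMap (algebraMap K E).injective
  have hN0 : 0 < N := by
    rcases Nat.eq_zero_or_pos N with h | h
    · exfalso; rw [h, Nat.cast_zero] at hN; exact not_isUnit_zero hN
    · exact h
  -- the `X`-structures
  letI aK : Algebra O[X] K := (aeval x : O[X] →ₐ[O] K).toRingHom.toAlgebra
  letI aE : Algebra O[X] E := ((algebraMap K E).comp (algebraMap O[X] K)).toAlgebra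
  haveI tw : IsScalarTower O[X] K E := IsScalarTower.of_algebraMap_eq fun _ => rfl
  have hX : ∀ f : O[X], algebraMap O[X] K f = aeval x f := fun _ => rfl
  have hXE : ∀ f : O[X], algebraMap O[X] E f = aeval (algebraMap K E x) f := fun f => by
    rw [IsScalarTower.algebraMap_apply O[X] K E, hX, aeval_algebraMap_apply]
  haveI hfr : IsFractionRing O[X] K := el_pb_isFractionRing_of_transcendental x hX hx hgenK
  have hCK : ∀ a : O, algebraMap O[X] K (Polynomial.C a) = algebraMap L K (algebraMap O L a) :=
    fun a => by rw [hX, aeval_C, IsScalarTower.algebraMap_apply O L K]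
  letI aE2 : Algebra O[X] E2 := ((algebraMap E E2).comp (algebraMap O[X] E)).toAlgebra
  haveI twE2 : IsScalarTower O[X] E E2 := IsScalarTower.of_algebraMap_eq fun _ => rfl
  -- the field `K2 = K(w)`
  haveI fdKE2 : FiniteDimensional K E2 := FiniteDimensional.trans K E E2
  have hwK2 : w ∈ IntermediateField.adjoin K {w} := IntermediateField.mem_adjoin_simple_self K w
  have hgenF : IntermediateField.adjoin K
      {(⟨w, hwK2⟩ : IntermediateField.adjoin K {w})} = ⊤ := by
    apply IntermediateField.lift_injective
    rw [IntermediateField.lift_adjoin_simple, IntermediateField.lift_top]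
  have hw2 : (⟨w, hwK2⟩ : IntermediateField.adjoin K {w}) ^ N =
      algebraMap K (IntermediateField.adjoin K {w}) x -
        algebraMap L (IntermediateField.adjoin K {w}) (algebraMap O L c) := by
    apply Subtype.ext
    change w ^ N = algebraMap K E2 x - algebraMap L E2 (algebraMap O L c)
    rw [hw, map_sub, ← IsScalarTower.algebraMap_apply K E E2,
      ← IsScalarTower.algebraMap_apply O E E2, IsScalarTower.algebraMap_apply O K E2,
      IsScalarTower.algebraMap_apply O L K, ← IsScalarTower.algebraMap_apply L K E2]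
  have htr : Transcendental L (⟨w, hwK2⟩ : IntermediateField.adjoin K {w}) :=
    mdl_transcendental_root hx (algebraMap O L c) hw2
  have hgen2 : IntermediateField.adjoin L
      {(⟨w, hwK2⟩ : IntermediateField.adjoin K {w})} = ⊤ :=
    mdl_adjoin_root_eq_top hgenK (algebraMap O L c) hw2 hgenF
  haveI tOK2E2 : IsScalarTower O (IntermediateField.adjoin K {w}) E2 :=
    IsScalarTower.of_algebraMap_eq fun _ => rfl
  haveI tOLK2 : IsScalarTower O L (IntermediateField.adjoin K {w}) :=
    IsScalarTower.of_algebraMap_eq fun a => by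
      apply Subtype.ext
      change algebraMap O E2 a = algebraMap L E2 (algebraMap O L a)
      rw [IsScalarTower.algebraMap_apply O K E2, IsScalarTower.algebraMap_apply O L K,
        ← IsScalarTower.algebraMap_apply L K E2]
  -- the `W`-structure on `K2`
  letI aWK : Algebra O[X] (IntermediateField.adjoin K {w}) :=
    (eval₂RingHom ((algebraMap L (IntermediateField.adjoin K {w})).comp (algebraMap O L))
      (⟨w, hwK2⟩ : IntermediateField.adjoin K {w})).toAlgebra
  have hW : ∀ f : O[X], algebraMap O[X] (IntermediateField.adjoin K {w}) f =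
      aeval (⟨w, hwK2⟩ : IntermediateField.adjoin K {w}) (f.map (algebraMap O L)) := fun f => by
    rw [aeval_def, eval₂_map]; rfl
  haveI hfr2 : IsFractionRing O[X] (IntermediateField.adjoin K {w}) :=
    mdl_isFractionRing _ htr hgen2 hW
  have hCK2 : ∀ a : O, algebraMap O[X] (IntermediateField.adjoin K {w}) (Polynomial.C a) =
      algebraMap L (IntermediateField.adjoin K {w}) (algebraMap O L a) := fun a => by
    rw [hW, Polynomial.map_C, aeval_C]
  have hWX : algebraMap O[X] (IntermediateField.adjoin K {w}) X =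
      (⟨w, hwK2⟩ : IntermediateField.adjoin K {w}) := by
    rw [hW, Polynomial.map_X, aeval_X]
  have hσ : ∀ f : O[X], algebraMap K (IntermediateField.adjoin K {w}) (algebraMap O[X] K f) =
      algebraMap O[X] (IntermediateField.adjoin K {w}) (mdl_sigma N c f) := by
    intro f
    have h1 : (algebraMap K (IntermediateField.adjoin K {w})).comp (algebraMap O[X] K) =
        (algebraMap O[X] (IntermediateField.adjoin K {w})).comp (mdl_sigma N c) := by
      apply Polynomial.ringHom_ext
      · intro a
        simp only [RingHom.comp_apply]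
        rw [mdl_sigma_C, hCK, hCK2, ← IsScalarTower.algebraMap_apply L K]
      · simp only [RingHom.comp_apply]
        rw [mdl_sigma_X, hX, aeval_X, map_add, map_pow, hCK2, hWX, hw2]
        ring
    exact RingHom.congr_fun h1 f
  have hσE : ∀ f : O[X], algebraMap O[X] E2 f =
      algebraMap (IntermediateField.adjoin K {w}) E2
        (algebraMap O[X] (IntermediateField.adjoin K {w}) (mdl_sigma N c f)) := by
    intro f
    rw [← hσ f, ← IsScalarTower.algebraMap_apply K (IntermediateField.adjoin K {w}) E2,
      IsScalarTower.algebraMap_apply O[X] E E2, IsScalarTower.algebraMap_apply O[X] K E,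
      ← IsScalarTower.algebraMap_apply K E E2]
  -- the seam
  have hgenE' : IntermediateField.adjoin E
      {algebraMap (IntermediateField.adjoin K {w}) E2
        (⟨w, hwK2⟩ : IntermediateField.adjoin K {w})} = ⊤ := hgenE
  have hseam : mdl_SeamHyp K E (IntermediateField.adjoin K {w}) E2 :=
    fun V0 _ _ m h1 h2 V2 _ _ hV0 _ =>
      ti_seam_unram V0 E (IntermediateField.adjoin K {w}) E2
        (mdl_hgen_of_adjoin _ hgenE') m h1 h2 V2 hV0
  -- the vertical prime at the Kummer level
  have hprimeπ : Prime (Polynomial.C ϖ : O[X]) := Polynomial.prime_C_iff.2 hϖ.prime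
  have hS2 : IntermediateField.adjoin (IntermediateField.adjoin K {w})
      ((S.image (algebraMap E E2) : Finset E2) : Set E2) = ⊤ := by
    rw [Finset.coe_image]
    exact mdl_adjoin_image_eq_top (S : Set E) hS _ hgenE'
  have hxE2 : algebraMap (IntermediateField.adjoin K {w}) E2
      (algebraMap K (IntermediateField.adjoin K {w}) x) = algebraMap E E2 (algebraMap K E x) := by
    rw [← IsScalarTower.algebraMap_apply K (IntermediateField.adjoin K {w}) E2,
      ← IsScalarTower.algebraMap_apply K E E2]
  have hgood2 : ∀ θ ∈ S.image (algebraMap E E2), mdl_GoodGen O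
      (algebraMap (IntermediateField.adjoin K {w}) E2
        (algebraMap K (IntermediateField.adjoin K {w}) x)) θ := by
    intro θ hθ
    obtain ⟨θ0, hθ0, rfl⟩ := Finset.mem_image.1 hθ
    rw [hxE2]
    exact ug_goodGen_map (IsScalarTower.toAlgHom O E E2) (hV θ0 hθ0)
  have hvert2 : ∀ [(Ideal.span {(Polynomial.C ϖ : O[X])}).IsPrime],
      jt_Unram (el_bd_loc (IntermediateField.adjoin K {w})
        (Ideal.span {(Polynomial.C ϖ : O[X])})) E2 := by
    intro hp
    have hp1 : (Ideal.span {(Polynomial.C ϖ : O[X])}).height = 1 := el_bd_height_span hprimeπ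
    haveI : IsDiscreteValuationRing (el_bd_loc (IntermediateField.adjoin K {w})
        (Ideal.span {(Polynomial.C ϖ : O[X])})).toSubring := el_bd_loc_isDVR _ _ hp1
    haveI : IsFractionRing (el_bd_loc (IntermediateField.adjoin K {w})
        (Ideal.span {(Polynomial.C ϖ : O[X])})).toSubring (IntermediateField.adjoin K {w}) :=
      el_bd_loc_isFractionRing _ _
    have hxV : algebraMap K (IntermediateField.adjoin K {w}) x ∈
        (el_bd_loc (IntermediateField.adjoin K {w})
          (Ideal.span {(Polynomial.C ϖ : O[X])})).toSubring := by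
      have h1 := hσ X
      rw [hX, aeval_X] at h1
      rw [h1]
      exact Subalgebra.algebraMap_mem _ _
    have hunit : ∀ a : O[X], a.map (residue O) ≠ 0 →
        (aeval (algebraMap K (IntermediateField.adjoin K {w}) x) a)⁻¹ ∈
          (el_bd_loc (IntermediateField.adjoin K {w})
            (Ideal.span {(Polynomial.C ϖ : O[X])})).toSubring := by
      intro a ha
      have h1 : aeval (algebraMap K (IntermediateField.adjoin K {w}) x) a =
          algebraMap O[X] (IntermediateField.adjoin K {w}) (mdl_sigma N c a) := by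
        rw [aeval_algebraMap_apply, ← hX, hσ]
      rw [h1]
      refine el_bd_inv_mem _ _ hp1 ?_
      rw [Ideal.mem_span_singleton, ← el_pb_red_eq_zero_iff hϖ]
      exact mdl_red_sigma_ne_zero c hN0 ha
    have hϖV : (algebraMap O (IntermediateField.adjoin K {w}) ϖ)⁻¹ ∉
        (el_bd_loc (IntermediateField.adjoin K {w})
          (Ideal.span {(Polynomial.C ϖ : O[X])})).toSubring := by
      rw [IsScalarTower.algebraMap_apply O L (IntermediateField.adjoin K {w}), ← hCK2]
      exact el_bd_inv_notMem _ _ hp1 (Ideal.mem_span_singleton_self _) hprimeπ.ne_zero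
    have h := ug_unramAt_poly (K := IntermediateField.adjoin K {w}) (E := E2) hϖ
      (algebraMap K (IntermediateField.adjoin K {w}) x) (S.image (algebraMap E E2)) hS2 hgood2
      (el_bd_loc (IntermediateField.adjoin K {w})
        (Ideal.span {(Polynomial.C ϖ : O[X])})).toSubring hxV hunit hϖV
    exact h
  -- (H), (T) in the vocabulary of `O[X]`
  have hH' : ∀ (V2 : Subring K) [IsDiscreteValuationRing V2] [IsFractionRing V2 K],
      (∀ a : L, algebraMap L K a ∈ V2) → algebraMap O[X] K X ∈ V2 →
      (∀ c' ∈ Cs, (algebraMap O[X] K (X - Polynomial.C c'))⁻¹ ∈ V2) → jt_UnramAt V2 E := by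
    intro V2 _ _ hL hxV hinv
    refine hH V2 hL (by rwa [hX, aeval_X] at hxV) (fun c' hc' => ?_)
    have := hinv c' hc'
    rwa [hX, map_sub, aeval_X, aeval_C] at this
  have hT' : ∀ (V2 : Subring K) [IsDiscreteValuationRing V2] [IsFractionRing V2 K],
      (∀ a : L, algebraMap L K a ∈ V2) → algebraMap O[X] K X ∈ V2 →
      (algebraMap O[X] K (X - Polynomial.C c))⁻¹ ∉ V2 →
      ∀ (P : Ideal (integralClosure V2 E)) [P.IsPrime], P ≠ ⊥ → P.ramificationIdx V2 ∣ N := by
    intro V2 _ _ hL hxV hninv
    refine hT V2 hL (by rwa [hX, aeval_X] at hxV) ?_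
    rwa [hX, map_sub, aeval_X, aeval_C] at hninv
  -- unramifiedness in codimension one on the Kummer base
  have hunr2 : ∀ (p'' : Ideal O[X]) [p''.IsPrime], p''.height = 1 →
      mdl_sigma N c (∏ c' ∈ Cs.erase c, (X - Polynomial.C c')) ∉ p'' →
      jt_Unram (el_bd_loc (IntermediateField.adjoin K {w}) p'') E2 := by
    intro p'' hp'' hp1 hh
    exact mdl_unramW K E (IntermediateField.adjoin K {w}) E2 hϖ hCK hCK2 hN0 c hσ Cs hH' hT' hseam
      hvert2 p'' hp1 hh
  -- the degree
  have hdeg : IsUnit ((Module.finrank E E2 : ℕ) : O) := by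
    obtain ⟨k, hk⟩ := hdvd
    rw [hk, Nat.cast_mul] at hN
    exact isUnit_of_mul_isUnit_left hN
  -- `g`
  set g : O[X] := ∏ c' ∈ Cs.erase c, (X - Polynomial.C c') with hg_def
  have hgmonic : g.Monic := monic_prod_of_monic _ _ fun c' _ => monic_X_sub_C c'
  have hg : el_pb_red g ≠ 0 := (hgmonic.map _).ne_zero
  -- the two presentations of the chart
  have hr : (algebraMap O[X] E).range =
      (algebraMap (Algebra.adjoin O ({algebraMap K E x} : Set E)) E).range := by
    ext z
    constructor
    · rintro ⟨f, rfl⟩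
      rw [hXE]
      have : aeval (algebraMap K E x) f ∈ Algebra.adjoin O ({algebraMap K E x} : Set E) := by
        rw [Algebra.adjoin_singleton_eq_range_aeval]; exact ⟨f, rfl⟩
      exact ⟨⟨_, this⟩, rfl⟩
    · rintro ⟨⟨y, hy⟩, rfl⟩
      rw [Algebra.adjoin_singleton_eq_range_aeval] at hy
      obtain ⟨f, rfl⟩ := hy
      exact ⟨f, hXE f⟩
  let e := el_pb_icEquiv hr
  let n' : Ideal (integralClosure (Algebra.adjoin O ({algebraMap K E x} : Set E)) E) := n
  have hn' : n'.IsMaximal := hn
  haveI hn0 : (n'.comap (e : integralClosure O[X] E →+*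
      integralClosure (Algebra.adjoin O ({algebraMap K E x} : Set E)) E)).IsMaximal :=
    Ideal.comap_isMaximal_of_surjective (e : integralClosure O[X] E →+*
      integralClosure (Algebra.adjoin O ({algebraMap K E x} : Set E)) E) e.surjective
  have heπ : e (algebraMap O[X] (integralClosure O[X] E) (Polynomial.C ϖ)) =
      algebraMap O (fc_chart O ({algebraMap K E x} : Set E)) ϖ := by
    apply Subtype.ext
    change algebraMap O[X] E (Polynomial.C ϖ) = algebraMap O E ϖ
    rw [hXE, aeval_C]
  have hπn0 : algebraMap O[X] (integralClosure O[X] E) (Polynomial.C ϖ) ∈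
      n'.comap (e : _ →+* _) := by
    rw [Ideal.mem_comap]
    change e _ ∈ n'
    rw [heπ]; exact hπn
  -- `X - c ∈ n`
  have hey : e (algebraMap O[X] (integralClosure O[X] E) (X - Polynomial.C c)) = y := by
    apply Subtype.ext
    change algebraMap O[X] E (X - Polynomial.C c) = (y : E)
    rw [hXE, hy, map_sub, aeval_X, aeval_C]
  have hXc : algebraMap O[X] (integralClosure O[X] E) (X - Polynomial.C c) ∈
      n'.comap (e : _ →+* _) := by
    rw [Ideal.mem_comap]
    change e _ ∈ n'
    rw [hey]; exact hyn
  have hgn0 : algebraMap O[X] (integralClosure O[X] E) g ∉ n'.comap (e : _ →+* _) := by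
    intro hmem
    rw [hg_def, map_prod] at hmem
    obtain ⟨c', hc', hc'mem⟩ := (hn0.isPrime.prod_mem_iff).1 hmem
    have hne : c' ≠ c := (Finset.mem_erase.1 hc').1
    have hc'Cs : c' ∈ Cs := (Finset.mem_erase.1 hc').2
    have hdiff : algebraMap O[X] (integralClosure O[X] E) (Polynomial.C (c' - c)) ∈
        n'.comap (e : _ →+* _) := by
      have h1 : (Polynomial.C (c' - c) : O[X]) = (X - Polynomial.C c) - (X - Polynomial.C c') := by
        rw [Polynomial.C_sub]; ring
      rw [h1, map_sub]
      exact Ideal.sub_mem _ hXc hc'mem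
    have hu : IsUnit (algebraMap O[X] (integralClosure O[X] E) (Polynomial.C (c' - c))) :=
      ((hC c' hc'Cs c hc hne).map (Polynomial.C : O →+* O[X])).map _
    exact hn0.ne_top (Ideal.eq_top_of_isUnit_mem _ hdiff hu)
  have h := s36ct_cusp_poly K E (IntermediateField.adjoin K {w}) E2 hϖ hN0 c g hg hσE hunr2 hdeg
    (n'.comap (e : _ →+* _)) hπn0 hXc hgn0
  have h' := s36ct_transAt_equiv e (n' := n') h
  rw [heπ, hey] at h'
  exact h'

/-- **Transversality at the cusps**: at a maximal ideal `n` of `fc_chart O {x}` containing `ϖ` and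
`y = x - c`, `c ∈ Cs`, there is `t` with `n = (ϖ, t)` locally, `B_n ⧸ t` a domain and
`s * y = v * t ^ e` with `s, v ∉ n`, `0 < e`. -/
theorem s36ct_cusp_fc {ϖ : O} (hϖ : Irreducible ϖ)
    (x : K) (hx : Transcendental L x) (hgenK : IntermediateField.adjoin L {x} = ⊤)
    (N : ℕ) (hN : IsUnit ((N : ℕ) : O)) (ζ : L) (hζ : IsPrimitiveRoot ζ N)
    (Cs : Finset O) (hC : ∀ c ∈ Cs, ∀ c' ∈ Cs, c ≠ c' → IsUnit (c - c'))
    (S : Finset E) (hS : IntermediateField.adjoin K (S : Set E) = ⊤)
    (hV : ∀ θ ∈ S, mdl_GoodGen O (algebraMap K E x) θ)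
    (hH : ∀ (V2 : Subring K) [IsDiscreteValuationRing V2] [IsFractionRing V2 K],
      (∀ a : L, algebraMap L K a ∈ V2) → x ∈ V2 →
      (∀ c ∈ Cs, (x - algebraMap O K c)⁻¹ ∈ V2) → jt_UnramAt V2 E)
    (c : O) (hc : c ∈ Cs)
    (hT : ∀ (V2 : Subring K) [IsDiscreteValuationRing V2] [IsFractionRing V2 K],
      (∀ a : L, algebraMap L K a ∈ V2) → x ∈ V2 → (x - algebraMap O K c)⁻¹ ∉ V2 →
      ∀ (P : Ideal (integralClosure V2 E)) [P.IsPrime], P ≠ ⊥ → P.ramificationIdx V2 ∣ N)
    (n : Ideal (fc_chart O ({algebraMap K E x} : Set E))) [hn : n.IsMaximal]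
    (hπn : algebraMap O (fc_chart O ({algebraMap K E x} : Set E)) ϖ ∈ n)
    (y : fc_chart O ({algebraMap K E x} : Set E))
    (hy : (y : E) = algebraMap K E x - algebraMap O E c) (hyn : y ∈ n) :
    s36ct_TransAt (algebraMap O (fc_chart O ({algebraMap K E x} : Set E)) ϖ) y n := by
  classical
  haveI : CharZero K := charZero_of_injective_algebraMap (algebraMap L K).injective
  haveI : CharZero E := charZero_of_injective_algebraMap (algebraMap K E).injective
  have hN0 : 0 < N := by
    rcases Nat.eq_zero_or_pos N with h | h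
    · exfalso; rw [h, Nat.cast_zero] at hN; exact not_isUnit_zero hN
    · exact h
  -- the Kummer data
  have ht0 : algebraMap K E x - algebraMap O E c ≠ 0 := by
    intro h0
    have h1 : algebraMap K E x = algebraMap K E (algebraMap O K c) := by
      rw [← IsScalarTower.algebraMap_apply O K E]; exact sub_eq_zero.1 h0
    have h2 : x = algebraMap L K (algebraMap O L c) := by
      rw [← IsScalarTower.algebraMap_apply O L K]; exact (algebraMap K E).injective h1
    exact hx (h2 ▸ isAlgebraic_algebraMap _)
  obtain ⟨w, hw⟩ := tc_kummerField_exists_root (E := E)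
    (t := algebraMap K E x - algebraMap O E c) hN0
  haveI tOK : IsScalarTower O K (tc_KummerField E (algebraMap K E x - algebraMap O E c) N) :=
    mdl_splittingField_isScalarTower _
  haveI tLK : IsScalarTower L K (tc_KummerField E (algebraMap K E x - algebraMap O E c) N) :=
    mdl_splittingField_isScalarTower _
  have hζE : IsPrimitiveRoot (algebraMap L E ζ) N :=
    hζ.map_of_injective (algebraMap L E).injective
  have hNE : (N : E) ≠ 0 := Nat.cast_ne_zero.2 hN0.ne'
  haveI hgal : IsGalois E (tc_KummerField E (algebraMap K E x - algebraMap O E c) N) :=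
    tc_kummerField_isGalois hNE ht0
  have hgenE := tc_kummerField_adjoin hN0 hζE ht0 hw
  have hw0 : w ≠ 0 := by
    rintro rfl
    rw [zero_pow hN0.ne'] at hw
    exact ht0 ((map_eq_zero _).1 hw.symm)
  have hdvd := tc_kummer_finrank_dvd hN0 hζE hw0 hw hgenE
  exact s36ct_cusp_fc_aux hϖ x hx hgenK N hN Cs hC S hS hV hH c hc hT
    (tc_KummerField E (algebraMap K E x - algebraMap O E c) N) w hw hgenE hdvd n hπn y hy hyn

end Final

end Fermat.Agent.S36
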