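/-
Project S36, leaf [CUSP-TRANS] (helper23; prefix `s36ct_`), part 10: the LEGENDRE INSTANCE.
Twin of `lg_regAt_apply` / `lg_regAt_lam` / `lg_regAt_lam_inv` (`JT3/Inst/RegApply.lean`) and of
`ssm_ll_reg1` / `ssm_ll_reg2` (`SS/Model/LegLevel.lean`): at a closed point `n ∋ π` of a standard
chart of the good-reduction Legendre model of level `N` lying over a cusp `x = c`, `c ∈ {0, 1}`,
there is `t` with `n = (π, t)` locally, `B_n ⧸ t` a domain and `x - c = unit * t ^ e` locally.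
-/
import Mathlib
import Fermat.Agent.JT3.Inst.RegApply
import Fermat.Agent.JT3.Inst.RamHyp
import Fermat.Agent.S36.CuspTrans.Fc

set_option autoImplicit false
set_option linter.unusedSectionVars false
set_option linter.unusedVariables false
set_option linter.style.haveILetI false

noncomputable section

open Polynomial IntermediateField ModularCurve

namespace Fermat.Agent.S36

open Fermat.Agent.JT3

section Inst

variable {L : Type*} [Field L] [CharZero L] (O : ValuationSubring L) [IsDiscreteValuationRing O]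
  (N : ℕ) [NeZero N]

attribute [local instance] lgh_algKE

/-- **Transversality at the cusps, Legendre charts** (twin of `lg_regAt_apply`). -/
theorem s36ct_leg_apply {π : O} (hπ : Irreducible π) (ℓ : ℕ) [Fact ℓ.Prime]
    (hℓ : ((ℓ : ℕ) : O) ∈ IsLocalRing.maximalIdeal O) (hℓ2 : ℓ ≠ 2) (hℓN : ¬ ℓ ∣ N)
    (ζ : L) (hζ : IsPrimitiveRoot ζ N)
    (x : lg_K L) (hx : Transcendental L x) (hgenK : IntermediateField.adjoin L {x} = ⊤)
    (hrel : cv_legN (algebraMap (lg_K L) (lg_E L N) x)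
      = lgf_j2E L N * cv_legD (algebraMap (lg_K L) (lg_E L N) x))
    (hram : lg_RamHyp N x) (c : O) (hc : c = 0 ∨ c = 1)
    (n : Ideal (fc_chart O ({algebraMap (lg_K L) (lg_E L N) x} : Set (lg_E L N))))
    [hn : n.IsMaximal]
    (hπn : algebraMap O (fc_chart O ({algebraMap (lg_K L) (lg_E L N) x} : Set (lg_E L N))) π ∈ n)
    (y : fc_chart O ({algebraMap (lg_K L) (lg_E L N) x} : Set (lg_E L N)))
    (hy : (y : lg_E L N) = algebraMap (lg_K L) (lg_E L N) x - algebraMap O (lg_E L N) c)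
    (hyn : y ∈ n) :
    s36ct_TransAt
      (algebraMap O (fc_chart O ({algebraMap (lg_K L) (lg_E L N) x} : Set (lg_E L N))) π) y n := by
  classical
  have hℓp : ℓ.Prime := Fact.out
  have hN : IsUnit ((N : ℕ) : O) :=
    lg_isUnit_natCast hℓ ((Nat.Coprime.symm ((Nat.Prime.coprime_iff_not_dvd hℓp).2 hℓN)))
  have h2 : IsUnit ((2 : ℕ) : O) :=
    lg_isUnit_natCast hℓ ((Nat.coprime_primes Nat.prime_two hℓp).2 (Ne.symm hℓ2))
  haveI : CharP (IsLocalRing.ResidueField O) ℓ := lg_charP_residue hℓ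
  have h2k : (2 : IsLocalRing.ResidueField O) ≠ 0 := by
    have := ((IsLocalRing.residue O).isUnit_map h2).ne_zero
    rwa [map_natCast, Nat.cast_ofNat] at this
  obtain ⟨ρO⟩ := lgv_exists_rhoO (L := L) (O := O) (fun a b hab => Subtype.ext hab) ℓ hℓ
  have hC : ∀ c ∈ ({0, 1} : Finset O), ∀ c' ∈ ({0, 1} : Finset O), c ≠ c' → IsUnit (c - c') := by
    intro c hc c' hc' hne
    simp only [Finset.mem_insert, Finset.mem_singleton] at hc hc'
    rcases hc with rfl | rfl <;> rcases hc' with rfl | rfl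
    · exact absurd rfl hne
    · simp
    · simp
    · exact absurd rfl hne
  have hcmem : c ∈ ({0, 1} : Finset O) := by
    simp only [Finset.mem_insert, Finset.mem_singleton]
    exact hc
  refine s36ct_cusp_fc hπ x hx hgenK N hN ζ hζ {0, 1} hC (lgv_S L N) ?_ ?_ ?_ c hcmem ?_ n hπn y hy
    hyn
  · exact lgv_adjoin_eq_top L N ⟨lgh_lamK L, rfl⟩
  · exact lgv_V ℓ h2k hℓN ρO _ hrel
  · intro V2 _ _ hL hxV hc
    refine hram.hH V2 hL hxV ?_ ?_
    · have := hc 0 (by simp)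
      rwa [map_zero, sub_zero] at this
    · have := hc 1 (by simp)
      rwa [map_one] at this
  · intro V2 _ _ hL hxV hcV
    rcases hc with rfl | rfl
    · rw [map_zero, sub_zero] at hcV
      exact hram.hT0 V2 hL hxV hcV
    · rw [map_one] at hcV
      exact hram.hT1 V2 hL hxV hcV

/-- transversality at the cusps `λ = 0, 1` of the chart `{λ}`. -/
theorem s36ct_leg_lam {π : O} (hπ : Irreducible π) (ℓ : ℕ) [Fact ℓ.Prime]
    (hℓ : ((ℓ : ℕ) : O) ∈ IsLocalRing.maximalIdeal O) (hℓ2 : ℓ ≠ 2) (hℓN : ¬ ℓ ∣ N)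
    (ζ : L) (hζ : IsPrimitiveRoot ζ N) (hram : lg_RamHyp N (lgh_lamK L))
    (c : O) (hc : c = 0 ∨ c = 1)
    (n : Ideal (fc_chart O ({lg_lamE N} : Set (lg_E L N)))) [hn : n.IsMaximal]
    (hπn : algebraMap O (fc_chart O ({lg_lamE N} : Set (lg_E L N))) π ∈ n)
    (y : fc_chart O ({lg_lamE N} : Set (lg_E L N)))
    (hy : (y : lg_E L N) = lg_lamE N - algebraMap O (lg_E L N) c) (hyn : y ∈ n) :
    s36ct_TransAt (algebraMap O (fc_chart O ({lg_lamE N} : Set (lg_E L N))) π) y n :=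
  s36ct_leg_apply O N hπ ℓ hℓ hℓ2 hℓN ζ hζ (lgh_lamK L) (lg_lamK_transcendental L)
    (lgh_adjoin_lamK L) (lg_rel_lamE N) hram c hc n (hn := hn) hπn y hy hyn

/-- transversality at the cusps `λ⁻¹ = 0, 1` of the chart `{λ⁻¹}`. -/
theorem s36ct_leg_lam_inv {π : O} (hπ : Irreducible π) (ℓ : ℕ) [Fact ℓ.Prime]
    (hℓ : ((ℓ : ℕ) : O) ∈ IsLocalRing.maximalIdeal O) (hℓ2 : ℓ ≠ 2) (hℓN : ¬ ℓ ∣ N)
    (ζ : L) (hζ : IsPrimitiveRoot ζ N) (hram : lg_RamHyp N (lgh_lamK L)⁻¹)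
    (c : O) (hc : c = 0 ∨ c = 1)
    (n : Ideal (fc_chart O ({(lg_lamE N)⁻¹} : Set (lg_E L N)))) [hn : n.IsMaximal]
    (hπn : algebraMap O (fc_chart O ({(lg_lamE N)⁻¹} : Set (lg_E L N))) π ∈ n)
    (y : fc_chart O ({(lg_lamE N)⁻¹} : Set (lg_E L N)))
    (hy : (y : lg_E L N) = (lg_lamE N)⁻¹ - algebraMap O (lg_E L N) c) (hyn : y ∈ n) :
    s36ct_TransAt (algebraMap O (fc_chart O ({(lg_lamE N)⁻¹} : Set (lg_E L N))) π) y n := by
  have h0 : (lg_lamE N : lg_E L N) ≠ 0 := fun h =>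
    lgf_lam_transcendental L N two_ne_zero (h ▸ isAlgebraic_zero)
  have hrel : cv_legN (algebraMap (lg_K L) (lg_E L N) (lgh_lamK L)⁻¹)
      = lgf_j2E L N * cv_legD (algebraMap (lg_K L) (lg_E L N) (lgh_lamK L)⁻¹) := by
    rw [lg_algebraMap_lamK_inv]
    exact cv_leg_rel_inv h0 (lg_rel_lamE N)
  have key : ∀ (z : lg_E L N) (hz : algebraMap (lg_K L) (lg_E L N) (lgh_lamK L)⁻¹ = z)
      (n : Ideal (fc_chart O ({z} : Set (lg_E L N)))) [hn : n.IsMaximal]
      (hπn : algebraMap O (fc_chart O ({z} : Set (lg_E L N))) π ∈ n)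
      (y : fc_chart O ({z} : Set (lg_E L N)))
      (hy : (y : lg_E L N) = z - algebraMap O (lg_E L N) c) (hyn : y ∈ n),
      s36ct_TransAt (algebraMap O (fc_chart O ({z} : Set (lg_E L N))) π) y n := by
    intro z hz
    subst hz
    intro n hn hπn y hy hyn
    exact s36ct_leg_apply O N hπ ℓ hℓ hℓ2 hℓN ζ hζ (lgh_lamK L)⁻¹ (lg_lamK_inv_transcendental L)
      (lg_adjoin_lamK_inv L) hrel hram c hc n hπn y hy hyn
  exact key _ (lg_algebraMap_lamK_inv N) n hπn y hy hyn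

end Inst

section NF

variable (L : Type) [Field L] [NumberField L] [Algebra L (AlgebraicClosure ℚ)]
  (O : ValuationSubring L) [IsDiscreteValuationRing O] (N : ℕ) [NeZero N]
variable {O}
variable {π : O} (hπ : Irreducible π) (ℓ : ℕ) [Fact ℓ.Prime]
  (hℓ : ((ℓ : ℕ) : O) ∈ IsLocalRing.maximalIdeal O) (hℓ2 : ℓ ≠ 2) (hℓN : ¬ ℓ ∣ N)
  (ζ : L) (hζ : IsPrimitiveRoot ζ N)

include hπ hℓ hℓ2 hℓN hζ

/-- **[CUSP-TRANS], chart `{λ}`, number-field context of `ssm_ll_reg1`.** -/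
theorem s36ct_ll_trans1 (c : O) (hc : c = 0 ∨ c = 1)
    (n : Ideal (fc_chart O ({lg_lamE N} : Set (lg_E L N)))) [hn : n.IsMaximal]
    (hπn : algebraMap O (fc_chart O ({lg_lamE N} : Set (lg_E L N))) π ∈ n)
    (y : fc_chart O ({lg_lamE N} : Set (lg_E L N)))
    (hy : (y : lg_E L N) = lg_lamE N - algebraMap O (lg_E L N) c) (hyn : y ∈ n) :
    s36ct_TransAt (algebraMap O (fc_chart O ({lg_lamE N} : Set (lg_E L N))) π) y n :=
  s36ct_leg_lam O N hπ ℓ hℓ hℓ2 hℓN ζ hζ (lgr_hram N L).1 c hc n hπn y hy hyn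

/-- **[CUSP-TRANS], chart `{λ⁻¹}`, number-field context of `ssm_ll_reg2`.** -/
theorem s36ct_ll_trans2 (c : O) (hc : c = 0 ∨ c = 1)
    (n : Ideal (fc_chart O ({(lg_lamE N)⁻¹} : Set (lg_E L N)))) [hn : n.IsMaximal]
    (hπn : algebraMap O (fc_chart O ({(lg_lamE N)⁻¹} : Set (lg_E L N))) π ∈ n)
    (y : fc_chart O ({(lg_lamE N)⁻¹} : Set (lg_E L N)))
    (hy : (y : lg_E L N) = (lg_lamE N)⁻¹ - algebraMap O (lg_E L N) c) (hyn : y ∈ n) :
    s36ct_TransAt (algebraMap O (fc_chart O ({(lg_lamE N)⁻¹} : Set (lg_E L N))) π) y n :=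
  s36ct_leg_lam_inv O N hπ ℓ hℓ hℓ2 hℓN ζ hζ (lgr_hram N L).2 c hc n hπn y hy hyn

end NF

end Fermat.Agent.S36
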