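/-
Project S36, leaf [CUSP-T2] (helper23; prefix `s36ct_`), part 10: THE LEGENDRE INSTANCE OF
(R1) + (R2) + (T2) (`s36ct_si_r2`), CLOSED, number-field context [NF2-CTX] with a general
uniformiser `π`.

`B0 := fc_chart O {λ_{N'}}`, `B1 := fc_chart O {λ_{N'q}}` (and the two `λ⁻¹`-charts),
`φA, φB : B0 →+* B1` the two chart maps (`α` = inclusion, `β = W_q ∘ α`), `𝔫` a closed point of the
special fibre of `B1` on the Gauss component `VF` only, over a cusp `λ = c`, `c ∈ {0, 1}`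
(resp. `λ⁻¹ = 0`).  Then there are `t0, t1 ∈ B0`:
* `t0` a transversal cusp parameter of `B0` at `𝔫 ∩_α B0`, `u := φA t0` a regular parameter of `B1` at
  `𝔫` (`𝔫 = (π, u)` locally, `π` and `u` prime locally), `x - c = unit · u^e` locally;
* `t1` a transversal cusp parameter of `B0` at `𝔫 ∩_β B0`, `λ - c = unit · t1^e'` locally;
* (T2) `φB t1 = unit · u^q` locally at `𝔫`.
-/
import Mathlib
import Fermat.Agent.S36.CuspTrans.T2Leg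
import Fermat.Agent.S36.CuspTrans.Leg
import Fermat.Agent.S36.Model.Cusps2

set_option autoImplicit false
set_option linter.unusedSectionVars false
set_option linter.unusedVariables false
set_option linter.style.haveILetI false

noncomputable section

open ModularCurve IntermediateField IsLocalRing Polynomial
open Fermat.Agent.JT3 Fermat.Agent.SS

namespace Fermat.Agent.S36

section NF

variable (L : Type) [Field L] [NumberField L] [Algebra L (AlgebraicClosure ℚ)]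
  (O : ValuationSubring L) [IsDiscreteValuationRing O] {π : O} (hπ : Irreducible π)
variable (N' q : ℕ) [NeZero N'] [NeZero q] [hq : Fact q.Prime] [CharP (ResidueField O) q]
  (hq2 : ¬ 2 ∣ q) (hqN' : ¬ q ∣ N') (ζ : L) (hζ : IsPrimitiveRoot ζ N')

include hζ in
set_option synthInstance.maxHeartbeats 200000 in
set_option maxHeartbeats 3200000 in
/-- **(R1) + (R2) + (T2) at the cusps `λ = 0`, `λ = 1`** (chart `{λ}`), closed. -/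
theorem s36ct_leg_r2 (c : ↥O) (hc : c = 0 ∨ c = 1)
    (φA φB : fc_chart ↥O ({lg_lamE N'} : Set ↥(lg_E L N')) →+*
      fc_chart ↥O ({lg_lamE (N' * q)} : Set ↥(lg_E L (N' * q))))
    (hφA : ∀ b : fc_chart ↥O ({lg_lamE N'} : Set ↥(lg_E L N')),
      ((φA b : fc_chart ↥O ({lg_lamE (N' * q)} : Set ↥(lg_E L (N' * q)))) : ↥(lg_E L (N' * q))) =
        IntermediateField.inclusion (ssm_al_E_le L N' q) (b : ↥(lg_E L N')))
    (hφB : ∀ b : fc_chart ↥O ({lg_lamE N'} : Set ↥(lg_E L N')),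
      ((φB b : fc_chart ↥O ({lg_lamE (N' * q)} : Set ↥(lg_E L (N' * q)))) : ↥(lg_E L (N' * q))) =
        ssm_gl_W L N' q hq2 hqN'
          (IntermediateField.inclusion (ssm_al_E_le L N' q) (b : ↥(lg_E L N'))))
    (𝔫 : Ideal (fc_chart ↥O ({lg_lamE (N' * q)} : Set ↥(lg_E L (N' * q))))) [h𝔫 : 𝔫.IsMaximal]
    (hπ𝔫 : algebraMap ↥O (fc_chart ↥O ({lg_lamE (N' * q)} : Set ↥(lg_E L (N' * q)))) π ∈ 𝔫)
    (h2 : ¬ ssm_tp_P (fc_chart ↥O ({lg_lamE (N' * q)} : Set ↥(lg_E L (N' * q))))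
        (ssm_gl_V2 O hπ N' q hq2 hqN') ≤ 𝔫)
    (y0 : fc_chart ↥O ({lg_lamE N'} : Set ↥(lg_E L N')))
    (hy0 : (y0 : ↥(lg_E L N')) = lg_lamE N' - algebraMap ↥O ↥(lg_E L N') c)
    (h𝔫y : φA y0 ∈ 𝔫) :
    ∃ t0 t1 : fc_chart ↥O ({lg_lamE N'} : Set ↥(lg_E L N')),
      tq_GenBy (algebraMap ↥O (fc_chart ↥O ({lg_lamE N'} : Set ↥(lg_E L N'))) π) t0
        (𝔫.comap φA) ∧
      tq_Dom t0 (𝔫.comap φA) ∧
      (∃ (e : ℕ) (s w : fc_chart ↥O ({lg_lamE N'} : Set ↥(lg_E L N'))), 0 < e ∧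
        s ∉ 𝔫.comap φA ∧ w ∉ 𝔫.comap φA ∧ s * y0 = w * t0 ^ e) ∧
      tq_GenBy (algebraMap ↥O (fc_chart ↥O ({lg_lamE (N' * q)} : Set ↥(lg_E L (N' * q)))) π)
        (φA t0) 𝔫 ∧
      tq_Dom (algebraMap ↥O (fc_chart ↥O ({lg_lamE (N' * q)} : Set ↥(lg_E L (N' * q)))) π) 𝔫 ∧
      tq_Dom (φA t0) 𝔫 ∧
      (∃ (e : ℕ) (s w : fc_chart ↥O ({lg_lamE (N' * q)} : Set ↥(lg_E L (N' * q)))), 0 < e ∧
        s ∉ 𝔫 ∧ w ∉ 𝔫 ∧ s * φA y0 = w * φA t0 ^ e) ∧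
      tq_GenBy (algebraMap ↥O (fc_chart ↥O ({lg_lamE N'} : Set ↥(lg_E L N'))) π) t1
        (𝔫.comap φB) ∧
      tq_Dom t1 (𝔫.comap φB) ∧
      (∃ (e : ℕ) (s w : fc_chart ↥O ({lg_lamE N'} : Set ↥(lg_E L N'))), 0 < e ∧
        s ∉ 𝔫.comap φB ∧ w ∉ 𝔫.comap φB ∧ s * y0 = w * t1 ^ e) ∧
      ∃ s w : fc_chart ↥O ({lg_lamE (N' * q)} : Set ↥(lg_E L (N' * q))), s ∉ 𝔫 ∧ w ∉ 𝔫 ∧
        s * φB t1 = w * φA t0 ^ q := by
  have hqO := ssm_fln_q_mem L O q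
  have hq2' : q ≠ 2 := ssm_fl_ne_two q hq2
  have hp := ssm_ll_prime L N' hπ q hqO hq2' hqN' ζ hζ
  have hic1 := ssm_ll_ic1 L N' hπ q hqO hq2' hqN' ζ hζ
  haveI := lgf_finite L N'
  haveI : FiniteDimensional L⟮(lg_lamE (N' * q) : ↥(lg_E L (N' * q)))⟯ ↥(lg_E L (N' * q)) :=
    lgf_finite L (N' * q)
  have H := ssm_gl_hyp O hπ N' q hq2 hqN' hp.1
  have hWO := ssm_si_W_algebraMap O N' q hq2 hqN'
  have F := ssm_fl_facts O hπ N' q hq2 hqN' hp.1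
  obtain ⟨hWB1, -, -⟩ := ssm_i1_W_charts (ssm_gl_W L N' q hq2 hqN') hWO rfl F
  have hn0 : (1 : ℤ) ≠ 0 := one_ne_zero
  have hyn := ssm_ga_lam_coeff_one O (ssm_gl_two_ne_zero O q hq2)
  have hlam : ((lg_lamE N' : ↥(lg_E L N')) : LaurentSeries L) =
      coeffMap (algebraMap O L) (hm_lam O) := (hm_coeffMap_lam _).symm
  have hx : Transcendental L (lg_lamE N' : ↥(lg_E L N')) :=
    ssm_go_transcendental O (lg_E L N') (hm_lam O) (lg_lamE N') hlam hn0 hyn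
  have hxE : Transcendental L (lg_lamE (N' * q) : ↥(lg_E L (N' * q))) :=
    ssm_go_transcendental O (lg_E L (N' * q)) (hm_lam O) (lg_lamE (N' * q))
      (hm_coeffMap_lam _).symm hn0 hyn
  have hover := ssm_go_over O (lg_E L N') (hm_lam O) (lg_lamE N') hlam hπ
    ((ssm_al_E_le L N' q).trans (ssm_ga_E_le_quotField O (N' * q))) hn0 hyn
  haveI := ssm_go_isScalarTower O (lg_E L (N' * q))
  haveI := ssm_go_isScalarTower O (lg_E L N')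
  -- the ring-level facts
  obtain ⟨hintA, -, hPA, -, -, -, -, hW12, hP1p, hP2p⟩ :=
    s36ct_si_facts O hπ q (lg_E L N') (lg_E L (N' * q)) (ssm_al_E_le L N' q)
      (ssm_ga_E_le_quotField O (N' * q)) (ssm_gl_W L N' q hq2 hqN')
      (ssm_al_WE_WE L N' q hq.out hq2 hqN')
      (fun z => ssm_al_coe_WE_of_mem L N' q hq.out hq2 hqN' z.2 _)
      (ssm_al_relfinrank_E L N' q hq.out hq2 hqN') (hm_lam O) (ssm_ga_lam_frobFixed O q) 1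
      (ssm_gl_not_dvd_one q) hyn (lg_lamE N') hlam (lg_lamE N') (lg_lamE (N' * q)) rfl hx hxE
      hover H hp.1 hic1 hWB1 φA hφA
  have hAB : ∀ b', φB b' = ssm_inf_equiv (ssm_gl_W L N' q hq2 hqN')
      (ssm_al_WE_WE L N' q hq.out hq2 hqN') _ hWB1 (φA b') := by
    intro b'
    apply Subtype.ext
    rw [hφB, ssm_inf_equiv_coe, hφA]
  have hintB : φB.IsIntegral :=
    s36ct_isIntegral_beta φA φB _ (fun b => Subtype.ext (ssm_al_WE_WE L N' q hq.out hq2 hqN' b))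
      hAB hintA
  haveI hmA : (𝔫.comap φA).IsMaximal := ssm_cp_comap_isMaximal φA hintA 𝔫 h𝔫
  haveI hmB : (𝔫.comap φB).IsMaximal := ssm_cp_comap_isMaximal φB hintB 𝔫 h𝔫
  have hφAπ : φA (algebraMap ↥O (fc_chart ↥O ({lg_lamE N'} : Set ↥(lg_E L N'))) π) =
      algebraMap ↥O (fc_chart ↥O ({lg_lamE (N' * q)} : Set ↥(lg_E L (N' * q)))) π := by
    apply Subtype.ext
    rw [hφA]
    change IntermediateField.inclusion (ssm_al_E_le L N' q) (algebraMap ↥O ↥(lg_E L N') π) =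
      algebraMap ↥O ↥(lg_E L (N' * q)) π
    rw [IsScalarTower.algebraMap_apply ↥O L ↥(lg_E L N'), AlgHom.commutes,
      ← IsScalarTower.algebraMap_apply]
  have hφBπ : φB (algebraMap ↥O (fc_chart ↥O ({lg_lamE N'} : Set ↥(lg_E L N'))) π) =
      algebraMap ↥O (fc_chart ↥O ({lg_lamE (N' * q)} : Set ↥(lg_E L (N' * q)))) π := by
    rw [hAB, hφAπ]
    apply Subtype.ext
    rw [ssm_inf_equiv_coe]
    exact hWO π
  -- the cusp data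
  have hC := ssm_tp_ff_chart (L := L) hπ hxE
  have hyEA : Transcendental ↥O (lg_lamE (N' * q) : ↥(lg_E L (N' * q))) :=
    fc_ff_transcendental (L := L) hxE
  haveI : IsIntegrallyClosed
      (Algebra.adjoin ↥O ({lg_lamE (N' * q)} : Set ↥(lg_E L (N' * q)))) :=
    fc_ff_isIntegrallyClosed hyEA
  haveI : FaithfulSMul (Algebra.adjoin ↥O ({lg_lamE (N' * q)} : Set ↥(lg_E L (N' * q))))
      ↥(lg_E L (N' * q)) :=
    (faithfulSMul_iff_algebraMap_injective _ _).2 Subtype.val_injective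
  have le1 : ∀ b ∈ fc_chart ↥O ({lg_lamE (N' * q)} : Set ↥(lg_E L (N' * q))),
      b ∈ ssm_gl_V1 O hπ N' q := fun b hb => hC.le H.over1 hb
  have le2 : ∀ b ∈ fc_chart ↥O ({lg_lamE (N' * q)} : Set ↥(lg_E L (N' * q))),
      b ∈ ssm_gl_V2 O hπ N' q hq2 hqN' := fun b hb => hC.le H.over2 hb
  have hinc : IntermediateField.inclusion (ssm_al_E_le L N' q)
      (algebraMap ↥O ↥(lg_E L N') c) = algebraMap ↥O ↥(lg_E L (N' * q)) c := by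
    rw [IsScalarTower.algebraMap_apply ↥O L ↥(lg_E L N'), AlgHom.commutes,
      ← IsScalarTower.algebraMap_apply]
  have ha : ((φA y0 : fc_chart ↥O ({lg_lamE (N' * q)} : Set ↥(lg_E L (N' * q)))) :
      ↥(lg_E L (N' * q))) = lg_lamE (N' * q) - algebraMap ↥O ↥(lg_E L (N' * q)) c := by
    rw [hφA, hy0, map_sub, hinc]
    rfl
  have ha1 : ((φB y0 : fc_chart ↥O ({lg_lamE (N' * q)} : Set ↥(lg_E L (N' * q)))) :
      ↥(lg_E L (N' * q))) = ssm_gl_W L N' q hq2 hqN' (lg_lamE (N' * q)) -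
        algebraMap ↥O ↥(lg_E L (N' * q)) c := by
    rw [hφB, hy0, map_sub, hinc, map_sub, hWO]
    rfl
  have hlam0 : (lg_lamE (N' * q) : ↥(lg_E L (N' * q))) ≠ 0 := fun h =>
    hxE (h ▸ isAlgebraic_zero)
  have hlam1 : (lg_lamE (N' * q) : ↥(lg_E L (N' * q))) - 1 ≠ 0 := fun h =>
    hxE ((sub_eq_zero.1 h) ▸ isAlgebraic_one)
  have hW0 : ssm_gl_W L N' q hq2 hqN' (lg_lamE (N' * q)) ≠ 0 :=
    (EmbeddingLike.map_ne_zero_iff (f := ssm_gl_W L N' q hq2 hqN')).2 hlam0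
  have hW1 : ssm_gl_W L N' q hq2 hqN' (lg_lamE (N' * q)) - 1 ≠ 0 := by
    intro h
    apply hlam1
    have h3 : ssm_gl_W L N' q hq2 hqN' (lg_lamE (N' * q) - 1) = 0 := by
      rw [map_sub, map_one]; exact h
    exact (EmbeddingLike.map_eq_zero_iff (f := ssm_gl_W L N' q hq2 hqN')).1 h3
  haveI := hP1p
  haveI := hP2p
  haveI h𝔫p := h𝔫.isPrime
  have hP1 : ssm_tp_P (fc_chart ↥O ({lg_lamE (N' * q)} : Set ↥(lg_E L (N' * q))))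
      (ssm_gl_V1 O hπ N' q) ≤ 𝔫 :=
    ssm_cp_le_of_not_le φA (algebraMap ↥O (fc_chart ↥O ({lg_lamE N'} : Set ↥(lg_E L N'))) π) _ _
      hPA 𝔫 (by rw [hφAπ]; exact hπ𝔫) h2
  have CF := s36mc_cuspFacts01 L N' q hq.out hq2'
  have hWlam := ssm_fl_W_lam (L := L) N' q hq2 hqN'
  have key : (∃ w w' : fc_chart ↥O ({lg_lamE (N' * q)} : Set ↥(lg_E L (N' * q))),
      w - 1 ∈ ssm_tp_P _ (ssm_gl_V1 O hπ N' q) ∧
      w' - 1 ∈ ssm_tp_P _ (ssm_gl_V2 O hπ N' q hq2 hqN') ∧ w * φB y0 = φA y0 ^ q ∧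
      w' * φA y0 = φB y0 ^ q ∧ φA y0 ≠ 0 ∧ φB y0 ≠ 0) ∧
      (∀ P : AlgebraicCurve.Place L ↥(lg_E L (N' * q)),
        0 < P.ord ((φB y0 : fc_chart ↥O ({lg_lamE (N' * q)} : Set ↥(lg_E L (N' * q)))) :
          ↥(lg_E L (N' * q))) →
        0 < P.ord ((φA y0 : fc_chart ↥O ({lg_lamE (N' * q)} : Set ↥(lg_E L (N' * q)))) :
          ↥(lg_E L (N' * q)))) := by
    rcases hc with rfl | rfl
    · rw [map_zero, sub_zero] at ha ha1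
      refine ⟨s36ct_cusp_data le1 le2 hlam0 hW0 F.w0 F.w0' F.w0_sub F.w0'_sub _ _ ha ha1, ?_⟩
      intro P hP
      rw [ha1, hWlam] at hP
      rw [ha]
      exact (CF.zero' P hP).1
    · rw [map_one] at ha ha1
      refine ⟨s36ct_cusp_data le1 le2 hlam1 hW1 F.w1 F.w1' F.w1_sub F.w1'_sub _ _ ha ha1, ?_⟩
      intro P hP
      rw [ha1, hWlam] at hP
      rw [ha]
      exact (CF.one' P hP).1
  obtain ⟨⟨w, w', hw1, hw'1, hw, hw', ha0, ha10⟩, hZ⟩ := key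
  have ha1𝔫 : φB y0 ∈ 𝔫 := s36ct_mem_of_frob _ 𝔫 hP1 hq.out.pos hw1 hw h𝔫y
  -- transversality at level `N'`
  have hy' : ¬ algebraMap ↥O (fc_chart ↥O ({lg_lamE N'} : Set ↥(lg_E L N'))) π ∣ y0 :=
    s36ct_not_dvd_coord (fc_ff_transcendental (L := L) hx) hπ.not_isUnit c hover y0 hy0
  have hT : s36ct_TransAt (algebraMap ↥O (fc_chart ↥O ({lg_lamE N'} : Set ↥(lg_E L N'))) π) y0
      (𝔫.comap φA) :=
    s36ct_ll_trans1 L N' hπ q hqO hq2' hqN' ζ hζ c hc (𝔫.comap φA)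
      (by rw [Ideal.mem_comap, hφAπ]; exact hπ𝔫) y0 hy0 h𝔫y
  have hT' : s36ct_TransAt (algebraMap ↥O (fc_chart ↥O ({lg_lamE N'} : Set ↥(lg_E L N'))) π) y0
      (𝔫.comap φB) :=
    s36ct_ll_trans1 L N' hπ q hqO hq2' hqN' ζ hζ c hc (𝔫.comap φB)
      (by rw [Ideal.mem_comap, hφBπ]; exact hπ𝔫) y0 hy0 ha1𝔫
  -- the pairing at the horizontal primes
  haveI : IsNoetherianRing (fc_chart ↥O ({lg_lamE (N' * q)} : Set ↥(lg_E L (N' * q)))) :=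
    ssm_ths_chart_isNoetherianRing (A0 := ↥O) (L := L) hxE
  haveI : IsIntegrallyClosed (fc_chart ↥O ({lg_lamE (N' * q)} : Set ↥(lg_E L (N' * q)))) :=
    ssm_ths_chart_isIntegrallyClosed (A0 := ↥O) (L := L) _
  haveI : IsFractionRing (fc_chart ↥O ({lg_lamE (N' * q)} : Set ↥(lg_E L (N' * q))))
      ↥(lg_E L (N' * q)) :=
    ssm_ths_chart_isFractionRing (A0 := ↥O) (L := L) _
  have hpair : ∀ 𝔮 : Ideal (fc_chart ↥O ({lg_lamE (N' * q)} : Set ↥(lg_E L (N' * q)))),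
      𝔮.IsPrime → 𝔮 ≤ 𝔫 → 𝔮.height = 1 →
      algebraMap ↥O (fc_chart ↥O ({lg_lamE (N' * q)} : Set ↥(lg_E L (N' * q)))) π ∉ 𝔮 →
      φB y0 ∈ 𝔮 → φA y0 ∈ 𝔮 := fun 𝔮 h𝔮 _ hht hπ𝔮 hmem =>
    s36ct_pair_of_zeroPair (K := L) (F0 := ↥(lg_E L (N' * q))) hπ ha10 ha0 hZ 𝔮 h𝔮 hht hπ𝔮 hmem
  exact s36ct_si_r2 O hπ q (lg_E L N') (lg_E L (N' * q)) (ssm_al_E_le L N' q)
    (ssm_ga_E_le_quotField O (N' * q)) (ssm_gl_W L N' q hq2 hqN')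
    (ssm_al_WE_WE L N' q hq.out hq2 hqN')
    (fun z => ssm_al_coe_WE_of_mem L N' q hq.out hq2 hqN' z.2 _)
    (ssm_al_relfinrank_E L N' q hq.out hq2 hqN') (hm_lam O) (ssm_ga_lam_frobFixed O q) 1
    (ssm_gl_not_dvd_one q) hyn (lg_lamE N') hlam (lg_lamE N') (lg_lamE (N' * q)) rfl hx hxE hover H
    hp.1 hic1 φA φB hφA hφB hWO 𝔫 hπ𝔫 h2 y0 hy' hT y0 hT' hpair
    (fun t0 t1 h0 h1 => s36ct_leg_hrel L O hπ N' q hq2 hqN' ζ hζ c hc φA φB hφA hφB 𝔫 hπ𝔫 h2 y0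
      hy0 h𝔫y h1 h0)

include hζ in
set_option synthInstance.maxHeartbeats 200000 in
set_option maxHeartbeats 3200000 in
/-- **(R1) + (R2) + (T2) at the cusp `λ = ∞`** (chart `{λ⁻¹}`), closed. -/
theorem s36ct_leg_r2_inf
    (φA φB : fc_chart ↥O ({(lg_lamE N')⁻¹} : Set ↥(lg_E L N')) →+*
      fc_chart ↥O ({(lg_lamE (N' * q))⁻¹} : Set ↥(lg_E L (N' * q))))
    (hφA : ∀ b : fc_chart ↥O ({(lg_lamE N')⁻¹} : Set ↥(lg_E L N')),
      ((φA b : fc_chart ↥O ({(lg_lamE (N' * q))⁻¹} : Set ↥(lg_E L (N' * q)))) :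
        ↥(lg_E L (N' * q))) =
        IntermediateField.inclusion (ssm_al_E_le L N' q) (b : ↥(lg_E L N')))
    (hφB : ∀ b : fc_chart ↥O ({(lg_lamE N')⁻¹} : Set ↥(lg_E L N')),
      ((φB b : fc_chart ↥O ({(lg_lamE (N' * q))⁻¹} : Set ↥(lg_E L (N' * q)))) :
        ↥(lg_E L (N' * q))) =
        ssm_gl_W L N' q hq2 hqN'
          (IntermediateField.inclusion (ssm_al_E_le L N' q) (b : ↥(lg_E L N'))))
    (𝔫 : Ideal (fc_chart ↥O ({(lg_lamE (N' * q))⁻¹} : Set ↥(lg_E L (N' * q)))))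
    [h𝔫 : 𝔫.IsMaximal]
    (hπ𝔫 : algebraMap ↥O (fc_chart ↥O ({(lg_lamE (N' * q))⁻¹} : Set ↥(lg_E L (N' * q)))) π ∈ 𝔫)
    (h2 : ¬ ssm_tp_P (fc_chart ↥O ({(lg_lamE (N' * q))⁻¹} : Set ↥(lg_E L (N' * q))))
        (ssm_gl_V2 O hπ N' q hq2 hqN') ≤ 𝔫)
    (y0 : fc_chart ↥O ({(lg_lamE N')⁻¹} : Set ↥(lg_E L N')))
    (hy0 : (y0 : ↥(lg_E L N')) = (lg_lamE N')⁻¹) (h𝔫y : φA y0 ∈ 𝔫) :
    ∃ t0 t1 : fc_chart ↥O ({(lg_lamE N')⁻¹} : Set ↥(lg_E L N')),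
      tq_GenBy (algebraMap ↥O (fc_chart ↥O ({(lg_lamE N')⁻¹} : Set ↥(lg_E L N'))) π) t0
        (𝔫.comap φA) ∧
      tq_Dom t0 (𝔫.comap φA) ∧
      (∃ (e : ℕ) (s w : fc_chart ↥O ({(lg_lamE N')⁻¹} : Set ↥(lg_E L N'))), 0 < e ∧
        s ∉ 𝔫.comap φA ∧ w ∉ 𝔫.comap φA ∧ s * y0 = w * t0 ^ e) ∧
      tq_GenBy
        (algebraMap ↥O (fc_chart ↥O ({(lg_lamE (N' * q))⁻¹} : Set ↥(lg_E L (N' * q)))) π)
        (φA t0) 𝔫 ∧
      tq_Dom (algebraMap ↥O (fc_chart ↥O ({(lg_lamE (N' * q))⁻¹} : Set ↥(lg_E L (N' * q)))) π)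
        𝔫 ∧
      tq_Dom (φA t0) 𝔫 ∧
      (∃ (e : ℕ) (s w : fc_chart ↥O ({(lg_lamE (N' * q))⁻¹} : Set ↥(lg_E L (N' * q)))), 0 < e ∧
        s ∉ 𝔫 ∧ w ∉ 𝔫 ∧ s * φA y0 = w * φA t0 ^ e) ∧
      tq_GenBy (algebraMap ↥O (fc_chart ↥O ({(lg_lamE N')⁻¹} : Set ↥(lg_E L N'))) π) t1
        (𝔫.comap φB) ∧
      tq_Dom t1 (𝔫.comap φB) ∧
      (∃ (e : ℕ) (s w : fc_chart ↥O ({(lg_lamE N')⁻¹} : Set ↥(lg_E L N'))), 0 < e ∧
        s ∉ 𝔫.comap φB ∧ w ∉ 𝔫.comap φB ∧ s * y0 = w * t1 ^ e) ∧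
      ∃ s w : fc_chart ↥O ({(lg_lamE (N' * q))⁻¹} : Set ↥(lg_E L (N' * q))), s ∉ 𝔫 ∧ w ∉ 𝔫 ∧
        s * φB t1 = w * φA t0 ^ q := by
  have hqO := ssm_fln_q_mem L O q
  have hq2' : q ≠ 2 := ssm_fl_ne_two q hq2
  have hp := ssm_ll_prime L N' hπ q hqO hq2' hqN' ζ hζ
  have hic2 := ssm_ll_ic2 L N' hπ q hqO hq2' hqN' ζ hζ
  haveI := lgf_finite L N'
  haveI : FiniteDimensional L⟮(lg_lamE (N' * q) : ↥(lg_E L (N' * q)))⟯ ↥(lg_E L (N' * q)) :=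
    lgf_finite L (N' * q)
  have H := ssm_gl_hyp O hπ N' q hq2 hqN' hp.1
  have hWO := ssm_si_W_algebraMap O N' q hq2 hqN'
  have F := ssm_fl_facts O hπ N' q hq2 hqN' hp.1
  obtain ⟨-, hWB2, -⟩ := ssm_i1_W_charts (ssm_gl_W L N' q hq2 hqN') hWO rfl F
  have hn0 : (1 : ℤ) ≠ 0 := one_ne_zero
  have hyn := ssm_ga_lam_coeff_one O (ssm_gl_two_ne_zero O q hq2)
  have hlam : ((lg_lamE N' : ↥(lg_E L N')) : LaurentSeries L) =
      coeffMap (algebraMap O L) (hm_lam O) := (hm_coeffMap_lam _).symm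
  have hx : Transcendental L (lg_lamE N' : ↥(lg_E L N')) :=
    ssm_go_transcendental O (lg_E L N') (hm_lam O) (lg_lamE N') hlam hn0 hyn
  have hxE : Transcendental L (lg_lamE (N' * q) : ↥(lg_E L (N' * q))) :=
    ssm_go_transcendental O (lg_E L (N' * q)) (hm_lam O) (lg_lamE (N' * q))
      (hm_coeffMap_lam _).symm hn0 hyn
  have hxi : Transcendental L (lg_lamE N' : ↥(lg_E L N'))⁻¹ :=
    fun h => hx (IsAlgebraic.inv_iff.mp h)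
  have hxEi : Transcendental L (lg_lamE (N' * q) : ↥(lg_E L (N' * q)))⁻¹ :=
    fun h => hxE (IsAlgebraic.inv_iff.mp h)
  have hover := ssm_go_over O (lg_E L N') (hm_lam O) (lg_lamE N') hlam hπ
    ((ssm_al_E_le L N' q).trans (ssm_ga_E_le_quotField O (N' * q))) hn0 hyn
  have hover' := ssm_tp_over_inv (fc_ff_transcendental (L := L) hx)
    (fc_ff_transcendental (L := L) hxi) hπ.not_isUnit hover
  have H' := ssm_tp_ff_hyp_inv (L := L) hπ hxE H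
  haveI : FiniteDimensional L⟮(lg_lamE N' : ↥(lg_E L N'))⁻¹⟯ ↥(lg_E L N') := by
    rw [rt_adjoin_inv]; infer_instance
  haveI : FiniteDimensional L⟮(lg_lamE (N' * q) : ↥(lg_E L (N' * q)))⁻¹⟯
      ↥(lg_E L (N' * q)) := by
    rw [rt_adjoin_inv]; infer_instance
  haveI := ssm_go_isScalarTower O (lg_E L (N' * q))
  haveI := ssm_go_isScalarTower O (lg_E L N')
  have hyE : IntermediateField.inclusion (ssm_al_E_le L N' q) (lg_lamE N')⁻¹ =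
      (lg_lamE (N' * q))⁻¹ :=
    map_inv₀ (IntermediateField.inclusion (ssm_al_E_le L N' q)) (lg_lamE N')
  -- the ring-level facts
  obtain ⟨hintA, -, hPA, -, -, -, -, hW12, hP1p, hP2p⟩ :=
    s36ct_si_facts O hπ q (lg_E L N') (lg_E L (N' * q)) (ssm_al_E_le L N' q)
      (ssm_ga_E_le_quotField O (N' * q)) (ssm_gl_W L N' q hq2 hqN')
      (ssm_al_WE_WE L N' q hq.out hq2 hqN')
      (fun z => ssm_al_coe_WE_of_mem L N' q hq.out hq2 hqN' z.2 _)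
      (ssm_al_relfinrank_E L N' q hq.out hq2 hqN') (hm_lam O) (ssm_ga_lam_frobFixed O q) 1
      (ssm_gl_not_dvd_one q) hyn (lg_lamE N') hlam (lg_lamE N')⁻¹ (lg_lamE (N' * q))⁻¹ hyE hxi hxEi
      hover' H' hp.2.1 hic2 hWB2 φA hφA
  have hAB : ∀ b', φB b' = ssm_inf_equiv (ssm_gl_W L N' q hq2 hqN')
      (ssm_al_WE_WE L N' q hq.out hq2 hqN') _ hWB2 (φA b') := by
    intro b'
    apply Subtype.ext
    rw [hφB, ssm_inf_equiv_coe, hφA]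
  have hintB : φB.IsIntegral :=
    s36ct_isIntegral_beta φA φB _ (fun b => Subtype.ext (ssm_al_WE_WE L N' q hq.out hq2 hqN' b))
      hAB hintA
  haveI hmA : (𝔫.comap φA).IsMaximal := ssm_cp_comap_isMaximal φA hintA 𝔫 h𝔫
  haveI hmB : (𝔫.comap φB).IsMaximal := ssm_cp_comap_isMaximal φB hintB 𝔫 h𝔫
  have hφAπ : φA (algebraMap ↥O (fc_chart ↥O ({(lg_lamE N')⁻¹} : Set ↥(lg_E L N'))) π) =
      algebraMap ↥O (fc_chart ↥O ({(lg_lamE (N' * q))⁻¹} : Set ↥(lg_E L (N' * q)))) π := by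
    apply Subtype.ext
    rw [hφA]
    change IntermediateField.inclusion (ssm_al_E_le L N' q) (algebraMap ↥O ↥(lg_E L N') π) =
      algebraMap ↥O ↥(lg_E L (N' * q)) π
    rw [IsScalarTower.algebraMap_apply ↥O L ↥(lg_E L N'), AlgHom.commutes,
      ← IsScalarTower.algebraMap_apply]
  have hφBπ : φB (algebraMap ↥O (fc_chart ↥O ({(lg_lamE N')⁻¹} : Set ↥(lg_E L N'))) π) =
      algebraMap ↥O (fc_chart ↥O ({(lg_lamE (N' * q))⁻¹} : Set ↥(lg_E L (N' * q)))) π := by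
    rw [hAB, hφAπ]
    apply Subtype.ext
    rw [ssm_inf_equiv_coe]
    exact hWO π
  -- the cusp data
  have hC := ssm_tp_ff_chart (L := L) hπ hxEi
  have hyEA : Transcendental ↥O (lg_lamE (N' * q) : ↥(lg_E L (N' * q)))⁻¹ :=
    fc_ff_transcendental (L := L) hxEi
  haveI : IsIntegrallyClosed
      (Algebra.adjoin ↥O ({(lg_lamE (N' * q))⁻¹} : Set ↥(lg_E L (N' * q)))) :=
    fc_ff_isIntegrallyClosed hyEA
  haveI : FaithfulSMul (Algebra.adjoin ↥O ({(lg_lamE (N' * q))⁻¹} : Set ↥(lg_E L (N' * q))))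
      ↥(lg_E L (N' * q)) :=
    (faithfulSMul_iff_algebraMap_injective _ _).2 Subtype.val_injective
  have le1 : ∀ b ∈ fc_chart ↥O ({(lg_lamE (N' * q))⁻¹} : Set ↥(lg_E L (N' * q))),
      b ∈ ssm_gl_V1 O hπ N' q := fun b hb => hC.le H'.over1 hb
  have le2 : ∀ b ∈ fc_chart ↥O ({(lg_lamE (N' * q))⁻¹} : Set ↥(lg_E L (N' * q))),
      b ∈ ssm_gl_V2 O hπ N' q hq2 hqN' := fun b hb => hC.le H'.over2 hb
  have ha : ((φA y0 : fc_chart ↥O ({(lg_lamE (N' * q))⁻¹} : Set ↥(lg_E L (N' * q)))) :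
      ↥(lg_E L (N' * q))) = (lg_lamE (N' * q))⁻¹ := by
    rw [hφA, hy0, map_inv₀]
    rfl
  have ha1 : ((φB y0 : fc_chart ↥O ({(lg_lamE (N' * q))⁻¹} : Set ↥(lg_E L (N' * q)))) :
      ↥(lg_E L (N' * q))) = (ssm_gl_W L N' q hq2 hqN' (lg_lamE (N' * q)))⁻¹ := by
    rw [hφB, hy0, map_inv₀, map_inv₀]
    rfl
  have hlam0 : (lg_lamE (N' * q) : ↥(lg_E L (N' * q))) ≠ 0 := fun h =>
    hxE (h ▸ isAlgebraic_zero)
  have hW0 : ssm_gl_W L N' q hq2 hqN' (lg_lamE (N' * q)) ≠ 0 :=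
    (EmbeddingLike.map_ne_zero_iff (f := ssm_gl_W L N' q hq2 hqN')).2 hlam0
  haveI := hP1p
  haveI := hP2p
  haveI h𝔫p := h𝔫.isPrime
  have hP1 : ssm_tp_P (fc_chart ↥O ({(lg_lamE (N' * q))⁻¹} : Set ↥(lg_E L (N' * q))))
      (ssm_gl_V1 O hπ N' q) ≤ 𝔫 :=
    ssm_cp_le_of_not_le φA
      (algebraMap ↥O (fc_chart ↥O ({(lg_lamE N')⁻¹} : Set ↥(lg_E L N'))) π) _ _
      hPA 𝔫 (by rw [hφAπ]; exact hπ𝔫) h2
  have CF := s36mc_cuspFacts01 L N' q hq.out hq2'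
  have hWlam := ssm_fl_W_lam (L := L) N' q hq2 hqN'
  obtain ⟨w, w', hw1, hw'1, hw, hw', ha0, ha10⟩ :=
    s36ct_cusp_data le1 le2 (inv_ne_zero hlam0) (inv_ne_zero hW0) F.winf F.winf' F.winf_sub
      F.winf'_sub _ _ ha ha1
  have hZ : ∀ P : AlgebraicCurve.Place L ↥(lg_E L (N' * q)),
      0 < P.ord ((φB y0 : fc_chart ↥O ({(lg_lamE (N' * q))⁻¹} : Set ↥(lg_E L (N' * q)))) :
        ↥(lg_E L (N' * q))) →
      0 < P.ord ((φA y0 : fc_chart ↥O ({(lg_lamE (N' * q))⁻¹} : Set ↥(lg_E L (N' * q)))) :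
        ↥(lg_E L (N' * q))) := by
    intro P hP
    rw [ha1, hWlam] at hP
    rw [ha]
    exact (CF.inf' P hP).1
  have ha1𝔫 : φB y0 ∈ 𝔫 := s36ct_mem_of_frob _ 𝔫 hP1 hq.out.pos hw1 hw h𝔫y
  -- transversality at level `N'`
  have hy0' : (y0 : ↥(lg_E L N')) = (lg_lamE N')⁻¹ - algebraMap ↥O ↥(lg_E L N') 0 := by
    rw [hy0, map_zero, sub_zero]
  have hy' : ¬ algebraMap ↥O (fc_chart ↥O ({(lg_lamE N')⁻¹} : Set ↥(lg_E L N'))) π ∣ y0 :=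
    s36ct_not_dvd_coord (fc_ff_transcendental (L := L) hxi) hπ.not_isUnit 0 hover' y0 hy0'
  have hT : s36ct_TransAt
      (algebraMap ↥O (fc_chart ↥O ({(lg_lamE N')⁻¹} : Set ↥(lg_E L N'))) π) y0 (𝔫.comap φA) :=
    s36ct_ll_trans2 L N' hπ q hqO hq2' hqN' ζ hζ 0 (Or.inl rfl) (𝔫.comap φA)
      (by rw [Ideal.mem_comap, hφAπ]; exact hπ𝔫) y0 hy0' h𝔫y
  have hT' : s36ct_TransAt
      (algebraMap ↥O (fc_chart ↥O ({(lg_lamE N')⁻¹} : Set ↥(lg_E L N'))) π) y0 (𝔫.comap φB) :=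
    s36ct_ll_trans2 L N' hπ q hqO hq2' hqN' ζ hζ 0 (Or.inl rfl) (𝔫.comap φB)
      (by rw [Ideal.mem_comap, hφBπ]; exact hπ𝔫) y0 hy0' ha1𝔫
  -- the pairing at the horizontal primes
  haveI : IsNoetherianRing (fc_chart ↥O ({(lg_lamE (N' * q))⁻¹} : Set ↥(lg_E L (N' * q)))) :=
    ssm_ths_chart_isNoetherianRing (A0 := ↥O) (L := L) hxEi
  haveI : IsIntegrallyClosed
      (fc_chart ↥O ({(lg_lamE (N' * q))⁻¹} : Set ↥(lg_E L (N' * q)))) :=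
    ssm_ths_chart_isIntegrallyClosed (A0 := ↥O) (L := L) _
  haveI : IsFractionRing (fc_chart ↥O ({(lg_lamE (N' * q))⁻¹} : Set ↥(lg_E L (N' * q))))
      ↥(lg_E L (N' * q)) :=
    ssm_ths_chart_isFractionRing (A0 := ↥O) (L := L) _
  have hpair : ∀ 𝔮 : Ideal (fc_chart ↥O ({(lg_lamE (N' * q))⁻¹} : Set ↥(lg_E L (N' * q)))),
      𝔮.IsPrime → 𝔮 ≤ 𝔫 → 𝔮.height = 1 →
      algebraMap ↥O (fc_chart ↥O ({(lg_lamE (N' * q))⁻¹} : Set ↥(lg_E L (N' * q)))) π ∉ 𝔮 →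
      φB y0 ∈ 𝔮 → φA y0 ∈ 𝔮 := fun 𝔮 h𝔮 _ hht hπ𝔮 hmem =>
    s36ct_pair_of_zeroPair (K := L) (F0 := ↥(lg_E L (N' * q))) hπ ha10 ha0 hZ 𝔮 h𝔮 hht hπ𝔮 hmem
  exact s36ct_si_r2 O hπ q (lg_E L N') (lg_E L (N' * q)) (ssm_al_E_le L N' q)
    (ssm_ga_E_le_quotField O (N' * q)) (ssm_gl_W L N' q hq2 hqN')
    (ssm_al_WE_WE L N' q hq.out hq2 hqN')
    (fun z => ssm_al_coe_WE_of_mem L N' q hq.out hq2 hqN' z.2 _)
    (ssm_al_relfinrank_E L N' q hq.out hq2 hqN') (hm_lam O) (ssm_ga_lam_frobFixed O q) 1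
    (ssm_gl_not_dvd_one q) hyn (lg_lamE N') hlam (lg_lamE N')⁻¹ (lg_lamE (N' * q))⁻¹ hyE hxi hxEi
    hover' H' hp.2.1 hic2 φA φB hφA hφB hWO 𝔫 hπ𝔫 h2 y0 hy' hT y0 hT' hpair
    (fun t0 t1 h0 h1 => s36ct_leg_hrel_inf L O hπ N' q hq2 hqN' ζ hζ φA φB hφA hφB 𝔫 hπ𝔫 h2 y0
      hy0 h𝔫y h1 h0)

end NF

end Fermat.Agent.S36
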