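/-
Project S36, leaf [CUSP-T2] (helper23; prefix `s36ct_`), part 4: the purely inseparable relation
`s u^q = a φ t' + π r` at chart level, read off helper16's `[ORD-G-INST]` package `s36oc_Hyp`
(`S36/CReg/OrdGCover.lean`): this is the hypothesis `hrel` of `s36ct_r2_cover` /
`s36ct_t2_chart`.
-/
import Mathlib
import Fermat.Agent.S36.CReg.OrdGCover

set_option autoImplicit false
set_option linter.unusedSectionVars false
set_option linter.unusedVariables false
set_option linter.style.haveILetI false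

namespace Fermat.Agent.S36

open Fermat.Agent.JT3 Fermat.Agent.SS Polynomial IsLocalRing

section OrdG

variable {A0 : Type*} [CommRing A0] {K E : Type*} [Field K] [Field E] [Algebra K E]
  [FiniteDimensional K E] [Algebra.IsSeparable K E] [Algebra A0 K] [Algebra A0 E]
  {B' : Subalgebra A0 K} {B : Subalgebra A0 E}
  {φ : B' →+* B} {y0 : Ideal B'} [y0.IsPrime]
  {S : Type*} [CommRing S] [IsDomain S] [IsLocalRing S] [IsNoetherianRing S]
  [IsIntegrallyClosed S] [Algebra B' S] [IsLocalization.AtPrime S y0]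
  [Algebra S K] [IsScalarTower B' S K] [IsFractionRing S K] [Algebra S E] [IsScalarTower S K E]
  {q₀ : ℕ} {P1 P2 : Ideal B} [P1.IsPrime] [P2.IsPrime] {π' t' : B'} {u : B}

/-- **the purely inseparable relation at chart level**: at a prime `𝔫` of `B` over `y0` off the
`φ`-isomorphic component `P1`: `s u^q = a φ t' + φ π' r` with `s, a ∉ 𝔫`. -/
theorem s36ct_hrel_of_hyp (H : s36oc_Hyp φ y0 S q₀ P1 P2 π' t' u)
    (hrank : 3 ≤ Module.finrank K E) (𝔫 : Ideal B) [h𝔫 : 𝔫.IsPrime] (hcomap : 𝔫.comap φ = y0)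
    (hP1 : ¬ P1 ≤ 𝔫) :
    ∃ s a r : B, s ∉ 𝔫 ∧ a ∉ 𝔫 ∧ s * u ^ q₀ = a * φ t' + φ π' * r := by
  obtain ⟨G, a, ha, -, -, hu, -, -, -⟩ := s36oc_adjoin H hrank
  obtain ⟨a1, a2, rfl⟩ := IsLocalization.exists_mk'_eq y0.primeCompl a
  -- `a1 ∉ y0`
  have ha1 : a1 ∉ y0 := by
    intro h
    have h1 : algebraMap B' S a1 ∈ maximalIdeal S :=
      (IsLocalization.AtPrime.to_map_mem_maximal_iff S y0 a1).2 h
    have h2 : algebraMap B' S a1 = IsLocalization.mk' S a1 a2 * algebraMap B' S (a2 : B') :=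
      (IsLocalization.mk'_spec S a1 a2).symm
    have h3 : IsUnit (algebraMap B' S a1) := by
      rw [h2]
      exact ha.mul (IsLocalization.map_units S a2)
    exact (mem_maximalIdeal _).1 h1 h3
  -- the relation in `B` modulo `P2`
  have hkey : φ (a2 : B') * u ^ q₀ - φ a1 * φ t' ∈ P2 := by
    rw [← H.mem_map_iff2]
    have e : H.iota (φ (a2 : B') * u ^ q₀ - φ a1 * φ t') =
        H.iota (φ (a2 : B')) * (H.iota u ^ q₀ -
          algebraMap S (integralClosure S E)
            (IsLocalization.mk' S a1 a2 * algebraMap B' S t')) := by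
      have h1 : algebraMap B' S a1 = IsLocalization.mk' S a1 a2 * algebraMap B' S (a2 : B') :=
        (IsLocalization.mk'_spec S a1 a2).symm
      rw [map_sub, map_mul, map_mul, map_pow, H.iota_phi, H.iota_phi, H.iota_phi, h1]
      simp only [map_mul]
      ring
    rw [e]
    exact Ideal.mul_mem_left _ _ hu
  obtain ⟨p1, hp1, hp1n⟩ := SetLike.not_le_iff_exists.mp hP1
  have hmem : p1 * (φ (a2 : B') * u ^ q₀ - φ a1 * φ t') ∈ Ideal.span {φ π'} := by
    rw [H.hP]
    exact ⟨Ideal.mul_mem_right _ _ hp1, Ideal.mul_mem_left _ _ hkey⟩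
  obtain ⟨r, hr⟩ := Ideal.mem_span_singleton'.1 hmem
  have hmemc : ∀ b' : B', φ b' ∈ 𝔫 → b' ∈ y0 := fun b' h => hcomap ▸ (Ideal.mem_comap.2 h)
  have hφa2 : φ (a2 : B') ∉ 𝔫 := fun h => a2.2 (hmemc _ h)
  have hφa1 : φ a1 ∉ 𝔫 := fun h => ha1 (hmemc _ h)
  refine ⟨p1 * φ (a2 : B'), p1 * φ a1, r, ?_, ?_, ?_⟩
  · exact fun h => (h𝔫.mem_or_mem h).elim hp1n hφa2
  · exact fun h => (h𝔫.mem_or_mem h).elim hp1n hφa1
  · linear_combination (-1 : B) * hr

end OrdG

end Fermat.Agent.S36
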