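/-
Project S36, leaf [CUSP-T2] (helper23; prefix `s36ct_`), part 8: helper16's package `s36oc_Hyp`
THROUGH `β` AT A CUSP POINT and the purely inseparable relation `hrel`, for a tower
`E' ≤ E ≤ Quot(O((X)))` (generic context of `ssm_si_chart`).  The `β`-structure is an INSTANCE
BINDER `[algβ : Algebra ↥E' ↥E]` with `halgβ : algebraMap z = W (inclusion z)`.

* `s36ct_noCrossing_of_frob` : no crossing point of the special fibre contains `a₁` when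
  `w a₁ = a^q`, `w' a = a₁^q`, `w ≡ 1` on `P1`, `w' ≡ 1` on `P2`;
* `s36ct_si_hyp`  : `s36oc_Hyp φB y0 S q P2 P1 π t1 u`;
* `s36ct_si_hrel` : `s u^q = a φB t1 + π r`, `s, a ∉ 𝔫`.
-/
import Mathlib
import Fermat.Agent.S36.CuspTrans.T2Beta
import Fermat.Agent.S36.CuspTrans.T2Hyp
import Fermat.Agent.S36.CuspTrans.T2OrdG
import Fermat.Agent.S36.CReg.ResFinite
import Fermat.Agent.SS.Model.ThickBase
import Fermat.Agent.SS.Model.Crossing

set_option autoImplicit false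
set_option linter.unusedSectionVars false
set_option linter.unusedVariables false
set_option linter.style.haveILetI false

noncomputable section

open ModularCurve IntermediateField IsLocalRing Polynomial
open Fermat.Agent.JT3 Fermat.Agent.SS

namespace Fermat.Agent.S36

section NoCross

variable {B : Type*} [CommRing B] [IsDomain B]

/-- **no crossing point at a cusp**: `w a₁ = a^q`, `w' a = a₁^q`, `w ≡ 1` on `P1`, `w' ≡ 1` on
`P2`, `a₁ ∈ 𝔫`, `q ≥ 2`: `𝔫` does not contain both `P1` and `P2`. -/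
theorem s36ct_noCrossing_of_frob (P1 P2 𝔫 : Ideal B) (h𝔫 : 𝔫 ≠ ⊤) {q : ℕ} (hq : 2 ≤ q)
    {w w' a a1 : B} (hw1 : w - 1 ∈ P1) (hw'1 : w' - 1 ∈ P2) (hw : w * a1 = a ^ q)
    (hw' : w' * a = a1 ^ q) (ha0 : a ≠ 0) (ha10 : a1 ≠ 0) (ha1 : a1 ∈ 𝔫) :
    ¬ (P1 ≤ 𝔫 ∧ P2 ≤ 𝔫) := by
  refine ssm_cr_noCrossing P1 P2 𝔫 h𝔫 w w' hw1 hw'1 ?_
  obtain ⟨k, rfl⟩ : ∃ k, q = k + 2 := ⟨q - 2, by omega⟩
  have h1 : w * w' * (a * a1) = (a ^ (k + 1) * a1 ^ (k + 1)) * (a * a1) := by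
    calc w * w' * (a * a1) = (w * a1) * (w' * a) := by ring
      _ = a ^ (k + 2) * a1 ^ (k + 2) := by rw [hw, hw']
      _ = (a ^ (k + 1) * a1 ^ (k + 1)) * (a * a1) := by ring
  have h2 : w * w' = a ^ (k + 1) * a1 ^ (k + 1) :=
    mul_right_cancel₀ (mul_ne_zero ha0 ha10) h1
  rw [h2]
  exact Ideal.mul_mem_left _ _ (Ideal.pow_mem_of_mem _ ha1 _ (Nat.succ_pos k))

end NoCross

section Generic

variable {L : Type*} [Field L] [CharZero L] (O : ValuationSubring L)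
  [IsDiscreteValuationRing O] {π : O} (hπ : Irreducible π)
variable (q : ℕ) [NeZero q] [hq : Fact q.Prime] [CharP (ResidueField O) q]
variable (E' E : IntermediateField L (LaurentSeries L)) (hle : E' ≤ E)
  (hE : E ≤ gq_quotField O L)

set_option synthInstance.maxHeartbeats 200000 in
set_option maxHeartbeats 800000 in
/-- **helper16's package through `β` at a cusp point** of the chart `fc_chart O {yE}` of a tower. -/
theorem s36ct_si_hyp [algβ : Algebra ↥E' ↥E] [Finite (ResidueField ↥O)]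
    (W : ↥E ≃+* ↥E) (hWW : ∀ x, W (W x) = x)
    (halgβ : ∀ z : ↥E', algebraMap ↥E' ↥E z = W (IntermediateField.inclusion hle z))
    (hW : ∀ z : ↥E', ((W (IntermediateField.inclusion hle z) : ↥E) : LaurentSeries L) =
      qExpand L q (z : LaurentSeries L))
    (hrank : IntermediateField.relfinrank E' E = q + 1)
    (ys : LaurentSeries O) (hyF : ssm_ga_FrobFixed q ys) (n : ℤ) (hn : ¬ (q : ℤ) ∣ n)
    (hyn : residue O (ys.coeff n) ≠ 0) (lam' : ↥E')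
    (hlam : (lam' : LaurentSeries L) = coeffMap (algebraMap O L) ys)
    (y : ↥E') (yE : ↥E) (hyE : IntermediateField.inclusion hle y = yE)
    (hy : Transcendental L y) [FiniteDimensional L⟮y⟯ ↥E'] (hyEt : Transcendental L yE)
    (hover : ssm_tp_Over (algebraMap ↥O (Algebra.adjoin ↥O ({y} : Set ↥E')) π)
      (gq_valSubOf π hπ.ne_zero hπ.maximalIdeal_eq E' (hle.trans hE)))
    (H : ssm_tp_Hyp (algebraMap ↥O (Algebra.adjoin ↥O ({yE} : Set ↥E)) π)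
      (gq_valSubOf π hπ.ne_zero hπ.maximalIdeal_eq E hE)
      ((gq_valSubOf π hπ.ne_zero hπ.maximalIdeal_eq E hE).comap (W : ↥E →+* ↥E)))
    (hprime : Prime (algebraMap ↥O (fc_chart ↥O ({y} : Set ↥E')) π))
    (hic : IsIntegrallyClosed (fc_chart ↥O ({y} : Set ↥E') ⧸
      (Ideal.span {algebraMap ↥O (fc_chart ↥O ({y} : Set ↥E')) π} :
        Ideal (fc_chart ↥O ({y} : Set ↥E')))))
    (hWB : ∀ b ∈ fc_chart ↥O ({yE} : Set ↥E), W b ∈ fc_chart ↥O ({yE} : Set ↥E))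
    (hWO : ∀ a : ↥O, W (algebraMap ↥O ↥E a) = algebraMap ↥O ↥E a)
    (φA φB : fc_chart ↥O ({y} : Set ↥E') →+* fc_chart ↥O ({yE} : Set ↥E))
    (hφA : ∀ b : fc_chart ↥O ({y} : Set ↥E'), ((φA b : fc_chart ↥O ({yE} : Set ↥E)) : ↥E) =
      IntermediateField.inclusion hle (b : ↥E'))
    (hφB : ∀ b : fc_chart ↥O ({y} : Set ↥E'), ((φB b : fc_chart ↥O ({yE} : Set ↥E)) : ↥E) =
      W (IntermediateField.inclusion hle (b : ↥E')))
    (𝔫 : Ideal (fc_chart ↥O ({yE} : Set ↥E))) [h𝔫 : 𝔫.IsMaximal]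
    (hπ𝔫 : algebraMap ↥O (fc_chart ↥O ({yE} : Set ↥E)) π ∈ 𝔫)
    (h2 : ¬ ssm_tp_P (fc_chart ↥O ({yE} : Set ↥E))
        ((gq_valSubOf π hπ.ne_zero hπ.maximalIdeal_eq E hE).comap (W : ↥E →+* ↥E)) ≤ 𝔫)
    (y0 : Ideal (fc_chart ↥O ({y} : Set ↥E'))) [hy0 : y0.IsMaximal] (h𝔫y : 𝔫.comap φB = y0)
    (S : Type*) [CommRing S] [IsLocalRing S] [Algebra (fc_chart ↥O ({y} : Set ↥E')) S]
    [IsLocalization.AtPrime S y0]
    {w w' a a1 : fc_chart ↥O ({yE} : Set ↥E)}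
    (hw1 : w - 1 ∈ ssm_tp_P (fc_chart ↥O ({yE} : Set ↥E))
      (gq_valSubOf π hπ.ne_zero hπ.maximalIdeal_eq E hE))
    (hw'1 : w' - 1 ∈ ssm_tp_P (fc_chart ↥O ({yE} : Set ↥E))
      ((gq_valSubOf π hπ.ne_zero hπ.maximalIdeal_eq E hE).comap (W : ↥E →+* ↥E)))
    (hw : w * a1 = a ^ q) (hw' : w' * a = a1 ^ q) (ha0 : a ≠ 0) (ha10 : a1 ≠ 0)
    (y'' : fc_chart ↥O ({y} : Set ↥E')) (hy'' : φB y'' = a1) (ha1𝔫 : a1 ∈ 𝔫)
    {t1 : fc_chart ↥O ({y} : Set ↥E')}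
    (hgen : tq_GenBy (algebraMap ↥O (fc_chart ↥O ({y} : Set ↥E')) π) t1 y0)
    {u : fc_chart ↥O ({yE} : Set ↥E)}
    (hu : tq_GenBy (algebraMap ↥O (fc_chart ↥O ({yE} : Set ↥E)) π) u 𝔫) :
    s36oc_Hyp φB y0 S q
      (ssm_tp_P (fc_chart ↥O ({yE} : Set ↥E))
        ((gq_valSubOf π hπ.ne_zero hπ.maximalIdeal_eq E hE).comap (W : ↥E →+* ↥E)))
      (ssm_tp_P (fc_chart ↥O ({yE} : Set ↥E)) (gq_valSubOf π hπ.ne_zero hπ.maximalIdeal_eq E hE))
      (algebraMap ↥O (fc_chart ↥O ({y} : Set ↥E')) π) t1 u := by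
  obtain ⟨hintA, hBclβ, hPA, hc1, hc2, hadd, hpow, hW12, hP1p, hP2p⟩ :=
    s36ct_si_facts O hπ q E' E hle hE W hWW hW hrank ys hyF n hn hyn lam' hlam y yE hyE hy hyEt
      hover H hprime hic hWB φA hφA
  haveI := hP1p
  haveI := hP2p
  have hAB : ∀ b', φB b' = ssm_inf_equiv W hWW _ hWB (φA b') := by
    intro b'
    apply Subtype.ext
    rw [hφB, ssm_inf_equiv_coe, hφA]
  have hφAπ : φA (algebraMap ↥O (fc_chart ↥O ({y} : Set ↥E')) π) =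
      algebraMap ↥O (fc_chart ↥O ({yE} : Set ↥E)) π := by
    apply Subtype.ext
    rw [hφA]
    rfl
  have hφBπ : φB (algebraMap ↥O (fc_chart ↥O ({y} : Set ↥E')) π) =
      algebraMap ↥O (fc_chart ↥O ({yE} : Set ↥E)) π := by
    apply Subtype.ext
    rw [hφB]
    exact hWO π
  -- `P1 ≤ 𝔫`
  have hP1𝔫 : ssm_tp_P (fc_chart ↥O ({yE} : Set ↥E))
      (gq_valSubOf π hπ.ne_zero hπ.maximalIdeal_eq E hE) ≤ 𝔫 := by
    haveI := h𝔫.isPrime
    exact ssm_cp_le_of_not_le φA (algebraMap ↥O (fc_chart ↥O ({y} : Set ↥E')) π) _ _ hPA 𝔫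
      (by rw [hφAπ]; exact hπ𝔫) h2
  -- `q ∈ (π)`
  have hqπ : ((q : ℕ) : fc_chart ↥O ({y} : Set ↥E')) ∈
      Ideal.span {algebraMap ↥O (fc_chart ↥O ({y} : Set ↥E')) π} := by
    have h1 : ((q : ℕ) : ↥O) ∈ maximalIdeal ↥O := by
      rw [← IsLocalRing.residue_eq_zero_iff, map_natCast]
      exact CharP.cast_eq_zero _ q
    rw [hπ.maximalIdeal_eq] at h1
    obtain ⟨c, hc⟩ := Ideal.mem_span_singleton'.1 h1
    rw [Ideal.mem_span_singleton']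
    exact ⟨algebraMap ↥O _ c, by rw [← map_mul, hc, map_natCast]⟩
  refine s36ct_hyp_beta (K := ↥E') (E := ↥E) φA φB (ssm_inf_equiv W hWW _ hWB)
    (fun b => Subtype.ext (hWW b)) hAB (fun b' => by rw [hφB, halgβ]) hintA
    (fun z hz => hBclβ (algebraMap (fc_chart ↥O ({y} : Set ↥E')) ↥E) (fun b => halgβ _) z hz)
    y0 S hq.out hqπ _ _ hW12 hPA (hφBπ.trans hφAπ.symm) hc1 hc2 hadd hpow
    (fun s => s36rf_chart_hperf (L := L) q hq.out hy hπ y0 hgen.1 S s) hgen 𝔫 h𝔫y hP1𝔫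
    (by rw [hφBπ]; exact hu) ?_
  intro 𝔫' h𝔫' h𝔫'y
  have ha1𝔫' : a1 ∈ 𝔫' := by
    have h3 : y'' ∈ 𝔫'.comap φB := by
      rw [h𝔫'y, ← h𝔫y, Ideal.mem_comap, hy'']
      exact ha1𝔫
    rw [Ideal.mem_comap, hy''] at h3
    exact h3
  have := s36ct_noCrossing_of_frob _ _ 𝔫' h𝔫'.ne_top hq.out.two_le hw1 hw'1 hw hw' ha0 ha10 ha1𝔫'
  exact fun h => this ⟨h.2, h.1⟩

set_option synthInstance.maxHeartbeats 200000 in
set_option maxHeartbeats 3200000 in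
/-- **the purely inseparable relation at a cusp point**: `s u^q = a φB t1 + π r`, `s, a ∉ 𝔫`
(the hypothesis `hrel` of `s36ct_si_r2`). -/
theorem s36ct_si_hrel [algβ : Algebra ↥E' ↥E] [Finite (ResidueField ↥O)]
    (W : ↥E ≃+* ↥E) (hWW : ∀ x, W (W x) = x)
    (halgβ : ∀ z : ↥E', algebraMap ↥E' ↥E z = W (IntermediateField.inclusion hle z))
    (hW : ∀ z : ↥E', ((W (IntermediateField.inclusion hle z) : ↥E) : LaurentSeries L) =
      qExpand L q (z : LaurentSeries L))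
    (hrank : IntermediateField.relfinrank E' E = q + 1)
    (ys : LaurentSeries O) (hyF : ssm_ga_FrobFixed q ys) (n : ℤ) (hn : ¬ (q : ℤ) ∣ n)
    (hyn : residue O (ys.coeff n) ≠ 0) (lam' : ↥E')
    (hlam : (lam' : LaurentSeries L) = coeffMap (algebraMap O L) ys)
    (y : ↥E') (yE : ↥E) (hyE : IntermediateField.inclusion hle y = yE)
    (hy : Transcendental L y) [FiniteDimensional L⟮y⟯ ↥E'] (hyEt : Transcendental L yE)
    (hover : ssm_tp_Over (algebraMap ↥O (Algebra.adjoin ↥O ({y} : Set ↥E')) π)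
      (gq_valSubOf π hπ.ne_zero hπ.maximalIdeal_eq E' (hle.trans hE)))
    (H : ssm_tp_Hyp (algebraMap ↥O (Algebra.adjoin ↥O ({yE} : Set ↥E)) π)
      (gq_valSubOf π hπ.ne_zero hπ.maximalIdeal_eq E hE)
      ((gq_valSubOf π hπ.ne_zero hπ.maximalIdeal_eq E hE).comap (W : ↥E →+* ↥E)))
    (hprime : Prime (algebraMap ↥O (fc_chart ↥O ({y} : Set ↥E')) π))
    (hic : IsIntegrallyClosed (fc_chart ↥O ({y} : Set ↥E') ⧸
      (Ideal.span {algebraMap ↥O (fc_chart ↥O ({y} : Set ↥E')) π} :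
        Ideal (fc_chart ↥O ({y} : Set ↥E')))))
    (hWB : ∀ b ∈ fc_chart ↥O ({yE} : Set ↥E), W b ∈ fc_chart ↥O ({yE} : Set ↥E))
    (hWO : ∀ a : ↥O, W (algebraMap ↥O ↥E a) = algebraMap ↥O ↥E a)
    (φA φB : fc_chart ↥O ({y} : Set ↥E') →+* fc_chart ↥O ({yE} : Set ↥E))
    (hφA : ∀ b : fc_chart ↥O ({y} : Set ↥E'), ((φA b : fc_chart ↥O ({yE} : Set ↥E)) : ↥E) =
      IntermediateField.inclusion hle (b : ↥E'))
    (hφB : ∀ b : fc_chart ↥O ({y} : Set ↥E'), ((φB b : fc_chart ↥O ({yE} : Set ↥E)) : ↥E) =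
      W (IntermediateField.inclusion hle (b : ↥E')))
    (𝔫 : Ideal (fc_chart ↥O ({yE} : Set ↥E))) [h𝔫 : 𝔫.IsMaximal]
    (hπ𝔫 : algebraMap ↥O (fc_chart ↥O ({yE} : Set ↥E)) π ∈ 𝔫)
    (h2 : ¬ ssm_tp_P (fc_chart ↥O ({yE} : Set ↥E))
        ((gq_valSubOf π hπ.ne_zero hπ.maximalIdeal_eq E hE).comap (W : ↥E →+* ↥E)) ≤ 𝔫)
    {w w' a a1 : fc_chart ↥O ({yE} : Set ↥E)}
    (hw1 : w - 1 ∈ ssm_tp_P (fc_chart ↥O ({yE} : Set ↥E))
      (gq_valSubOf π hπ.ne_zero hπ.maximalIdeal_eq E hE))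
    (hw'1 : w' - 1 ∈ ssm_tp_P (fc_chart ↥O ({yE} : Set ↥E))
      ((gq_valSubOf π hπ.ne_zero hπ.maximalIdeal_eq E hE).comap (W : ↥E →+* ↥E)))
    (hw : w * a1 = a ^ q) (hw' : w' * a = a1 ^ q) (ha0 : a ≠ 0) (ha10 : a1 ≠ 0)
    (y'' : fc_chart ↥O ({y} : Set ↥E')) (hy'' : φB y'' = a1) (ha1𝔫 : a1 ∈ 𝔫)
    {t1 : fc_chart ↥O ({y} : Set ↥E')}
    (hgen : tq_GenBy (algebraMap ↥O (fc_chart ↥O ({y} : Set ↥E')) π) t1 (𝔫.comap φB))
    {u : fc_chart ↥O ({yE} : Set ↥E)}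
    (hu : tq_GenBy (algebraMap ↥O (fc_chart ↥O ({yE} : Set ↥E)) π) u 𝔫) :
    ∃ s a r : fc_chart ↥O ({yE} : Set ↥E), s ∉ 𝔫 ∧ a ∉ 𝔫 ∧
      s * u ^ q = a * φB t1 + algebraMap ↥O (fc_chart ↥O ({yE} : Set ↥E)) π * r := by
  obtain ⟨hintA, hBclβ, hPA, hc1, hc2, hadd, hpow, hW12, hP1p, hP2p⟩ :=
    s36ct_si_facts O hπ q E' E hle hE W hWW hW hrank ys hyF n hn hyn lam' hlam y yE hyE hy hyEt
      hover H hprime hic hWB φA hφA
  haveI := hP1p
  haveI := hP2p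
  have hAB : ∀ b', φB b' = ssm_inf_equiv W hWW _ hWB (φA b') := by
    intro b'
    apply Subtype.ext
    rw [hφB, ssm_inf_equiv_coe, hφA]
  have hintB : φB.IsIntegral :=
    s36ct_isIntegral_beta φA φB (ssm_inf_equiv W hWW _ hWB) (fun b => Subtype.ext (hWW b)) hAB hintA
  haveI hy0 : (𝔫.comap φB).IsMaximal := ssm_cp_comap_isMaximal φB hintB 𝔫 h𝔫
  have hφBπ : φB (algebraMap ↥O (fc_chart ↥O ({y} : Set ↥E')) π) =
      algebraMap ↥O (fc_chart ↥O ({yE} : Set ↥E)) π := by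
    apply Subtype.ext
    rw [hφB]
    exact hWO π
  -- the `β`-structure has the same degree as the `α`-structure
  have hfrα : @Module.finrank ↥E' ↥E _ _ (ssm_gi_algebra hle).toModule = q + 1 :=
    (ssm_gt_finrank_eq hle).trans hrank
  have hfr : Module.finrank ↥E' ↥E = q + 1 := by
    rw [← hfrα]
    exact (@Algebra.finrank_eq_of_equiv_equiv ↥E' ↥E _ _ (ssm_gi_algebra hle) ↥E' ↥E _ _ algβ
      (RingEquiv.refl _) W (by
        refine RingHom.ext fun z => ?_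
        exact halgβ z)).symm
  haveI : FiniteDimensional ↥E' ↥E :=
    Module.finite_of_finrank_pos (by rw [hfr]; exact Nat.succ_pos q)
  haveI : CharZero ↥E' := charZero_of_injective_algebraMap (algebraMap L ↥E').injective
  haveI : Algebra.IsSeparable ↥E' ↥E := Algebra.IsSeparable.of_integral ↥E' ↥E
  haveI := ssm_go_isScalarTower O E'
  haveI : IsFractionRing (fc_chart ↥O ({y} : Set ↥E')) ↥E' :=
    ssm_ths_chart_isFractionRing (A0 := ↥O) (L := L) y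
  haveI : IsNoetherianRing (fc_chart ↥O ({y} : Set ↥E')) :=
    ssm_ths_chart_isNoetherianRing (A0 := ↥O) (L := L) hy
  haveI : IsIntegrallyClosed (fc_chart ↥O ({y} : Set ↥E')) :=
    ssm_ths_chart_isIntegrallyClosed (A0 := ↥O) (L := L) y
  haveI := hy0.isPrime
  haveI := ssm_ths_isNoetherianRing ↥E' (𝔫.comap φB)
  haveI := ssm_ths_isIntegrallyClosed ↥E' (𝔫.comap φB)
  haveI := ssm_ths_isFractionRing ↥E' (𝔫.comap φB)
  have HH := s36ct_si_hyp O hπ q E' E hle hE W hWW halgβ hW hrank ys hyF n hn hyn lam' hlam y yE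
    hyE hy hyEt hover H hprime hic hWB hWO φA φB hφA hφB 𝔫 hπ𝔫 h2 (𝔫.comap φB) rfl
    ↥(fc_locAt ↥E' (𝔫.comap φB)) hw1 hw'1 hw hw' ha0 ha10 y'' hy'' ha1𝔫 hgen hu
  have h3 : 3 ≤ Module.finrank ↥E' ↥E := by rw [hfr]; have := hq.out.two_le; omega
  have key := s36ct_hrel_of_hyp (K := ↥E') (E := ↥E) (S := ↥(fc_locAt ↥E' (𝔫.comap φB))) HH h3 𝔫
    rfl h2
  rw [hφBπ] at key
  exact key

end Generic

end Fermat.Agent.S36
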