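/-
Project S36, leaf [CUSP-T2] (helper23; prefix `s36ct_`), part 9: THE LEGENDRE INSTANCE OF THE PURELY
INSEPARABLE RELATION `hrel` (`s36ct_si_hrel`), number-field context [NF2-CTX] with a general
uniformiser `π`.

`B0 := fc_chart O {λ_{N'}}`, `B1 := fc_chart O {λ_{N'q}}` (and the two `λ⁻¹`-charts),
`φA, φB : B0 →+* B1` the two chart maps (`α` = inclusion, `β = W_q ∘ α`), `𝔫` a closed point of the
special fibre of `B1` on the Gauss component `VF` only, over a cusp `λ = c`, `c ∈ {0, 1}`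
(resp. `λ⁻¹ = 0`).  Then for every local parameter `u` of `B1` at `𝔫` and every local parameter `t1` of
`B0` at `𝔫 ∩_β B0`:  `s u^q = a φB t1 + π r`, `s, a ∉ 𝔫`.

* `s36ct_leg_hrel_core`, `s36ct_leg_hrel_core_inv` : the two charts, the cusp data `(w, w', a, a₁)`
  abstract;
* `s36ct_leg_hrel` (`c = 0 ∨ c = 1`), `s36ct_leg_hrel_inf` : the three cusps.
-/
import Mathlib
import Fermat.Agent.S36.CuspTrans.T2BetaHyp
import Fermat.Agent.S36.CuspTrans.T2Inst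
import Fermat.Agent.SS.Model.FinalLegNF
import Fermat.Agent.SS.Model.LegLevel

set_option autoImplicit false
set_option linter.unusedSectionVars false
set_option linter.unusedVariables false
set_option linter.style.haveILetI false

noncomputable section

open ModularCurve IntermediateField IsLocalRing Polynomial
open Fermat.Agent.JT3 Fermat.Agent.SS

namespace Fermat.Agent.S36

section CuspData

universe v

variable {A0 : Type*} [CommRing A0] {F0 : Type v} [Field F0] [Algebra A0 F0]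
  {B : Subalgebra A0 F0} {V1 V2 : ValuationSubring F0}

/-- **the cusp data `(w, w')`** of a chart from the two Frobenius quotients. -/
theorem s36ct_cusp_data (le1 : ∀ b ∈ B, b ∈ V1) (le2 : ∀ b ∈ B, b ∈ V2) {q : ℕ} {x xq : F0}
    (hx0 : x ≠ 0) (hxq0 : xq ≠ 0) (hwm : x ^ q / xq ∈ B) (hwm' : xq ^ q / x ∈ B)
    (hsub : x ^ q / xq - 1 ∈ V1.nonunits) (hsub' : xq ^ q / x - 1 ∈ V2.nonunits)
    (a a1 : B) (ha : (a : F0) = x) (ha1 : (a1 : F0) = xq) :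
    ∃ w w' : B, w - 1 ∈ ssm_tp_P B V1 ∧ w' - 1 ∈ ssm_tp_P B V2 ∧ w * a1 = a ^ q ∧
      w' * a = a1 ^ q ∧ a ≠ 0 ∧ a1 ≠ 0 := by
  refine ⟨⟨_, hwm⟩, ⟨_, hwm'⟩, ?_, ?_, ?_, ?_, ?_, ?_⟩
  · rw [ssm_tp_mem_P le1]
    exact hsub
  · rw [ssm_tp_mem_P le2]
    exact hsub'
  · apply Subtype.ext
    rw [MulMemClass.coe_mul, SubmonoidClass.coe_pow, ha, ha1]
    exact div_mul_cancel₀ _ hxq0
  · apply Subtype.ext
    rw [MulMemClass.coe_mul, SubmonoidClass.coe_pow, ha, ha1]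
    exact div_mul_cancel₀ _ hx0
  · intro h
    apply hx0
    rw [← ha, h]
    rfl
  · intro h
    apply hxq0
    rw [← ha1, h]
    rfl

end CuspData

section NF

variable (L : Type) [Field L] [NumberField L] [Algebra L (AlgebraicClosure ℚ)]
  (O : ValuationSubring L) [IsDiscreteValuationRing O] {π : O} (hπ : Irreducible π)
variable (N' q : ℕ) [NeZero N'] [NeZero q] [hq : Fact q.Prime] [CharP (ResidueField O) q]
  (hq2 : ¬ 2 ∣ q) (hqN' : ¬ q ∣ N') (ζ : L) (hζ : IsPrimitiveRoot ζ N')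

include hπ in
/-- a discrete valuation subring is not the whole field. -/
theorem s36ct_ne_top : O ≠ ⊤ := by
  intro h
  apply hπ.not_isUnit
  have h0 : (π : L) ≠ 0 := fun h0 => hπ.ne_zero (Subtype.ext h0)
  have hmem : (π : L)⁻¹ ∈ O := by
    have h1 : (π : L)⁻¹ ∈ (⊤ : ValuationSubring L) := ValuationSubring.mem_top _
    rwa [← h] at h1
  exact IsUnit.of_mul_eq_one ⟨_, hmem⟩ (Subtype.ext (mul_inv_cancel₀ h0))

include hζ in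
set_option synthInstance.maxHeartbeats 200000 in
set_option maxHeartbeats 1600000 in
/-- **`hrel`, chart `{λ}`, abstract cusp data.** -/
theorem s36ct_leg_hrel_core
    (φA φB : fc_chart ↥O ({lg_lamE N'} : Set ↥(lg_E L N')) →+*
      fc_chart ↥O ({lg_lamE (N' * q)} : Set ↥(lg_E L (N' * q))))
    (hφA : ∀ b : fc_chart ↥O ({lg_lamE N'} : Set ↥(lg_E L N')),
      ((φA b : fc_chart ↥O ({lg_lamE (N' * q)} : Set ↥(lg_E L (N' * q)))) : ↥(lg_E L (N' * q))) =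
        IntermediateField.inclusion (ssm_al_E_le L N' q) (b : ↥(lg_E L N')))
    (hφB : ∀ b : fc_chart ↥O ({lg_lamE N'} : Set ↥(lg_E L N')),
      ((φB b : fc_chart ↥O ({lg_lamE (N' * q)} : Set ↥(lg_E L (N' * q)))) : ↥(lg_E L (N' * q))) =
        ssm_gl_W L N' q hq2 hqN'
          (IntermediateField.inclusion (ssm_al_E_le L N' q) (b : ↥(lg_E L N'))))
    (𝔫 : Ideal (fc_chart ↥O ({lg_lamE (N' * q)} : Set ↥(lg_E L (N' * q))))) [h𝔫 : 𝔫.IsMaximal]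
    (hπ𝔫 : algebraMap ↥O (fc_chart ↥O ({lg_lamE (N' * q)} : Set ↥(lg_E L (N' * q)))) π ∈ 𝔫)
    (h2 : ¬ ssm_tp_P (fc_chart ↥O ({lg_lamE (N' * q)} : Set ↥(lg_E L (N' * q))))
        (ssm_gl_V2 O hπ N' q hq2 hqN') ≤ 𝔫)
    {w w' a a1 : fc_chart ↥O ({lg_lamE (N' * q)} : Set ↥(lg_E L (N' * q)))}
    (hw1 : w - 1 ∈ ssm_tp_P (fc_chart ↥O ({lg_lamE (N' * q)} : Set ↥(lg_E L (N' * q))))
      (ssm_gl_V1 O hπ N' q))
    (hw'1 : w' - 1 ∈ ssm_tp_P (fc_chart ↥O ({lg_lamE (N' * q)} : Set ↥(lg_E L (N' * q))))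
      (ssm_gl_V2 O hπ N' q hq2 hqN'))
    (hw : w * a1 = a ^ q) (hw' : w' * a = a1 ^ q) (ha0 : a ≠ 0) (ha10 : a1 ≠ 0)
    (y'' : fc_chart ↥O ({lg_lamE N'} : Set ↥(lg_E L N'))) (hy'' : φB y'' = a1) (ha1𝔫 : a1 ∈ 𝔫)
    {t1 : fc_chart ↥O ({lg_lamE N'} : Set ↥(lg_E L N'))}
    (hgen : tq_GenBy (algebraMap ↥O (fc_chart ↥O ({lg_lamE N'} : Set ↥(lg_E L N'))) π) t1
      (𝔫.comap φB))
    {u : fc_chart ↥O ({lg_lamE (N' * q)} : Set ↥(lg_E L (N' * q)))}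
    (hu : tq_GenBy (algebraMap ↥O (fc_chart ↥O ({lg_lamE (N' * q)} : Set ↥(lg_E L (N' * q)))) π)
      u 𝔫) :
    ∃ s a r : fc_chart ↥O ({lg_lamE (N' * q)} : Set ↥(lg_E L (N' * q))), s ∉ 𝔫 ∧ a ∉ 𝔫 ∧
      s * u ^ q = a * φB t1 +
        algebraMap ↥O (fc_chart ↥O ({lg_lamE (N' * q)} : Set ↥(lg_E L (N' * q)))) π * r := by
  have hqO := ssm_fln_q_mem L O q
  have hq2' : q ≠ 2 := ssm_fl_ne_two q hq2
  have hp := ssm_ll_prime L N' hπ q hqO hq2' hqN' ζ hζ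
  have hic1 := ssm_ll_ic1 L N' hπ q hqO hq2' hqN' ζ hζ
  haveI := lgf_finite L N'
  haveI : Finite (ResidueField ↥O) := s36rf_finite_residue_numberField L O (s36ct_ne_top L O hπ)
  have H := ssm_gl_hyp O hπ N' q hq2 hqN' hp.1
  have hWO := ssm_si_W_algebraMap O N' q hq2 hqN'
  have F := ssm_fl_facts O hπ N' q hq2 hqN' hp.1
  obtain ⟨hWB1, -, -⟩ := ssm_i1_W_charts (ssm_gl_W L N' q hq2 hqN') hWO rfl F
  have hn0 : (1 : ℤ) ≠ 0 := one_ne_zero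
  have hyn := ssm_ga_lam_coeff_one O (ssm_gl_two_ne_zero O q hq2)
  have hlam : ((lg_lamE N' : ↥(lg_E L N')) : LaurentSeries L) =
      coeffMap (algebraMap O L) (hm_lam O) := (hm_coeffMap_lam _).symm
  have hx : Transcendental L (lg_lamE N' : ↥(lg_E L N')) :=
    ssm_go_transcendental O (lg_E L N') (hm_lam O) (lg_lamE N') hlam hn0 hyn
  have hxE : Transcendental L (lg_lamE (N' * q) : ↥(lg_E L (N' * q))) :=
    ssm_go_transcendental O (lg_E L (N' * q)) (hm_lam O) (lg_lamE (N' * q))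
      (hm_coeffMap_lam _).symm hn0 hyn
  have hover := ssm_go_over O (lg_E L N') (hm_lam O) (lg_lamE N') hlam hπ
    ((ssm_al_E_le L N' q).trans (ssm_ga_E_le_quotField O (N' * q))) hn0 hyn
  letI algβ : Algebra ↥(lg_E L N') ↥(lg_E L (N' * q)) :=
    ((ssm_gl_W L N' q hq2 hqN' : ↥(lg_E L (N' * q)) →+* ↥(lg_E L (N' * q))).comp
      (IntermediateField.inclusion (ssm_al_E_le L N' q) : ↥(lg_E L N') →+* ↥(lg_E L (N' * q)))).toAlgebra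
  exact s36ct_si_hrel O hπ q (lg_E L N') (lg_E L (N' * q)) (ssm_al_E_le L N' q)
    (ssm_ga_E_le_quotField O (N' * q)) (ssm_gl_W L N' q hq2 hqN')
    (ssm_al_WE_WE L N' q hq.out hq2 hqN') (fun _ => rfl)
    (fun z => ssm_al_coe_WE_of_mem L N' q hq.out hq2 hqN' z.2 _)
    (ssm_al_relfinrank_E L N' q hq.out hq2 hqN') (hm_lam O) (ssm_ga_lam_frobFixed O q) 1
    (ssm_gl_not_dvd_one q) hyn (lg_lamE N') hlam (lg_lamE N') (lg_lamE (N' * q)) rfl hx hxE hover H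
    hp.1 hic1 hWB1 hWO φA φB hφA hφB 𝔫 hπ𝔫 h2 hw1 hw'1 hw hw' ha0 ha10 y'' hy'' ha1𝔫 hgen hu

include hζ in
set_option synthInstance.maxHeartbeats 200000 in
set_option maxHeartbeats 1600000 in
/-- **`hrel`, chart `{λ⁻¹}`, abstract cusp data.** -/
theorem s36ct_leg_hrel_core_inv
    (φA φB : fc_chart ↥O ({(lg_lamE N')⁻¹} : Set ↥(lg_E L N')) →+*
      fc_chart ↥O ({(lg_lamE (N' * q))⁻¹} : Set ↥(lg_E L (N' * q))))
    (hφA : ∀ b : fc_chart ↥O ({(lg_lamE N')⁻¹} : Set ↥(lg_E L N')),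
      ((φA b : fc_chart ↥O ({(lg_lamE (N' * q))⁻¹} : Set ↥(lg_E L (N' * q)))) :
        ↥(lg_E L (N' * q))) =
        IntermediateField.inclusion (ssm_al_E_le L N' q) (b : ↥(lg_E L N')))
    (hφB : ∀ b : fc_chart ↥O ({(lg_lamE N')⁻¹} : Set ↥(lg_E L N')),
      ((φB b : fc_chart ↥O ({(lg_lamE (N' * q))⁻¹} : Set ↥(lg_E L (N' * q)))) :
        ↥(lg_E L (N' * q))) =
        ssm_gl_W L N' q hq2 hqN'
          (IntermediateField.inclusion (ssm_al_E_le L N' q) (b : ↥(lg_E L N'))))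
    (𝔫 : Ideal (fc_chart ↥O ({(lg_lamE (N' * q))⁻¹} : Set ↥(lg_E L (N' * q)))))
    [h𝔫 : 𝔫.IsMaximal]
    (hπ𝔫 : algebraMap ↥O (fc_chart ↥O ({(lg_lamE (N' * q))⁻¹} : Set ↥(lg_E L (N' * q)))) π ∈ 𝔫)
    (h2 : ¬ ssm_tp_P (fc_chart ↥O ({(lg_lamE (N' * q))⁻¹} : Set ↥(lg_E L (N' * q))))
        (ssm_gl_V2 O hπ N' q hq2 hqN') ≤ 𝔫)
    {w w' a a1 : fc_chart ↥O ({(lg_lamE (N' * q))⁻¹} : Set ↥(lg_E L (N' * q)))}
    (hw1 : w - 1 ∈ ssm_tp_P (fc_chart ↥O ({(lg_lamE (N' * q))⁻¹} : Set ↥(lg_E L (N' * q))))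
      (ssm_gl_V1 O hπ N' q))
    (hw'1 : w' - 1 ∈ ssm_tp_P (fc_chart ↥O ({(lg_lamE (N' * q))⁻¹} : Set ↥(lg_E L (N' * q))))
      (ssm_gl_V2 O hπ N' q hq2 hqN'))
    (hw : w * a1 = a ^ q) (hw' : w' * a = a1 ^ q) (ha0 : a ≠ 0) (ha10 : a1 ≠ 0)
    (y'' : fc_chart ↥O ({(lg_lamE N')⁻¹} : Set ↥(lg_E L N'))) (hy'' : φB y'' = a1)
    (ha1𝔫 : a1 ∈ 𝔫)
    {t1 : fc_chart ↥O ({(lg_lamE N')⁻¹} : Set ↥(lg_E L N'))}
    (hgen : tq_GenBy (algebraMap ↥O (fc_chart ↥O ({(lg_lamE N')⁻¹} : Set ↥(lg_E L N'))) π) t1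
      (𝔫.comap φB))
    {u : fc_chart ↥O ({(lg_lamE (N' * q))⁻¹} : Set ↥(lg_E L (N' * q)))}
    (hu : tq_GenBy
      (algebraMap ↥O (fc_chart ↥O ({(lg_lamE (N' * q))⁻¹} : Set ↥(lg_E L (N' * q)))) π) u 𝔫) :
    ∃ s a r : fc_chart ↥O ({(lg_lamE (N' * q))⁻¹} : Set ↥(lg_E L (N' * q))), s ∉ 𝔫 ∧ a ∉ 𝔫 ∧
      s * u ^ q = a * φB t1 +
        algebraMap ↥O (fc_chart ↥O ({(lg_lamE (N' * q))⁻¹} : Set ↥(lg_E L (N' * q)))) π * r := by
  have hqO := ssm_fln_q_mem L O q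
  have hq2' : q ≠ 2 := ssm_fl_ne_two q hq2
  have hp := ssm_ll_prime L N' hπ q hqO hq2' hqN' ζ hζ
  have hic2 := ssm_ll_ic2 L N' hπ q hqO hq2' hqN' ζ hζ
  haveI := lgf_finite L N'
  haveI : Finite (ResidueField ↥O) := s36rf_finite_residue_numberField L O (s36ct_ne_top L O hπ)
  have H := ssm_gl_hyp O hπ N' q hq2 hqN' hp.1
  have hWO := ssm_si_W_algebraMap O N' q hq2 hqN'
  have F := ssm_fl_facts O hπ N' q hq2 hqN' hp.1
  obtain ⟨-, hWB2, -⟩ := ssm_i1_W_charts (ssm_gl_W L N' q hq2 hqN') hWO rfl F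
  have hn0 : (1 : ℤ) ≠ 0 := one_ne_zero
  have hyn := ssm_ga_lam_coeff_one O (ssm_gl_two_ne_zero O q hq2)
  have hlam : ((lg_lamE N' : ↥(lg_E L N')) : LaurentSeries L) =
      coeffMap (algebraMap O L) (hm_lam O) := (hm_coeffMap_lam _).symm
  have hx : Transcendental L (lg_lamE N' : ↥(lg_E L N')) :=
    ssm_go_transcendental O (lg_E L N') (hm_lam O) (lg_lamE N') hlam hn0 hyn
  have hxE : Transcendental L (lg_lamE (N' * q) : ↥(lg_E L (N' * q))) :=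
    ssm_go_transcendental O (lg_E L (N' * q)) (hm_lam O) (lg_lamE (N' * q))
      (hm_coeffMap_lam _).symm hn0 hyn
  have hxi : Transcendental L (lg_lamE N' : ↥(lg_E L N'))⁻¹ :=
    fun h => hx (IsAlgebraic.inv_iff.mp h)
  have hxEi : Transcendental L (lg_lamE (N' * q) : ↥(lg_E L (N' * q)))⁻¹ :=
    fun h => hxE (IsAlgebraic.inv_iff.mp h)
  have hover := ssm_go_over O (lg_E L N') (hm_lam O) (lg_lamE N') hlam hπ
    ((ssm_al_E_le L N' q).trans (ssm_ga_E_le_quotField O (N' * q))) hn0 hyn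
  have hover' := ssm_tp_over_inv (fc_ff_transcendental (L := L) hx)
    (fc_ff_transcendental (L := L) hxi) hπ.not_isUnit hover
  haveI : FiniteDimensional L⟮(lg_lamE (N' * q) : ↥(lg_E L (N' * q)))⟯ ↥(lg_E L (N' * q)) :=
    lgf_finite L (N' * q)
  have H' := ssm_tp_ff_hyp_inv (L := L) hπ hxE H
  haveI : FiniteDimensional L⟮(lg_lamE N' : ↥(lg_E L N'))⁻¹⟯ ↥(lg_E L N') := by
    rw [rt_adjoin_inv]; infer_instance
  letI algβ : Algebra ↥(lg_E L N') ↥(lg_E L (N' * q)) :=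
    ((ssm_gl_W L N' q hq2 hqN' : ↥(lg_E L (N' * q)) →+* ↥(lg_E L (N' * q))).comp
      (IntermediateField.inclusion (ssm_al_E_le L N' q) : ↥(lg_E L N') →+* ↥(lg_E L (N' * q)))).toAlgebra
  exact s36ct_si_hrel O hπ q (lg_E L N') (lg_E L (N' * q)) (ssm_al_E_le L N' q)
    (ssm_ga_E_le_quotField O (N' * q)) (ssm_gl_W L N' q hq2 hqN')
    (ssm_al_WE_WE L N' q hq.out hq2 hqN') (fun _ => rfl)
    (fun z => ssm_al_coe_WE_of_mem L N' q hq.out hq2 hqN' z.2 _)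
    (ssm_al_relfinrank_E L N' q hq.out hq2 hqN') (hm_lam O) (ssm_ga_lam_frobFixed O q) 1
    (ssm_gl_not_dvd_one q) hyn (lg_lamE N') hlam (lg_lamE N')⁻¹ (lg_lamE (N' * q))⁻¹
    (map_inv₀ (IntermediateField.inclusion (ssm_al_E_le L N' q)) (lg_lamE N')) hxi hxEi hover' H'
    hp.2.1 hic2 hWB2 hWO φA φB hφA hφB 𝔫 hπ𝔫 h2 hw1 hw'1 hw hw' ha0 ha10 y'' hy'' ha1𝔫 hgen hu

include hζ in
set_option synthInstance.maxHeartbeats 200000 in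
set_option maxHeartbeats 1600000 in
/-- **`hrel` at the cusps `λ = 0`, `λ = 1`** (chart `{λ}`). -/
theorem s36ct_leg_hrel (c : ↥O) (hc : c = 0 ∨ c = 1)
    (φA φB : fc_chart ↥O ({lg_lamE N'} : Set ↥(lg_E L N')) →+*
      fc_chart ↥O ({lg_lamE (N' * q)} : Set ↥(lg_E L (N' * q))))
    (hφA : ∀ b : fc_chart ↥O ({lg_lamE N'} : Set ↥(lg_E L N')),
      ((φA b : fc_chart ↥O ({lg_lamE (N' * q)} : Set ↥(lg_E L (N' * q)))) : ↥(lg_E L (N' * q))) =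
        IntermediateField.inclusion (ssm_al_E_le L N' q) (b : ↥(lg_E L N')))
    (hφB : ∀ b : fc_chart ↥O ({lg_lamE N'} : Set ↥(lg_E L N')),
      ((φB b : fc_chart ↥O ({lg_lamE (N' * q)} : Set ↥(lg_E L (N' * q)))) : ↥(lg_E L (N' * q))) =
        ssm_gl_W L N' q hq2 hqN'
          (IntermediateField.inclusion (ssm_al_E_le L N' q) (b : ↥(lg_E L N'))))
    (𝔫 : Ideal (fc_chart ↥O ({lg_lamE (N' * q)} : Set ↥(lg_E L (N' * q))))) [h𝔫 : 𝔫.IsMaximal]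
    (hπ𝔫 : algebraMap ↥O (fc_chart ↥O ({lg_lamE (N' * q)} : Set ↥(lg_E L (N' * q)))) π ∈ 𝔫)
    (h2 : ¬ ssm_tp_P (fc_chart ↥O ({lg_lamE (N' * q)} : Set ↥(lg_E L (N' * q))))
        (ssm_gl_V2 O hπ N' q hq2 hqN') ≤ 𝔫)
    (y0 : fc_chart ↥O ({lg_lamE N'} : Set ↥(lg_E L N')))
    (hy0 : (y0 : ↥(lg_E L N')) = lg_lamE N' - algebraMap ↥O ↥(lg_E L N') c)
    (h𝔫y : φA y0 ∈ 𝔫)
    {t1 : fc_chart ↥O ({lg_lamE N'} : Set ↥(lg_E L N'))}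
    (hgen : tq_GenBy (algebraMap ↥O (fc_chart ↥O ({lg_lamE N'} : Set ↥(lg_E L N'))) π) t1
      (𝔫.comap φB))
    {u : fc_chart ↥O ({lg_lamE (N' * q)} : Set ↥(lg_E L (N' * q)))}
    (hu : tq_GenBy (algebraMap ↥O (fc_chart ↥O ({lg_lamE (N' * q)} : Set ↥(lg_E L (N' * q)))) π)
      u 𝔫) :
    ∃ s a r : fc_chart ↥O ({lg_lamE (N' * q)} : Set ↥(lg_E L (N' * q))), s ∉ 𝔫 ∧ a ∉ 𝔫 ∧
      s * u ^ q = a * φB t1 +
        algebraMap ↥O (fc_chart ↥O ({lg_lamE (N' * q)} : Set ↥(lg_E L (N' * q)))) π * r := by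
  have hqO := ssm_fln_q_mem L O q
  have hq2' : q ≠ 2 := ssm_fl_ne_two q hq2
  have hp := ssm_ll_prime L N' hπ q hqO hq2' hqN' ζ hζ
  have H := ssm_gl_hyp O hπ N' q hq2 hqN' hp.1
  have hWO := ssm_si_W_algebraMap O N' q hq2 hqN'
  have F := ssm_fl_facts O hπ N' q hq2 hqN' hp.1
  have hn0 : (1 : ℤ) ≠ 0 := one_ne_zero
  have hyn := ssm_ga_lam_coeff_one O (ssm_gl_two_ne_zero O q hq2)
  have hxE : Transcendental L (lg_lamE (N' * q) : ↥(lg_E L (N' * q))) :=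
    ssm_go_transcendental O (lg_E L (N' * q)) (hm_lam O) (lg_lamE (N' * q))
      (hm_coeffMap_lam _).symm hn0 hyn
  haveI := ssm_go_isScalarTower O (lg_E L (N' * q))
  haveI := ssm_go_isScalarTower O (lg_E L N')
  have hC := ssm_tp_ff_chart (L := L) hπ hxE
  have hyEA : Transcendental ↥O (lg_lamE (N' * q) : ↥(lg_E L (N' * q))) :=
    fc_ff_transcendental (L := L) hxE
  haveI : IsIntegrallyClosed
      (Algebra.adjoin ↥O ({lg_lamE (N' * q)} : Set ↥(lg_E L (N' * q)))) :=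
    fc_ff_isIntegrallyClosed hyEA
  haveI : FaithfulSMul (Algebra.adjoin ↥O ({lg_lamE (N' * q)} : Set ↥(lg_E L (N' * q))))
      ↥(lg_E L (N' * q)) :=
    (faithfulSMul_iff_algebraMap_injective _ _).2 Subtype.val_injective
  have le1 : ∀ b ∈ fc_chart ↥O ({lg_lamE (N' * q)} : Set ↥(lg_E L (N' * q))),
      b ∈ ssm_gl_V1 O hπ N' q := fun b hb => hC.le H.over1 hb
  have le2 : ∀ b ∈ fc_chart ↥O ({lg_lamE (N' * q)} : Set ↥(lg_E L (N' * q))),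
      b ∈ ssm_gl_V2 O hπ N' q hq2 hqN' := fun b hb => hC.le H.over2 hb
  -- the coordinates of `a := φA y0`, `a₁ := φB y0`
  have hinc : IntermediateField.inclusion (ssm_al_E_le L N' q)
      (algebraMap ↥O ↥(lg_E L N') c) = algebraMap ↥O ↥(lg_E L (N' * q)) c := by
    rw [IsScalarTower.algebraMap_apply ↥O L ↥(lg_E L N'), AlgHom.commutes,
      ← IsScalarTower.algebraMap_apply]
  have ha : ((φA y0 : fc_chart ↥O ({lg_lamE (N' * q)} : Set ↥(lg_E L (N' * q)))) :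
      ↥(lg_E L (N' * q))) = lg_lamE (N' * q) - algebraMap ↥O ↥(lg_E L (N' * q)) c := by
    rw [hφA, hy0, map_sub, hinc]
    rfl
  have ha1 : ((φB y0 : fc_chart ↥O ({lg_lamE (N' * q)} : Set ↥(lg_E L (N' * q)))) :
      ↥(lg_E L (N' * q))) = ssm_gl_W L N' q hq2 hqN' (lg_lamE (N' * q)) -
        algebraMap ↥O ↥(lg_E L (N' * q)) c := by
    rw [hφB, hy0, map_sub, hinc, map_sub, hWO]
    rfl
  have hlam0 : (lg_lamE (N' * q) : ↥(lg_E L (N' * q))) ≠ 0 := fun h =>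
    hxE (h ▸ isAlgebraic_zero)
  have hlam1 : (lg_lamE (N' * q) : ↥(lg_E L (N' * q))) - 1 ≠ 0 := fun h =>
    hxE ((sub_eq_zero.1 h) ▸ isAlgebraic_one)
  have hW0 : ssm_gl_W L N' q hq2 hqN' (lg_lamE (N' * q)) ≠ 0 :=
    (EmbeddingLike.map_ne_zero_iff (f := ssm_gl_W L N' q hq2 hqN')).2 hlam0
  have hW1 : ssm_gl_W L N' q hq2 hqN' (lg_lamE (N' * q)) - 1 ≠ 0 := by
    intro h
    apply hlam1
    have h3 : ssm_gl_W L N' q hq2 hqN' (lg_lamE (N' * q) - 1) = 0 := by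
      rw [map_sub, map_one]; exact h
    exact (EmbeddingLike.map_eq_zero_iff (f := ssm_gl_W L N' q hq2 hqN')).1 h3
  have hP1 : ssm_tp_P (fc_chart ↥O ({lg_lamE (N' * q)} : Set ↥(lg_E L (N' * q))))
      (ssm_gl_V1 O hπ N' q) ≤ 𝔫 := by
    haveI := h𝔫.isPrime
    exact ssm_cp_le_of_not_le (RingHom.id _)
      (algebraMap ↥O (fc_chart ↥O ({lg_lamE (N' * q)} : Set ↥(lg_E L (N' * q)))) π) _ _
      (H.P_inf hC _ rfl) 𝔫 hπ𝔫 h2
  have key : ∃ w w' : fc_chart ↥O ({lg_lamE (N' * q)} : Set ↥(lg_E L (N' * q))),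
      w - 1 ∈ ssm_tp_P _ (ssm_gl_V1 O hπ N' q) ∧
      w' - 1 ∈ ssm_tp_P _ (ssm_gl_V2 O hπ N' q hq2 hqN') ∧ w * φB y0 = φA y0 ^ q ∧
      w' * φA y0 = φB y0 ^ q ∧ φA y0 ≠ 0 ∧ φB y0 ≠ 0 := by
    rcases hc with rfl | rfl
    · rw [map_zero, sub_zero] at ha ha1
      exact s36ct_cusp_data le1 le2 hlam0 hW0 F.w0 F.w0' F.w0_sub F.w0'_sub _ _ ha ha1
    · rw [map_one] at ha ha1
      exact s36ct_cusp_data le1 le2 hlam1 hW1 F.w1 F.w1' F.w1_sub F.w1'_sub _ _ ha ha1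
  obtain ⟨w, w', hw1, hw'1, hw, hw', ha0, ha10⟩ := key
  haveI := h𝔫.isPrime
  have ha1𝔫 : φB y0 ∈ 𝔫 := s36ct_mem_of_frob _ 𝔫 hP1 hq.out.pos hw1 hw h𝔫y
  exact s36ct_leg_hrel_core L O hπ N' q hq2 hqN' ζ hζ φA φB hφA hφB 𝔫 hπ𝔫 h2 hw1 hw'1 hw hw' ha0
    ha10 y0 rfl ha1𝔫 hgen hu

include hζ in
set_option synthInstance.maxHeartbeats 200000 in
set_option maxHeartbeats 1600000 in
/-- **`hrel` at the cusp `λ = ∞`** (chart `{λ⁻¹}`). -/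
theorem s36ct_leg_hrel_inf
    (φA φB : fc_chart ↥O ({(lg_lamE N')⁻¹} : Set ↥(lg_E L N')) →+*
      fc_chart ↥O ({(lg_lamE (N' * q))⁻¹} : Set ↥(lg_E L (N' * q))))
    (hφA : ∀ b : fc_chart ↥O ({(lg_lamE N')⁻¹} : Set ↥(lg_E L N')),
      ((φA b : fc_chart ↥O ({(lg_lamE (N' * q))⁻¹} : Set ↥(lg_E L (N' * q)))) :
        ↥(lg_E L (N' * q))) =
        IntermediateField.inclusion (ssm_al_E_le L N' q) (b : ↥(lg_E L N')))
    (hφB : ∀ b : fc_chart ↥O ({(lg_lamE N')⁻¹} : Set ↥(lg_E L N')),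
      ((φB b : fc_chart ↥O ({(lg_lamE (N' * q))⁻¹} : Set ↥(lg_E L (N' * q)))) :
        ↥(lg_E L (N' * q))) =
        ssm_gl_W L N' q hq2 hqN'
          (IntermediateField.inclusion (ssm_al_E_le L N' q) (b : ↥(lg_E L N'))))
    (𝔫 : Ideal (fc_chart ↥O ({(lg_lamE (N' * q))⁻¹} : Set ↥(lg_E L (N' * q)))))
    [h𝔫 : 𝔫.IsMaximal]
    (hπ𝔫 : algebraMap ↥O (fc_chart ↥O ({(lg_lamE (N' * q))⁻¹} : Set ↥(lg_E L (N' * q)))) π ∈ 𝔫)
    (h2 : ¬ ssm_tp_P (fc_chart ↥O ({(lg_lamE (N' * q))⁻¹} : Set ↥(lg_E L (N' * q))))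
        (ssm_gl_V2 O hπ N' q hq2 hqN') ≤ 𝔫)
    (y0 : fc_chart ↥O ({(lg_lamE N')⁻¹} : Set ↥(lg_E L N')))
    (hy0 : (y0 : ↥(lg_E L N')) = (lg_lamE N')⁻¹) (h𝔫y : φA y0 ∈ 𝔫)
    {t1 : fc_chart ↥O ({(lg_lamE N')⁻¹} : Set ↥(lg_E L N'))}
    (hgen : tq_GenBy (algebraMap ↥O (fc_chart ↥O ({(lg_lamE N')⁻¹} : Set ↥(lg_E L N'))) π) t1
      (𝔫.comap φB))
    {u : fc_chart ↥O ({(lg_lamE (N' * q))⁻¹} : Set ↥(lg_E L (N' * q)))}
    (hu : tq_GenBy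
      (algebraMap ↥O (fc_chart ↥O ({(lg_lamE (N' * q))⁻¹} : Set ↥(lg_E L (N' * q)))) π) u 𝔫) :
    ∃ s a r : fc_chart ↥O ({(lg_lamE (N' * q))⁻¹} : Set ↥(lg_E L (N' * q))), s ∉ 𝔫 ∧ a ∉ 𝔫 ∧
      s * u ^ q = a * φB t1 +
        algebraMap ↥O (fc_chart ↥O ({(lg_lamE (N' * q))⁻¹} : Set ↥(lg_E L (N' * q)))) π * r := by
  have hqO := ssm_fln_q_mem L O q
  have hq2' : q ≠ 2 := ssm_fl_ne_two q hq2
  have hp := ssm_ll_prime L N' hπ q hqO hq2' hqN' ζ hζ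
  have H := ssm_gl_hyp O hπ N' q hq2 hqN' hp.1
  have hWO := ssm_si_W_algebraMap O N' q hq2 hqN'
  have F := ssm_fl_facts O hπ N' q hq2 hqN' hp.1
  have hn0 : (1 : ℤ) ≠ 0 := one_ne_zero
  have hyn := ssm_ga_lam_coeff_one O (ssm_gl_two_ne_zero O q hq2)
  have hxE : Transcendental L (lg_lamE (N' * q) : ↥(lg_E L (N' * q))) :=
    ssm_go_transcendental O (lg_E L (N' * q)) (hm_lam O) (lg_lamE (N' * q))
      (hm_coeffMap_lam _).symm hn0 hyn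
  have hxEi : Transcendental L (lg_lamE (N' * q) : ↥(lg_E L (N' * q)))⁻¹ :=
    fun h => hxE (IsAlgebraic.inv_iff.mp h)
  haveI := ssm_go_isScalarTower O (lg_E L (N' * q))
  haveI := ssm_go_isScalarTower O (lg_E L N')
  haveI : FiniteDimensional L⟮(lg_lamE (N' * q) : ↥(lg_E L (N' * q)))⟯ ↥(lg_E L (N' * q)) :=
    lgf_finite L (N' * q)
  have H' := ssm_tp_ff_hyp_inv (L := L) hπ hxE H
  have hC := ssm_tp_ff_chart (L := L) hπ hxEi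
  have hyEA : Transcendental ↥O (lg_lamE (N' * q) : ↥(lg_E L (N' * q)))⁻¹ :=
    fc_ff_transcendental (L := L) hxEi
  haveI : IsIntegrallyClosed
      (Algebra.adjoin ↥O ({(lg_lamE (N' * q))⁻¹} : Set ↥(lg_E L (N' * q)))) :=
    fc_ff_isIntegrallyClosed hyEA
  haveI : FaithfulSMul (Algebra.adjoin ↥O ({(lg_lamE (N' * q))⁻¹} : Set ↥(lg_E L (N' * q))))
      ↥(lg_E L (N' * q)) :=
    (faithfulSMul_iff_algebraMap_injective _ _).2 Subtype.val_injective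
  have le1 : ∀ b ∈ fc_chart ↥O ({(lg_lamE (N' * q))⁻¹} : Set ↥(lg_E L (N' * q))),
      b ∈ ssm_gl_V1 O hπ N' q := fun b hb => hC.le H'.over1 hb
  have le2 : ∀ b ∈ fc_chart ↥O ({(lg_lamE (N' * q))⁻¹} : Set ↥(lg_E L (N' * q))),
      b ∈ ssm_gl_V2 O hπ N' q hq2 hqN' := fun b hb => hC.le H'.over2 hb
  have ha : ((φA y0 : fc_chart ↥O ({(lg_lamE (N' * q))⁻¹} : Set ↥(lg_E L (N' * q)))) :
      ↥(lg_E L (N' * q))) = (lg_lamE (N' * q))⁻¹ := by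
    rw [hφA, hy0, map_inv₀]
    rfl
  have ha1 : ((φB y0 : fc_chart ↥O ({(lg_lamE (N' * q))⁻¹} : Set ↥(lg_E L (N' * q)))) :
      ↥(lg_E L (N' * q))) = (ssm_gl_W L N' q hq2 hqN' (lg_lamE (N' * q)))⁻¹ := by
    rw [hφB, hy0, map_inv₀, map_inv₀]
    rfl
  have hlam0 : (lg_lamE (N' * q) : ↥(lg_E L (N' * q))) ≠ 0 := fun h =>
    hxE (h ▸ isAlgebraic_zero)
  have hW0 : ssm_gl_W L N' q hq2 hqN' (lg_lamE (N' * q)) ≠ 0 :=
    (EmbeddingLike.map_ne_zero_iff (f := ssm_gl_W L N' q hq2 hqN')).2 hlam0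
  have hP1 : ssm_tp_P (fc_chart ↥O ({(lg_lamE (N' * q))⁻¹} : Set ↥(lg_E L (N' * q))))
      (ssm_gl_V1 O hπ N' q) ≤ 𝔫 := by
    haveI := h𝔫.isPrime
    exact ssm_cp_le_of_not_le (RingHom.id _)
      (algebraMap ↥O (fc_chart ↥O ({(lg_lamE (N' * q))⁻¹} : Set ↥(lg_E L (N' * q)))) π) _ _
      (H'.P_inf hC _ rfl) 𝔫 hπ𝔫 h2
  obtain ⟨w, w', hw1, hw'1, hw, hw', ha0, ha10⟩ :=
    s36ct_cusp_data le1 le2 (inv_ne_zero hlam0) (inv_ne_zero hW0) F.winf F.winf' F.winf_sub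
      F.winf'_sub _ _ ha ha1
  haveI := h𝔫.isPrime
  have ha1𝔫 : φB y0 ∈ 𝔫 := s36ct_mem_of_frob _ 𝔫 hP1 hq.out.pos hw1 hw h𝔫y
  exact s36ct_leg_hrel_core_inv L O hπ N' q hq2 hqN' ζ hζ φA φB hφA hφB 𝔫 hπ𝔫 h2 hw1 hw'1 hw hw'
    ha0 ha10 y0 rfl ha1𝔫 hgen hu

end NF

end Fermat.Agent.S36
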