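/-
Project S36, leaf [CUSP-T2] (helper23; prefix `s36ct_`), part 1: ABSTRACT LOCAL ALGEBRA.

`A` a noetherian local domain with `𝔪 = (π, u)`, `π` prime, `π ∤ u` (a two-dimensional regular local
ring).  Then
* `s36ct_prime_of_regular` : `u` is a prime element;
* `s36ct_t2_local` : if `u ^ q = a t₁ + π r` with `a` a unit, and every prime factor of `t₁` which
  does not divide `π` divides `u`, then `t₁ = w u ^ q` with `w` a unit.

In the application `A` is the local ring of the level-`N' q` chart at a cusp point of the component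
`VF`, `u` the image of the transversal cusp parameter of level `N'` (`[CUSP-TRANS]` through `α`),
`t₁` the image of the one through `β`; the relation is the purely inseparable relation on the
special fibre and the hypothesis on the prime factors is the zero pairing of the cusp functions.
-/
import Mathlib
import Fermat.Agent.JT3.FCore.LocalUFD

set_option autoImplicit false
set_option linter.unusedSectionVars false
set_option linter.unusedVariables false
set_option linter.style.haveILetI false

namespace Fermat.Agent.S36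

open Fermat.Agent.JT3 IsLocalRing

section T2Abs

variable {A : Type*} [CommRing A] [IsDomain A] [IsNoetherianRing A] [IsLocalRing A]

/-- in a local ring, (unit) - (non-unit) is a unit. -/
theorem s36ct_isUnit_sub_of_mem {v x : A} (hv : IsUnit v) (hx : x ∈ maximalIdeal A) :
    IsUnit (x - v) := by
  by_contra h
  have h1 : x - v ∈ maximalIdeal A := (mem_maximalIdeal _).2 h
  have h2 : v ∈ maximalIdeal A := by
    have : v = x - (x - v) := by ring
    rw [this]
    exact Ideal.sub_mem _ hx h1
  exact (mem_maximalIdeal _).1 h2 hv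

/-- **a regular parameter is a prime element**: `𝔪 = (π, u)`, `π` prime, `π ∤ u` ⟹ `u` prime. -/
theorem s36ct_prime_of_regular {π u : A} (hπ : Prime π)
    (hmax : maximalIdeal A = Ideal.span {π, u}) (hπu : ¬ π ∣ u) : Prime u := by
  haveI := fc_ufd hπ hmax
  have hu0 : u ≠ 0 := fun h => hπu (h ▸ dvd_zero π)
  have hum : u ∈ maximalIdeal A := by rw [hmax]; exact Ideal.subset_span (by simp)
  have hunu : ¬ IsUnit u := (mem_maximalIdeal u).1 hum
  obtain ⟨p, hp, r, hpr⟩ := WfDvdMonoid.exists_irreducible_factor hunu hu0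
  have hpp : Prime p := UniqueFactorizationMonoid.irreducible_iff_prime.1 hp
  by_cases hr : IsUnit r
  · have hassoc : Associated p u := by
      rw [hpr]
      exact associated_mul_unit_right p r hr
    exact hassoc.prime hpp
  · exfalso
    have hpm : p ∈ maximalIdeal A := (mem_maximalIdeal p).2 hp.not_isUnit
    have hrm : r ∈ maximalIdeal A := (mem_maximalIdeal r).2 hr
    have humm : u ∈ maximalIdeal A • maximalIdeal A := by
      rw [hpr, smul_eq_mul]
      exact Ideal.mul_mem_mul hpm hrm
    have hle : maximalIdeal A ≤ Ideal.span {π} ⊔ maximalIdeal A • maximalIdeal A := by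
      intro x hx
      rw [hmax] at hx
      obtain ⟨c, d, rfl⟩ := Ideal.mem_span_pair.1 hx
      refine Submodule.add_mem_sup (Ideal.mul_mem_left _ _ (Ideal.mem_span_singleton_self π)) ?_
      exact Ideal.mul_mem_left _ _ humm
    have hjac : maximalIdeal A ≤ (⊥ : Ideal A).jacobson := by
      rw [IsLocalRing.jacobson_eq_maximalIdeal ⊥ bot_ne_top]
    have h1 : maximalIdeal A ≤ Ideal.span {π} :=
      Submodule.le_of_le_smul_of_le_jacobson_bot (IsNoetherian.noetherian _) hjac hle
    exact hπu (Ideal.mem_span_singleton.1 (h1 hum))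

/-- **(T2), local form.** -/
theorem s36ct_t2_local {π u t1 a r : A} {q : ℕ} (hπ : Prime π)
    (hmax : maximalIdeal A = Ideal.span {π, u}) (hπu : ¬ π ∣ u)
    (ha : IsUnit a) (hrel : u ^ q = a * t1 + π * r)
    (hzero : ∀ p : A, Prime p → p ∣ t1 → ¬ p ∣ π → p ∣ u) :
    ∃ w : A, IsUnit w ∧ t1 = w * u ^ q := by
  haveI := fc_ufd hπ hmax
  have hu : Prime u := s36ct_prime_of_regular hπ hmax hπu
  have hum : u ∈ maximalIdeal A := by rw [hmax]; exact Ideal.subset_span (by simp)
  have hπt1 : ¬ π ∣ t1 := by
    intro h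
    have : π ∣ u ^ q := by
      rw [hrel]; exact dvd_add (Dvd.dvd.mul_left h a) (dvd_mul_right π r)
    exact hπu (hπ.dvd_of_dvd_pow this)
  have ht10 : t1 ≠ 0 := fun h => hπt1 (h ▸ dvd_zero π)
  obtain ⟨k, m, hum', rfl⟩ := WfDvdMonoid.max_power_factor ht10 hu.irreducible
  -- `m` is a unit
  have hm : IsUnit m := by
    by_contra hm
    have hm0 : m ≠ 0 := right_ne_zero_of_mul ht10
    obtain ⟨p, hp, hpm⟩ := WfDvdMonoid.exists_irreducible_factor hm hm0
    have hpp : Prime p := UniqueFactorizationMonoid.irreducible_iff_prime.1 hp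
    have hpt1 : p ∣ u ^ k * m := Dvd.dvd.mul_left hpm _
    by_cases hpπ : p ∣ π
    · have hassoc : Associated p π := hp.associated_of_dvd hπ.irreducible hpπ
      exact hπt1 (hassoc.symm.dvd.trans hpt1)
    · have hpu : p ∣ u := hzero p hpp hpt1 hpπ
      have hassoc : Associated p u := hp.associated_of_dvd hu.irreducible hpu
      exact hum' (hassoc.symm.dvd.trans hpm)
  have ham : IsUnit (a * m) := ha.mul hm
  have hπnu : ∀ x : A, IsUnit x → ¬ π ∣ x := fun x hx h => hπ.not_isUnit (isUnit_of_dvd_unit h hx)
  have hpowm : ∀ j : ℕ, 0 < j → u ^ j ∈ maximalIdeal A := fun j hj =>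
    Ideal.pow_mem_of_mem _ hum j hj
  -- `k = q`
  have hkq : k = q := by
    rcases lt_trichotomy k q with hlt | heq | hgt
    · exfalso
      obtain ⟨j, hj, rfl⟩ : ∃ j, 0 < j ∧ q = k + j := ⟨q - k, by omega, by omega⟩
      have h1 : u ^ k * (u ^ j - a * m) = π * r := by
        have := hrel
        rw [pow_add] at this
        linear_combination this
      have h2 : π ∣ u ^ k * (u ^ j - a * m) := ⟨r, h1⟩
      rcases hπ.dvd_or_dvd h2 with h | h
      · exact hπu (hπ.dvd_of_dvd_pow h)
      · exact hπnu _ (s36ct_isUnit_sub_of_mem ham (hpowm j hj)) h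
    · exact heq
    · exfalso
      obtain ⟨j, hj, rfl⟩ : ∃ j, 0 < j ∧ k = q + j := ⟨k - q, by omega, by omega⟩
      have h1 : u ^ q * (a * m * u ^ j - 1) = π * (-r) := by
        have := hrel
        rw [pow_add] at this
        linear_combination (-1 : A) * this
      have h2 : π ∣ u ^ q * (a * m * u ^ j - 1) := ⟨-r, h1⟩
      rcases hπ.dvd_or_dvd h2 with h | h
      · exact hπu (hπ.dvd_of_dvd_pow h)
      · exact hπnu _ (s36ct_isUnit_sub_of_mem isUnit_one
          (Ideal.mul_mem_left _ _ (hpowm j hj))) h
  exact ⟨m, hm, by rw [hkq]; ring⟩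

end T2Abs

end Fermat.Agent.S36
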