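/-
Project S36, leaf [CUSP-T2] (helper23; prefix `s36ct_`), part 2: (T2) AT CHART LEVEL, in the
elementwise `tq_` vocabulary.

`B` a noetherian domain, `n` a prime, `π, u, t₁ ∈ B` with `n = (π, u)` locally, `B_n ⧸ π` a domain,
`π ∤ u` locally; a relation `s u^q = a t₁ + π r` (`s, a ∉ n`); every horizontal height-one prime
`𝔮 ≤ n` containing `t₁` contains `u`.  Then `u` is locally prime (`tq_Dom u n`) and
`s' t₁ = w u^q` with `s', w ∉ n`.
-/
import Mathlib
import Fermat.Agent.JT3.Model.BaseDict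
import Fermat.Agent.S36.CuspTrans.Loc
import Fermat.Agent.S36.CuspTrans.T2Abs

set_option autoImplicit false
set_option linter.unusedSectionVars false
set_option linter.unusedVariables false
set_option linter.style.haveILetI false

namespace Fermat.Agent.S36

open Fermat.Agent.JT3 IsLocalRing

section T2Chart

variable {B : Type*} [CommRing B] [IsDomain B] [IsNoetherianRing B] (n : Ideal B) [hn : n.IsPrime]

/-- the regular parameter `u` is locally prime. -/
theorem s36ct_dom_of_regular {π u : B} (hπ0 : π ≠ 0) (hgen : tq_GenBy π u n) (hdom : tq_Dom π n)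
    (hπu : ∀ s : B, s ∉ n → ¬ π ∣ s * u) : tq_Dom u n := by
  haveI : IsNoetherianRing (Localization.AtPrime n) :=
    IsLocalization.isNoetherianRing n.primeCompl _ inferInstance
  have hmax := s36ct_max_of_genBy n hgen
  have hπprime := s36ct_prime_of_dom n hπ0 hgen.1 hdom
  have hπu' : ¬ algebraMap B (Localization.AtPrime n) π ∣ algebraMap B (Localization.AtPrime n) u :=
    fun h => by
      obtain ⟨s, hs, hd⟩ := (s36ct_dvd_loc_iff n π u).1 h
      exact hπu s hs hd
  exact s36ct_dom_of_prime n (s36ct_prime_of_regular hπprime hmax hπu')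

set_option maxHeartbeats 800000 in
/-- **(T2), chart form.** -/
theorem s36ct_t2_chart {π u t1 : B} {q : ℕ} (hπ0 : π ≠ 0) (hgen : tq_GenBy π u n)
    (hdom : tq_Dom π n) (hπu : ∀ s : B, s ∉ n → ¬ π ∣ s * u)
    (hrel : ∃ s a r : B, s ∉ n ∧ a ∉ n ∧ s * u ^ q = a * t1 + π * r)
    (hzero : ∀ 𝔮 : Ideal B, 𝔮.IsPrime → 𝔮 ≤ n → 𝔮.height = 1 → π ∉ 𝔮 → t1 ∈ 𝔮 → u ∈ 𝔮) :
    ∃ s w : B, s ∉ n ∧ w ∉ n ∧ s * t1 = w * u ^ q := by
  haveI : IsNoetherianRing (Localization.AtPrime n) :=
    IsLocalization.isNoetherianRing n.primeCompl _ inferInstance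
  set A := Localization.AtPrime n with hA
  have hinj := s36ct_algebraMap_injective n
  have hmax := s36ct_max_of_genBy n hgen
  have hπprime := s36ct_prime_of_dom n hπ0 hgen.1 hdom
  have hπu' : ¬ algebraMap B A π ∣ algebraMap B A u := fun h => by
    obtain ⟨s, hs, hd⟩ := (s36ct_dvd_loc_iff n π u).1 h
    exact hπu s hs hd
  obtain ⟨s, a, r, hs, ha, hsar⟩ := hrel
  obtain ⟨us, hus⟩ := s36ct_isUnit_of_notMem n hs
  obtain ⟨ua, hua⟩ := s36ct_isUnit_of_notMem n ha
  -- the relation in `A`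
  have hrel' : algebraMap B A u ^ q =
      ((us⁻¹ * ua : Aˣ) : A) * algebraMap B A t1 +
        algebraMap B A π * (((us⁻¹ : Aˣ) : A) * algebraMap B A r) := by
    have h1 := congrArg (algebraMap B A) hsar
    rw [map_mul, map_pow, map_add, map_mul, map_mul, ← hus, ← hua] at h1
    have h2 : algebraMap B A u ^ q = ((us⁻¹ : Aˣ) : A) * ((us : A) * algebraMap B A u ^ q) := by
      rw [← mul_assoc, Units.inv_mul, one_mul]
    rw [h2, h1, Units.val_mul]
    ring
  -- the zero pairing in `A`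
  have hzero' : ∀ p : A, Prime p → p ∣ algebraMap B A t1 → ¬ p ∣ algebraMap B A π →
      p ∣ algebraMap B A u := by
    intro p hp hpt1 hpπ
    set 𝔮 : Ideal B := (Ideal.span {p}).comap (algebraMap B A) with h𝔮
    haveI hPprime : (Ideal.span {p} : Ideal A).IsPrime :=
      (Ideal.span_singleton_prime hp.ne_zero).2 hp
    have h𝔮prime : 𝔮.IsPrime := Ideal.comap_isPrime _ _
    have hmem : ∀ x : B, x ∈ 𝔮 ↔ p ∣ algebraMap B A x := fun x => by
      rw [h𝔮, Ideal.mem_comap, Ideal.mem_span_singleton]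
    have h𝔮n : 𝔮 ≤ n := by
      intro x hx
      rw [← s36ct_mem_maximalIdeal_iff n x]
      have h1 : (Ideal.span {p} : Ideal A) ≤ maximalIdeal A :=
        IsLocalRing.le_maximalIdeal hPprime.ne_top
      exact h1 hx
    have hht : 𝔮.height = 1 := by
      have h1 : (Ideal.span {p} : Ideal A).height = 1 := el_bd_height_span hp
      have h2 := IsLocalization.height_under n.primeCompl (Ideal.span {p} : Ideal A)
      rw [← h1, ← h2]
    have h := hzero 𝔮 h𝔮prime h𝔮n hht (fun h => hpπ ((hmem π).1 h)) ((hmem t1).2 hpt1)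
    exact (hmem u).1 h
  obtain ⟨w, hw, hwt⟩ := s36ct_t2_local hπprime hmax hπu' (us⁻¹ * ua).isUnit hrel' hzero'
  -- clear denominators
  obtain ⟨w1, w2, rfl⟩ := IsLocalization.exists_mk'_eq n.primeCompl w
  have hw1 : (w1 : B) ∉ n := by
    intro h
    have h1 : algebraMap B A w1 ∈ maximalIdeal A := (s36ct_mem_maximalIdeal_iff n w1).2 h
    have h2 : algebraMap B A w1 = IsLocalization.mk' A w1 w2 * algebraMap B A (w2 : B) :=
      (IsLocalization.mk'_spec A w1 w2).symm
    have h3 : IsUnit (algebraMap B A w1) := by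
      rw [h2]
      exact hw.mul (s36ct_isUnit_of_notMem n w2.2)
    exact (mem_maximalIdeal _).1 h1 h3
  refine ⟨(w2 : B), w1, w2.2, hw1, ?_⟩
  apply hinj
  rw [map_mul, map_mul, map_pow, hwt, ← mul_assoc, mul_comm (algebraMap B A (w2 : B)),
    IsLocalization.mk'_spec]

end T2Chart

end Fermat.Agent.S36
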