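/-
Project S36, leaf [CUSP-T2] (helper23; prefix `s36ct_`), part 3: (R1) + (R2) IN THE ABSTRACT COVER
CONTEXT of `SS/Model/Components.lean`.

`φ, φ' : B' →+* B` the two chart maps (`α` and `β = W ∘ α`) from the good-reduction chart `B'` to
the chart `B` of the next level; `P1, P2` the two vertical primes of `B` (`(π) = P1 ∩ P2`,
`B = φ B' + P1`); `𝔫` a prime of `B` on `P1` only.

* `s36ct_r1_cover` : (R1) a transversal cusp parameter `t0` of `B'` at `𝔫 ∩_α B'` (`[CUSP-TRANS]`)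
  gives the regular parameter `u = φ t0` of `B` at `𝔫`, with the cusp function `φ y' = unit * u^e`
  and `π ∤ u` locally;
* `s36ct_r2_cover` : (R2) with moreover a transversal cusp parameter `t1` at `𝔫 ∩_β B'`, the zero
  pairing of the two cusp functions at the horizontal primes through `𝔫`, and the purely inseparable
  relation `s u^q = a φ' t1 + π r`: `s' φ' t1 = w u^q`.
-/
import Mathlib
import Fermat.Agent.SS.Model.Components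
import Fermat.Agent.S36.CuspTrans.Global
import Fermat.Agent.S36.CuspTrans.T2Chart

set_option autoImplicit false
set_option linter.unusedSectionVars false
set_option linter.unusedVariables false
set_option linter.style.haveILetI false

namespace Fermat.Agent.S36

open Fermat.Agent.JT3 Fermat.Agent.SS

section Cover

variable {B' B : Type*} [CommRing B'] [CommRing B]

/-- a transversal parameter of a function not divisible by `π` is not divisible by `π`. -/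
theorem s36ct_not_dvd_param {π y t : B'} (hπ : Prime π) {n : Ideal B'} (hπn : π ∈ n)
    (hy : ¬ π ∣ y) {e : ℕ} (he : 0 < e) {s v : B'} (hs : s ∉ n) (hrel : s * y = v * t ^ e) :
    ¬ π ∣ t := by
  intro h
  have h1 : π ∣ s * y := by
    rw [hrel]
    exact Dvd.dvd.mul_left (dvd_pow h he.ne') v
  rcases hπ.dvd_or_dvd h1 with h2 | h2
  · obtain ⟨c, rfl⟩ := h2
    exact hs (Ideal.mul_mem_right _ _ hπn)
  · exact hy h2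

variable (φ : B' →+* B) (π' : B') (P1 P2 : Ideal B) [hP1 : P1.IsPrime]
  (hP : Ideal.span {φ π'} = P1 ⊓ P2)
  (hadd : ∀ b : B, ∃ b' : B', b - φ b' ∈ P1)
  (hcomap1 : P1.comap φ = Ideal.span {π'}) (hπ' : Prime π')

include hP hadd hcomap1 hπ' in
/-- **(R1), cover form.** -/
theorem s36ct_r1_cover (𝔫 : Ideal B) [h𝔫 : 𝔫.IsPrime] (hπ𝔫 : φ π' ∈ 𝔫) (h2 : ¬ P2 ≤ 𝔫)
    (y' : B') (hy' : ¬ π' ∣ y') (hT : s36ct_TransAt π' y' (𝔫.comap φ)) :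
    ∃ t0 : B', tq_GenBy π' t0 (𝔫.comap φ) ∧ tq_Dom t0 (𝔫.comap φ) ∧
      (∃ (e : ℕ) (s w : B'), 0 < e ∧ s ∉ 𝔫.comap φ ∧ w ∉ 𝔫.comap φ ∧ s * y' = w * t0 ^ e) ∧
      tq_GenBy (φ π') (φ t0) 𝔫 ∧ tq_Dom (φ π') 𝔫 ∧
      (∀ s : B, s ∉ 𝔫 → ¬ φ π' ∣ s * φ t0) ∧
      ∃ (e : ℕ) (s w : B), 0 < e ∧ s ∉ 𝔫 ∧ w ∉ 𝔫 ∧ s * φ y' = w * φ t0 ^ e := by
  obtain ⟨t0, hgen0, hdom0, e, s, v, he, hs, hv, hrel⟩ := hT
  have hsm := ssm_cp_smooth φ π' P1 P2 hP hadd 𝔫 hπ𝔫 h2 t0 hgen0 (φ t0) (by simp)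
  have hP1n : P1 ≤ 𝔫 := ssm_cp_le_of_not_le φ π' P1 P2 hP 𝔫 hπ𝔫 h2
  have hπt0 : ¬ π' ∣ t0 := s36ct_not_dvd_param hπ' hgen0.1 hy' he hs hrel
  refine ⟨t0, hgen0, hdom0, ⟨e, s, v, he, hs, hv, hrel⟩, hsm.1, hsm.2, ?_,
    ⟨e, φ s, φ v, he, fun h => hs h, fun h => hv h, ?_⟩⟩
  · intro s' hs' hdvd
    have h1 : s' * φ t0 ∈ P1 := by
      obtain ⟨c, hc⟩ := hdvd
      rw [hc]
      exact Ideal.mul_mem_right _ _ (ssm_cp_pi_mem_left φ π' P1 P2 hP)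
    rcases hP1.mem_or_mem h1 with h | h
    · exact hs' (hP1n h)
    · have h3 : t0 ∈ P1.comap φ := h
      rw [hcomap1, Ideal.mem_span_singleton] at h3
      exact hπt0 h3
  · rw [← map_mul, hrel, map_mul, map_pow]

include hP hadd hcomap1 hπ' in
/-- **(R2), cover form**: (T2) for the two chart maps `φ` (`α`) and `φ'` (`β`). -/
theorem s36ct_r2_cover [IsDomain B] [IsNoetherianRing B] (φ' : B' →+* B) (hφπ : φ' π' = φ π')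
    (hφπ0 : φ π' ≠ 0)
    (𝔫 : Ideal B) [h𝔫 : 𝔫.IsPrime] (hπ𝔫 : φ π' ∈ 𝔫) (h2 : ¬ P2 ≤ 𝔫)
    (y' : B') (hy' : ¬ π' ∣ y') (hT : s36ct_TransAt π' y' (𝔫.comap φ))
    (y'' : B') (hT' : s36ct_TransAt π' y'' (𝔫.comap φ'))
    (hpair : ∀ 𝔮 : Ideal B, 𝔮.IsPrime → 𝔮 ≤ 𝔫 → 𝔮.height = 1 → φ π' ∉ 𝔮 → φ' y'' ∈ 𝔮 →
      φ y' ∈ 𝔮)
    (q : ℕ)
    (hrel : ∀ t0 t1 : B', tq_GenBy (φ π') (φ t0) 𝔫 → tq_GenBy π' t1 (𝔫.comap φ') →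
      ∃ s a r : B, s ∉ 𝔫 ∧ a ∉ 𝔫 ∧ s * φ t0 ^ q = a * φ' t1 + φ π' * r) :
    ∃ t0 t1 : B', tq_GenBy π' t0 (𝔫.comap φ) ∧ tq_Dom t0 (𝔫.comap φ) ∧
      (∃ (e : ℕ) (s w : B'), 0 < e ∧ s ∉ 𝔫.comap φ ∧ w ∉ 𝔫.comap φ ∧ s * y' = w * t0 ^ e) ∧
      tq_GenBy (φ π') (φ t0) 𝔫 ∧ tq_Dom (φ π') 𝔫 ∧ tq_Dom (φ t0) 𝔫 ∧
      (∃ (e : ℕ) (s w : B), 0 < e ∧ s ∉ 𝔫 ∧ w ∉ 𝔫 ∧ s * φ y' = w * φ t0 ^ e) ∧
      tq_GenBy π' t1 (𝔫.comap φ') ∧ tq_Dom t1 (𝔫.comap φ') ∧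
      (∃ (e : ℕ) (s w : B'), 0 < e ∧ s ∉ 𝔫.comap φ' ∧ w ∉ 𝔫.comap φ' ∧ s * y'' = w * t1 ^ e) ∧
      ∃ s w : B, s ∉ 𝔫 ∧ w ∉ 𝔫 ∧ s * φ' t1 = w * φ t0 ^ q := by
  obtain ⟨t0, hgen0, hdom0, hrel0, hgenu, hdomπ, hπu, e, s, w, he, hs, hw, hsw⟩ :=
    s36ct_r1_cover φ π' P1 P2 hP hadd hcomap1 hπ' 𝔫 hπ𝔫 h2 y' hy' hT
  obtain ⟨t1, hgen1, hdom1, e', s1, v1, he', hs1, hv1, hrel1⟩ := hT'
  have hdomu : tq_Dom (φ t0) 𝔫 := s36ct_dom_of_regular 𝔫 hφπ0 hgenu hdomπ hπu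
  have hzero : ∀ 𝔮 : Ideal B, 𝔮.IsPrime → 𝔮 ≤ 𝔫 → 𝔮.height = 1 → φ π' ∉ 𝔮 → φ' t1 ∈ 𝔮 →
      φ t0 ∈ 𝔮 := by
    intro 𝔮 h𝔮 h𝔮n hht hπ𝔮 ht1𝔮
    -- `φ' y'' ∈ 𝔮`
    have h1 : φ' s1 * φ' y'' ∈ 𝔮 := by
      rw [← map_mul, hrel1, map_mul, map_pow]
      exact Ideal.mul_mem_left _ _ (Ideal.pow_mem_of_mem _ ht1𝔮 e' he')
    have h2 : φ' y'' ∈ 𝔮 := by
      rcases h𝔮.mem_or_mem h1 with h | h
      · exact absurd (h𝔮n h) hs1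
      · exact h
    have h3 : φ y' ∈ 𝔮 := hpair 𝔮 h𝔮 h𝔮n hht hπ𝔮 h2
    have h4 : w * φ t0 ^ e ∈ 𝔮 := by
      rw [← hsw]; exact Ideal.mul_mem_left _ _ h3
    rcases h𝔮.mem_or_mem h4 with h | h
    · exact absurd (h𝔮n h) hw
    · exact h𝔮.mem_of_pow_mem e h
  obtain ⟨s', w', hs', hw', hfin⟩ :=
    s36ct_t2_chart 𝔫 hφπ0 hgenu hdomπ hπu (hrel t0 t1 hgenu hgen1) hzero
  exact ⟨t0, t1, hgen0, hdom0, hrel0, hgenu, hdomπ, hdomu, ⟨e, s, w, he, hs, hw, hsw⟩, hgen1, hdom1,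
    ⟨e', s1, v1, he', hs1, hv1, hrel1⟩, s', w', hs', hw', hfin⟩

end Cover

end Fermat.Agent.S36
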