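/-
Project S36, leaf [CUSP-T2], (R1) INSTANCE (helper6; prefix `s36ctr_`): inheritance of the cusp
transversality (T1) of level `N'` to level `N' q` at the cusp points of the chart lying on the
component `VF` only — the Legendre instance of helper23's `s36ct_r1_cover`
(`S36/CuspTrans/T2Cover.lean`).

* `s36ctr_not_dvd` : `π ∤ (y - c)` in the chart `fc_chart A0 {y}` (from `ssm_tp_Over` for the Gauss
  valuation: `y - c` is monic in `A0[y]`);
* `s36ctr_phi`     : the chart map `fc_chart A0 {y} →+* fc_chart A0 {y'}` induced by `K → E` when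
  `y ↦ y'` (`ssm_cpi_phi` with the target coordinate up to a propositional equality);
* `s36ctr_chart`   : (R1) for a generic tower `E' ≤ E ≤ Quot(O((X)))` (context of
  `SS/Model/SmoothInst.lean`) and a chart coordinate `y ∈ E'`;
* `s36ctr_alpha`, `s36ctr_alpha_inv` : the chart maps `φ_α` of the Legendre tower on the charts `{λ}`,
  `{λ⁻¹}`;
* `s36ctr_leg_r1`, `s36ctr_leg_r1_inv` : (R1) for the Legendre tower, [LEG-CTX], from the level-`N'`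
  package (`hprime`, `hic`) and (T1) at level `N'`;
* `s36ctr_nf_r1`, `s36ctr_nf_r1_inv` : (R1) in [NF2-CTX] (number field `L ∋ ζ_{N'}`, general
  uniformiser `π`), everything discharged (`ssm_ll_prime`, `ssm_ll_ic1/2`, `s36ct_ll_trans1/2`).
-/
import Mathlib
import Fermat.Agent.SS.Model.SmoothInst
import Fermat.Agent.SS.Model.LegLevel
import Fermat.Agent.S36.CuspTrans.T2Cover
import Fermat.Agent.S36.CuspTrans.Leg
import Fermat.Agent.SS.Model.FinalLegNF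
import Fermat.Agent.SS.Model.ThickBase

set_option autoImplicit false
set_option linter.unusedSectionVars false
set_option linter.unusedVariables false
set_option linter.style.haveILetI false

noncomputable section

open ModularCurve IntermediateField IsLocalRing
open Fermat.Agent.JT3 Fermat.Agent.SS

namespace Fermat.Agent.S36

section NotDvd

variable {A0 : Type*} [CommRing A0] [IsDomain A0] {K : Type*} [Field K] [Algebra A0 K]

/-- `π ∤ (y - c)` in the chart `fc_chart A0 {y}`: `y - c` is a monic polynomial in `y`. -/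
theorem s36ctr_not_dvd {y : K} (hy : Transcendental A0 y) {π : A0} (hπ : ¬ IsUnit π) (c : A0)
    (VK : ValuationSubring K)
    (hover : ssm_tp_Over (algebraMap A0 (Algebra.adjoin A0 ({y} : Set K)) π) VK)
    (y' : fc_chart A0 ({y} : Set K)) (hy' : (y' : K) = y - algebraMap A0 K c) :
    ¬ algebraMap A0 (fc_chart A0 ({y} : Set K)) π ∣ y' := by
  rintro ⟨b, hb⟩
  -- `y - c` as an element of `A0[y]`
  let yc : Algebra.adjoin A0 ({y} : Set K) :=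
    ⟨y, Algebra.subset_adjoin (Set.mem_singleton y)⟩ - algebraMap A0 _ c
  have hyc : algebraMap (Algebra.adjoin A0 ({y} : Set K)) K yc = y - algebraMap A0 K c := rfl
  -- it lies in the maximal ideal of `VK`
  have hbV : (b : K) ∈ VK := ssm_tp_mem_of_isIntegral VK hover.le b.2
  have hπV : algebraMap A0 K π ∈ VK.nonunits :=
    (hover.cen (algebraMap A0 (Algebra.adjoin A0 ({y} : Set K)) π)).2 (dvd_refl _)
  have h1 : algebraMap (Algebra.adjoin A0 ({y} : Set K)) K yc ∈ VK.nonunits := by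
    rw [hyc, ← hy', hb]
    exact ssm_tp_nonunits_mul VK hπV hbV
  -- hence `π ∣ y - c` in `A0[y]`
  obtain ⟨d, hd⟩ := (hover.cen yc).1 h1
  obtain ⟨p, hp⟩ : ∃ p : Polynomial A0, Polynomial.aeval y p = (d : K) := by
    have hdm : (d : K) ∈ (Polynomial.aeval (R := A0) y).range := by
      rw [← Algebra.adjoin_singleton_eq_range_aeval]
      exact d.2
    exact hdm
  have h2 : Polynomial.aeval y (Polynomial.X - Polynomial.C c - Polynomial.C π * p) = 0 := by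
    rw [map_sub, map_sub, map_mul, Polynomial.aeval_X, Polynomial.aeval_C, Polynomial.aeval_C, hp]
    have := congrArg (algebraMap (Algebra.adjoin A0 ({y} : Set K)) K) hd
    rw [hyc, map_mul] at this
    rw [this]
    simp
  have h3 : Polynomial.X - Polynomial.C c - Polynomial.C π * p = 0 := by
    by_contra hne
    exact hy ⟨_, hne, h2⟩
  have h4 := congrArg (fun f => Polynomial.coeff f 1) h3
  simp only [Polynomial.coeff_sub, Polynomial.coeff_X_one, Polynomial.coeff_C_mul,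
    Polynomial.coeff_zero] at h4
  rw [Polynomial.coeff_C, if_neg one_ne_zero, sub_zero] at h4
  exact hπ (isUnit_iff_exists_inv.2 ⟨p.coeff 1, by linear_combination -h4⟩)

end NotDvd

section Phi

universe u v

variable (A0 : Type*) [CommRing A0] {K : Type u} (E : Type v) [Field K] [Field E] [Algebra K E]
  [Algebra A0 K] [Algebra A0 E] [IsScalarTower A0 K E]

/-- the chart map `fc_chart A0 {y} →+* fc_chart A0 {y'}` induced by `K → E` when `y ↦ y'`. -/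
def s36ctr_phi (y : K) (y' : E) (h : algebraMap K E y = y') :
    fc_chart A0 ({y} : Set K) →+* fc_chart A0 ({y'} : Set E) where
  toFun b' := ⟨algebraMap K E (b' : K), h ▸ ssm_cpi_isIntegral_map (A0 := A0) (E := E) y b'.2⟩
  map_one' := Subtype.ext (by simp)
  map_mul' a b := Subtype.ext (by simp)
  map_zero' := Subtype.ext (by simp)
  map_add' a b := Subtype.ext (by simp)

variable {A0 E}

theorem s36ctr_phi_coe (y : K) (y' : E) (h : algebraMap K E y = y')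
    (b' : fc_chart A0 ({y} : Set K)) :
    ((s36ctr_phi A0 E y y' h b' : fc_chart A0 ({y'} : Set E)) : E) = algebraMap K E (b' : K) := rfl

theorem s36ctr_phi_algebraMap (y : K) (y' : E) (h : algebraMap K E y = y') (a : A0) :
    s36ctr_phi A0 E y y' h (algebraMap A0 (fc_chart A0 ({y} : Set K)) a) =
      algebraMap A0 (fc_chart A0 ({y'} : Set E)) a := by
  apply Subtype.ext
  rw [s36ctr_phi_coe]
  change algebraMap K E (algebraMap A0 K a) = algebraMap A0 E a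
  rw [← IsScalarTower.algebraMap_apply]

theorem s36ctr_phi_isIntegral (y : K) (y' : E) (h : algebraMap K E y = y') :
    (s36ctr_phi A0 E y y' h).IsIntegral := by
  subst h
  exact ssm_cpi_phi_isIntegral (A0 := A0) (E := E) y

theorem s36ctr_phi_eq (y : K) : s36ctr_phi A0 E y (algebraMap K E y) rfl = ssm_cpi_phi A0 E y := rfl

end Phi

section Generic

variable {L : Type*} [Field L] [CharZero L] (O : ValuationSubring L)
  [IsDiscreteValuationRing O] {π : O} (hπ : Irreducible π)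
variable (q : ℕ) [NeZero q] [hq : Fact q.Prime] [CharP (ResidueField O) q]
variable (E' E : IntermediateField L (LaurentSeries L)) (hle : E' ≤ E)
  (hE : E ≤ gq_quotField O L)

set_option synthInstance.maxHeartbeats 200000 in
set_option maxHeartbeats 800000 in
/-- **(R1) on one chart, generic tower**: `yE` the image in `E` of a chart coordinate `y` of `E'`,
`φ` the chart map, `𝔫` a prime of `fc_chart O {yE}` on the first component only, `y'` a function of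
the chart of `E'` prime to `π` with (T1) at `𝔫 ∩ fc_chart O {y}`. -/
theorem s36ctr_chart (W : ↥E ≃+* ↥E) (hWW : ∀ x, W (W x) = x)
    (hW : ∀ z : ↥E', ((W (IntermediateField.inclusion hle z) : ↥E) : LaurentSeries L) =
      qExpand L q (z : LaurentSeries L))
    (hrank : IntermediateField.relfinrank E' E = q + 1)
    (ys : LaurentSeries O) (hyF : ssm_ga_FrobFixed q ys) (n : ℤ) (hn : ¬ (q : ℤ) ∣ n)
    (hyn : residue O (ys.coeff n) ≠ 0) (lam' : ↥E')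
    (hlam : (lam' : LaurentSeries L) = coeffMap (algebraMap O L) ys)
    (y : ↥E') (yE : ↥E) (hyE : IntermediateField.inclusion hle y = yE)
    (hy : Transcendental L y) [FiniteDimensional L⟮y⟯ ↥E'] (hyEt : Transcendental L yE)
    (hover : ssm_tp_Over (algebraMap ↥O (Algebra.adjoin ↥O ({y} : Set ↥E')) π)
      (gq_valSubOf π hπ.ne_zero hπ.maximalIdeal_eq E' (hle.trans hE)))
    (H : ssm_tp_Hyp (algebraMap ↥O (Algebra.adjoin ↥O ({yE} : Set ↥E)) π)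
      (gq_valSubOf π hπ.ne_zero hπ.maximalIdeal_eq E hE)
      ((gq_valSubOf π hπ.ne_zero hπ.maximalIdeal_eq E hE).comap (W : ↥E →+* ↥E)))
    (hprime : Prime (algebraMap ↥O (fc_chart ↥O ({y} : Set ↥E')) π))
    (hic : IsIntegrallyClosed (fc_chart ↥O ({y} : Set ↥E') ⧸
      (Ideal.span {algebraMap ↥O (fc_chart ↥O ({y} : Set ↥E')) π} :
        Ideal (fc_chart ↥O ({y} : Set ↥E')))))
    (φ : fc_chart ↥O ({y} : Set ↥E') →+* fc_chart ↥O ({yE} : Set ↥E))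
    (hφ : ∀ b' : fc_chart ↥O ({y} : Set ↥E'),
      ((φ b' : fc_chart ↥O ({yE} : Set ↥E)) : ↥E) = IntermediateField.inclusion hle (b' : ↥E'))
    (𝔫 : Ideal (fc_chart ↥O ({yE} : Set ↥E))) [h𝔫 : 𝔫.IsPrime]
    (hπ𝔫 : algebraMap ↥O (fc_chart ↥O ({yE} : Set ↥E)) π ∈ 𝔫)
    (h2 : ¬ ssm_tp_P (fc_chart ↥O ({yE} : Set ↥E))
      ((gq_valSubOf π hπ.ne_zero hπ.maximalIdeal_eq E hE).comap (W : ↥E →+* ↥E)) ≤ 𝔫)
    (y' : fc_chart ↥O ({y} : Set ↥E'))
    (hy' : ¬ algebraMap ↥O (fc_chart ↥O ({y} : Set ↥E')) π ∣ y')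
    (hT : s36ct_TransAt (algebraMap ↥O (fc_chart ↥O ({y} : Set ↥E')) π) y' (𝔫.comap φ)) :
    ∃ t0 : fc_chart ↥O ({y} : Set ↥E'),
      tq_GenBy (algebraMap ↥O (fc_chart ↥O ({y} : Set ↥E')) π) t0 (𝔫.comap φ) ∧
      tq_Dom t0 (𝔫.comap φ) ∧
      (∃ (e : ℕ) (s w : fc_chart ↥O ({y} : Set ↥E')), 0 < e ∧ s ∉ 𝔫.comap φ ∧ w ∉ 𝔫.comap φ ∧
        s * y' = w * t0 ^ e) ∧
      tq_GenBy (algebraMap ↥O (fc_chart ↥O ({yE} : Set ↥E)) π) (φ t0) 𝔫 ∧
      tq_Dom (algebraMap ↥O (fc_chart ↥O ({yE} : Set ↥E)) π) 𝔫 ∧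
      (∀ s : fc_chart ↥O ({yE} : Set ↥E), s ∉ 𝔫 →
        ¬ algebraMap ↥O (fc_chart ↥O ({yE} : Set ↥E)) π ∣ s * φ t0) ∧
      ∃ (e : ℕ) (s w : fc_chart ↥O ({yE} : Set ↥E)), 0 < e ∧ s ∉ 𝔫 ∧ w ∉ 𝔫 ∧
        s * φ y' = w * φ t0 ^ e := by
  subst hyE
  letI := ssm_gi_algebra hle
  letI := ssm_gi_algebraV hle (gq_valSubOf π hπ.ne_zero hπ.maximalIdeal_eq E' (hle.trans hE))
  haveI := ssm_gi_isScalarTower hle
    (gq_valSubOf π hπ.ne_zero hπ.maximalIdeal_eq E' (hle.trans hE))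
  have hfr : Module.finrank ↥E' ↥E = q + 1 := (ssm_gt_finrank_eq hle).trans hrank
  haveI : FiniteDimensional ↥E' ↥E := ssm_gi_finiteDimensional hfr
  haveI : Algebra.IsSeparable ↥E' ↥E := ssm_gi_isSeparable
  haveI := ssm_go_isScalarTower O E
  haveI := ssm_go_isScalarTower O E'
  haveI := ssm_gt_isScalarTower O hle
  have D := ssm_gt_data O hπ q E' E hle hE W hWW hW hrank ys hyF n hn hyn lam' hlam
  have hVK : ∀ z : ↥E', z ∈ gq_valSubOf π hπ.ne_zero hπ.maximalIdeal_eq E' (hle.trans hE) ↔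
      z ∈ (algebraMap ↥(gq_valSubOf π hπ.ne_zero hπ.maximalIdeal_eq E' (hle.trans hE)) ↥E').range :=
    fun z => (ssm_gi_mem_range _ z).symm
  have hφeq : φ = ssm_cpi_phi ↥O ↥E y := by
    refine RingHom.ext fun b' => Subtype.ext ?_
    exact hφ b'
  subst hφeq
  have hyEA : Transcendental ↥O (algebraMap ↥E' ↥E y) := fc_ff_transcendental (L := L) hyEt
  haveI : IsIntegrallyClosed (Algebra.adjoin ↥O ({algebraMap ↥E' ↥E y} : Set ↥E)) :=
    fc_ff_isIntegrallyClosed hyEA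
  haveI : FaithfulSMul (Algebra.adjoin ↥O ({algebraMap ↥E' ↥E y} : Set ↥E)) ↥E :=
    (faithfulSMul_iff_algebraMap_injective _ _).2 Subtype.val_injective
  have Lk := ssm_cpi_link_ff (L := L) D hπ hy hyEt hprime
    (gq_valSubOf π hπ.ne_zero hπ.maximalIdeal_eq E' (hle.trans hE)) hVK hover H
  have hint := ssm_cpi_phi_isIntegral (A0 := ↥O) (E := ↥E) y
  have hπ' : (Ideal.span {algebraMap ↥O (fc_chart ↥O ({y} : Set ↥E')) π} :
      Ideal (fc_chart ↥O ({y} : Set ↥E'))).IsPrime :=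
    (Ideal.span_singleton_prime hprime.ne_zero).2 hprime
  have hC := ssm_tp_ff_chart (L := L) hπ hyEt
  have hP : Ideal.span {ssm_cpi_phi ↥O ↥E y (algebraMap ↥O (fc_chart ↥O ({y} : Set ↥E')) π)} =
      ssm_tp_P (fc_chart ↥O ({algebraMap ↥E' ↥E y} : Set ↥E))
        (gq_valSubOf π hπ.ne_zero hπ.maximalIdeal_eq E hE) ⊓
      ssm_tp_P (fc_chart ↥O ({algebraMap ↥E' ↥E y} : Set ↥E))
        ((gq_valSubOf π hπ.ne_zero hπ.maximalIdeal_eq E hE).comap (W : ↥E →+* ↥E)) := by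
    rw [ssm_cpi_phi_algebraMap]
    exact H.P_inf hC _ rfl
  haveI := Lk.P1_isPrime
  have hres := s36ct_r1_cover (ssm_cpi_phi ↥O ↥E y)
    (algebraMap ↥O (fc_chart ↥O ({y} : Set ↥E')) π) _ _ hP (ssm_cpi_add D Lk hint hπ' hic)
    (ssm_cpi_comap1 Lk) hprime 𝔫 (by rw [ssm_cpi_phi_algebraMap]; exact hπ𝔫) h2 y' hy' hT
  rw [ssm_cpi_phi_algebraMap] at hres
  exact hres

end Generic

section Legendre

variable {L : Type*} [Field L] [CharZero L] [Algebra L (AlgebraicClosure ℚ)]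
  (O : ValuationSubring L) [IsDiscreteValuationRing O] {π : O} (hπ : Irreducible π)
variable (N' q : ℕ) [NeZero N'] [NeZero q] [hq : Fact q.Prime] [CharP (ResidueField O) q]
  (hq2 : ¬ 2 ∣ q) (hqN' : ¬ q ∣ N')

/-- **the chart map `φ_α` of the Legendre tower, chart `{λ}`**:
`B_λ(N') →+* B_λ(N' q)` induced by `lg_E L N' ⊆ lg_E L (N' q)`. -/
def s36ctr_alpha :
    fc_chart ↥O ({lg_lamE N'} : Set ↥(lg_E L N')) →+*
      fc_chart ↥O ({lg_lamE (N' * q)} : Set ↥(lg_E L (N' * q))) :=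
  letI := ssm_gi_algebra (ssm_al_E_le L N' q)
  haveI := ssm_gt_isScalarTower O (ssm_al_E_le L N' q)
  ssm_cpi_phi ↥O ↥(lg_E L (N' * q)) (lg_lamE N')

theorem s36ctr_alpha_coe (b : fc_chart ↥O ({lg_lamE N'} : Set ↥(lg_E L N'))) :
    ((s36ctr_alpha O N' q b : fc_chart ↥O ({lg_lamE (N' * q)} : Set ↥(lg_E L (N' * q)))) :
      ↥(lg_E L (N' * q))) =
      IntermediateField.inclusion (ssm_al_E_le L N' q) (b : ↥(lg_E L N')) := rfl

theorem s36ctr_alpha_algebraMap (a : ↥O) :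
    s36ctr_alpha O N' q (algebraMap ↥O (fc_chart ↥O ({lg_lamE N'} : Set ↥(lg_E L N'))) a) =
      algebraMap ↥O (fc_chart ↥O ({lg_lamE (N' * q)} : Set ↥(lg_E L (N' * q)))) a := by
  letI := ssm_gi_algebra (ssm_al_E_le L N' q)
  haveI := ssm_gt_isScalarTower O (ssm_al_E_le L N' q)
  exact ssm_cpi_phi_algebraMap (A0 := ↥O) (E := ↥(lg_E L (N' * q))) (lg_lamE N') a

theorem s36ctr_alpha_isIntegral : (s36ctr_alpha O N' q).IsIntegral := by
  letI := ssm_gi_algebra (ssm_al_E_le L N' q)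
  haveI := ssm_gt_isScalarTower O (ssm_al_E_le L N' q)
  exact ssm_cpi_phi_isIntegral (A0 := ↥O) (E := ↥(lg_E L (N' * q))) (lg_lamE N')

/-- the coordinate `λ⁻¹` of level `N'` maps to the coordinate `λ⁻¹` of level `N' q`. -/
theorem s36ctr_incl_lam_inv :
    IntermediateField.inclusion (ssm_al_E_le L N' q) (lg_lamE N')⁻¹ = (lg_lamE (N' * q))⁻¹ := by
  rw [map_inv₀]
  rfl

/-- **the chart map `φ_α` of the Legendre tower, chart `{λ⁻¹}`**. -/
def s36ctr_alpha_inv :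
    fc_chart ↥O ({(lg_lamE N')⁻¹} : Set ↥(lg_E L N')) →+*
      fc_chart ↥O ({(lg_lamE (N' * q))⁻¹} : Set ↥(lg_E L (N' * q))) :=
  letI := ssm_gi_algebra (ssm_al_E_le L N' q)
  haveI := ssm_gt_isScalarTower O (ssm_al_E_le L N' q)
  s36ctr_phi ↥O ↥(lg_E L (N' * q)) (lg_lamE N')⁻¹ (lg_lamE (N' * q))⁻¹
    (s36ctr_incl_lam_inv N' q)

theorem s36ctr_alpha_inv_coe (b : fc_chart ↥O ({(lg_lamE N')⁻¹} : Set ↥(lg_E L N'))) :
    ((s36ctr_alpha_inv O N' q b :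
      fc_chart ↥O ({(lg_lamE (N' * q))⁻¹} : Set ↥(lg_E L (N' * q)))) : ↥(lg_E L (N' * q))) =
      IntermediateField.inclusion (ssm_al_E_le L N' q) (b : ↥(lg_E L N')) := rfl

theorem s36ctr_alpha_inv_algebraMap (a : ↥O) :
    s36ctr_alpha_inv O N' q
        (algebraMap ↥O (fc_chart ↥O ({(lg_lamE N')⁻¹} : Set ↥(lg_E L N'))) a) =
      algebraMap ↥O (fc_chart ↥O ({(lg_lamE (N' * q))⁻¹} : Set ↥(lg_E L (N' * q)))) a := by
  letI := ssm_gi_algebra (ssm_al_E_le L N' q)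
  haveI := ssm_gt_isScalarTower O (ssm_al_E_le L N' q)
  exact s36ctr_phi_algebraMap (A0 := ↥O) (E := ↥(lg_E L (N' * q))) (lg_lamE N')⁻¹
    (lg_lamE (N' * q))⁻¹ (s36ctr_incl_lam_inv N' q) a

theorem s36ctr_alpha_inv_isIntegral : (s36ctr_alpha_inv O N' q).IsIntegral := by
  letI := ssm_gi_algebra (ssm_al_E_le L N' q)
  haveI := ssm_gt_isScalarTower O (ssm_al_E_le L N' q)
  exact s36ctr_phi_isIntegral (A0 := ↥O) (E := ↥(lg_E L (N' * q)))
    ((lg_lamE N' : ↥(lg_E L N'))⁻¹) ((lg_lamE (N' * q) : ↥(lg_E L (N' * q)))⁻¹)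
    (s36ctr_incl_lam_inv N' q)

include hπ hq2 in
set_option synthInstance.maxHeartbeats 200000 in
set_option maxHeartbeats 800000 in
/-- `π ∤ (λ - c)` in the chart `B_λ(N')`. -/
theorem s36ctr_leg_not_dvd (c : ↥O) (y' : fc_chart ↥O ({lg_lamE N'} : Set ↥(lg_E L N')))
    (hy' : (y' : ↥(lg_E L N')) = lg_lamE N' - algebraMap ↥O ↥(lg_E L N') c) :
    ¬ algebraMap ↥O (fc_chart ↥O ({lg_lamE N'} : Set ↥(lg_E L N'))) π ∣ y' := by
  haveI := ssm_go_isScalarTower O (lg_E L N')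
  have hn0 : (1 : ℤ) ≠ 0 := one_ne_zero
  have hyn := ssm_ga_lam_coeff_one O (ssm_gl_two_ne_zero O q hq2)
  have hlam : ((lg_lamE N' : ↥(lg_E L N')) : LaurentSeries L) =
      coeffMap (algebraMap O L) (hm_lam O) := (hm_coeffMap_lam _).symm
  have hx : Transcendental L (lg_lamE N' : ↥(lg_E L N')) :=
    ssm_go_transcendental O (lg_E L N') (hm_lam O) (lg_lamE N') hlam hn0 hyn
  have hover := ssm_go_over O (lg_E L N') (hm_lam O) (lg_lamE N') hlam hπ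
    (ssm_ga_E_le_quotField O N') hn0 hyn
  exact s36ctr_not_dvd (fc_ff_transcendental (L := L) hx) hπ.not_isUnit c _ hover y' hy'

include hπ hq2 in
set_option synthInstance.maxHeartbeats 200000 in
set_option maxHeartbeats 800000 in
/-- `π ∤ (λ⁻¹ - c)` in the chart `B_{λ⁻¹}(N')`. -/
theorem s36ctr_leg_not_dvd_inv (c : ↥O)
    (y' : fc_chart ↥O ({(lg_lamE N')⁻¹} : Set ↥(lg_E L N')))
    (hy' : (y' : ↥(lg_E L N')) = (lg_lamE N')⁻¹ - algebraMap ↥O ↥(lg_E L N') c) :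
    ¬ algebraMap ↥O (fc_chart ↥O ({(lg_lamE N')⁻¹} : Set ↥(lg_E L N'))) π ∣ y' := by
  haveI := ssm_go_isScalarTower O (lg_E L N')
  have hn0 : (1 : ℤ) ≠ 0 := one_ne_zero
  have hyn := ssm_ga_lam_coeff_one O (ssm_gl_two_ne_zero O q hq2)
  have hlam : ((lg_lamE N' : ↥(lg_E L N')) : LaurentSeries L) =
      coeffMap (algebraMap O L) (hm_lam O) := (hm_coeffMap_lam _).symm
  have hx : Transcendental L (lg_lamE N' : ↥(lg_E L N')) :=
    ssm_go_transcendental O (lg_E L N') (hm_lam O) (lg_lamE N') hlam hn0 hyn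
  have hxi : Transcendental L (lg_lamE N' : ↥(lg_E L N'))⁻¹ :=
    fun h => hx (IsAlgebraic.inv_iff.mp h)
  have hover := ssm_go_over O (lg_E L N') (hm_lam O) (lg_lamE N') hlam hπ
    (ssm_ga_E_le_quotField O N') hn0 hyn
  have hover' := ssm_tp_over_inv (fc_ff_transcendental (L := L) hx)
    (fc_ff_transcendental (L := L) hxi) hπ.not_isUnit hover
  exact s36ctr_not_dvd (fc_ff_transcendental (L := L) hxi) hπ.not_isUnit c _ hover' y' hy'

set_option synthInstance.maxHeartbeats 200000 in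
set_option maxHeartbeats 1600000 in
/-- **(R1), Legendre tower, chart `{λ}`**, [LEG-CTX]: from the level-`N'` package (`hprime1`,
`hic1`) and (T1) at level `N'` at the point `𝔫 ∩_α B_λ(N')`. -/
theorem s36ctr_leg_r1
    (hprime1 : Prime (algebraMap ↥O (fc_chart ↥O ({lg_lamE N'} : Set ↥(lg_E L N'))) π))
    (hic1 : IsIntegrallyClosed (fc_chart ↥O ({lg_lamE N'} : Set ↥(lg_E L N')) ⧸
      (Ideal.span {algebraMap ↥O (fc_chart ↥O ({lg_lamE N'} : Set ↥(lg_E L N'))) π} :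
        Ideal (fc_chart ↥O ({lg_lamE N'} : Set ↥(lg_E L N'))))))
    (c : ↥O)
    (𝔫 : Ideal (fc_chart ↥O ({lg_lamE (N' * q)} : Set ↥(lg_E L (N' * q))))) [h𝔫 : 𝔫.IsPrime]
    (hπ𝔫 : algebraMap ↥O (fc_chart ↥O ({lg_lamE (N' * q)} : Set ↥(lg_E L (N' * q)))) π ∈ 𝔫)
    (h2 : ¬ ssm_tp_P (fc_chart ↥O ({lg_lamE (N' * q)} : Set ↥(lg_E L (N' * q))))
      (ssm_gl_V2 O hπ N' q hq2 hqN') ≤ 𝔫)
    (y' : fc_chart ↥O ({lg_lamE N'} : Set ↥(lg_E L N')))
    (hy' : (y' : ↥(lg_E L N')) = lg_lamE N' - algebraMap ↥O ↥(lg_E L N') c)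
    (hT : s36ct_TransAt (algebraMap ↥O (fc_chart ↥O ({lg_lamE N'} : Set ↥(lg_E L N'))) π) y'
      (𝔫.comap (s36ctr_alpha O N' q))) :
    ∃ t0 : fc_chart ↥O ({lg_lamE N'} : Set ↥(lg_E L N')),
      tq_GenBy (algebraMap ↥O (fc_chart ↥O ({lg_lamE N'} : Set ↥(lg_E L N'))) π) t0
        (𝔫.comap (s36ctr_alpha O N' q)) ∧
      tq_Dom t0 (𝔫.comap (s36ctr_alpha O N' q)) ∧
      (∃ (e : ℕ) (s w : fc_chart ↥O ({lg_lamE N'} : Set ↥(lg_E L N'))), 0 < e ∧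
        s ∉ 𝔫.comap (s36ctr_alpha O N' q) ∧ w ∉ 𝔫.comap (s36ctr_alpha O N' q) ∧
        s * y' = w * t0 ^ e) ∧
      tq_GenBy (algebraMap ↥O (fc_chart ↥O ({lg_lamE (N' * q)} : Set ↥(lg_E L (N' * q)))) π)
        (s36ctr_alpha O N' q t0) 𝔫 ∧
      tq_Dom (algebraMap ↥O (fc_chart ↥O ({lg_lamE (N' * q)} : Set ↥(lg_E L (N' * q)))) π) 𝔫 ∧
      (∀ s : fc_chart ↥O ({lg_lamE (N' * q)} : Set ↥(lg_E L (N' * q))), s ∉ 𝔫 →
        ¬ algebraMap ↥O (fc_chart ↥O ({lg_lamE (N' * q)} : Set ↥(lg_E L (N' * q)))) π ∣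
          s * s36ctr_alpha O N' q t0) ∧
      ∃ (e : ℕ) (s w : fc_chart ↥O ({lg_lamE (N' * q)} : Set ↥(lg_E L (N' * q)))), 0 < e ∧
        s ∉ 𝔫 ∧ w ∉ 𝔫 ∧ s * s36ctr_alpha O N' q y' = w * s36ctr_alpha O N' q t0 ^ e := by
  haveI := lgf_finite L N'
  haveI : FiniteDimensional
      L⟮IntermediateField.inclusion (ssm_al_E_le L N' q) (lg_lamE N')⟯ ↥(lg_E L (N' * q)) :=
    lgf_finite L (N' * q)
  haveI := ssm_go_isScalarTower O (lg_E L N')
  haveI := ssm_go_isScalarTower O (lg_E L (N' * q))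
  have H := ssm_gl_hyp O hπ N' q hq2 hqN' hprime1
  have hn0 : (1 : ℤ) ≠ 0 := one_ne_zero
  have hyn := ssm_ga_lam_coeff_one O (ssm_gl_two_ne_zero O q hq2)
  have hlam : ((lg_lamE N' : ↥(lg_E L N')) : LaurentSeries L) =
      coeffMap (algebraMap O L) (hm_lam O) := (hm_coeffMap_lam _).symm
  have hx : Transcendental L (lg_lamE N' : ↥(lg_E L N')) :=
    ssm_go_transcendental O (lg_E L N') (hm_lam O) (lg_lamE N') hlam hn0 hyn
  have hxE : Transcendental L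
      (IntermediateField.inclusion (ssm_al_E_le L N' q) (lg_lamE N')) :=
    ssm_go_transcendental O (lg_E L (N' * q)) (hm_lam O)
      (IntermediateField.inclusion (ssm_al_E_le L N' q) (lg_lamE N')) hlam hn0 hyn
  have hover := ssm_go_over O (lg_E L N') (hm_lam O) (lg_lamE N') hlam hπ
    (ssm_ga_E_le_quotField O N') hn0 hyn
  exact s36ctr_chart O hπ q (lg_E L N') (lg_E L (N' * q)) (ssm_al_E_le L N' q)
    (ssm_ga_E_le_quotField O (N' * q)) (ssm_gl_W L N' q hq2 hqN')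
    (ssm_al_WE_WE L N' q hq.out hq2 hqN')
    (fun z => ssm_al_coe_WE_of_mem L N' q hq.out hq2 hqN' z.2 _)
    (ssm_al_relfinrank_E L N' q hq.out hq2 hqN') (hm_lam O) (ssm_ga_lam_frobFixed O q) 1
    (ssm_gl_not_dvd_one q) hyn (lg_lamE N') hlam (lg_lamE N')
    (IntermediateField.inclusion (ssm_al_E_le L N' q) (lg_lamE N')) rfl hx hxE hover H hprime1 hic1
    (s36ctr_alpha O N' q) (fun _ => rfl) 𝔫 (h𝔫 := h𝔫) hπ𝔫 h2 y'
    (s36ctr_leg_not_dvd O hπ N' q hq2 c y' hy') hT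

set_option synthInstance.maxHeartbeats 200000 in
set_option maxHeartbeats 1600000 in
/-- **(R1), Legendre tower, chart `{λ⁻¹}`**, [LEG-CTX]. -/
theorem s36ctr_leg_r1_inv
    (hprime1 : Prime (algebraMap ↥O (fc_chart ↥O ({lg_lamE N'} : Set ↥(lg_E L N'))) π))
    (hprime2 : Prime (algebraMap ↥O (fc_chart ↥O ({(lg_lamE N')⁻¹} : Set ↥(lg_E L N'))) π))
    (hic2 : IsIntegrallyClosed (fc_chart ↥O ({(lg_lamE N')⁻¹} : Set ↥(lg_E L N')) ⧸
      (Ideal.span {algebraMap ↥O (fc_chart ↥O ({(lg_lamE N')⁻¹} : Set ↥(lg_E L N'))) π} :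
        Ideal (fc_chart ↥O ({(lg_lamE N')⁻¹} : Set ↥(lg_E L N'))))))
    (c : ↥O)
    (𝔫 : Ideal (fc_chart ↥O ({(lg_lamE (N' * q))⁻¹} : Set ↥(lg_E L (N' * q)))))
    [h𝔫 : 𝔫.IsPrime]
    (hπ𝔫 : algebraMap ↥O (fc_chart ↥O ({(lg_lamE (N' * q))⁻¹} : Set ↥(lg_E L (N' * q)))) π ∈ 𝔫)
    (h2 : ¬ ssm_tp_P (fc_chart ↥O ({(lg_lamE (N' * q))⁻¹} : Set ↥(lg_E L (N' * q))))
      (ssm_gl_V2 O hπ N' q hq2 hqN') ≤ 𝔫)
    (y' : fc_chart ↥O ({(lg_lamE N')⁻¹} : Set ↥(lg_E L N')))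
    (hy' : (y' : ↥(lg_E L N')) = (lg_lamE N')⁻¹ - algebraMap ↥O ↥(lg_E L N') c)
    (hT : s36ct_TransAt (algebraMap ↥O (fc_chart ↥O ({(lg_lamE N')⁻¹} : Set ↥(lg_E L N'))) π) y'
      (𝔫.comap (s36ctr_alpha_inv O N' q))) :
    ∃ t0 : fc_chart ↥O ({(lg_lamE N')⁻¹} : Set ↥(lg_E L N')),
      tq_GenBy (algebraMap ↥O (fc_chart ↥O ({(lg_lamE N')⁻¹} : Set ↥(lg_E L N'))) π) t0
        (𝔫.comap (s36ctr_alpha_inv O N' q)) ∧
      tq_Dom t0 (𝔫.comap (s36ctr_alpha_inv O N' q)) ∧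
      (∃ (e : ℕ) (s w : fc_chart ↥O ({(lg_lamE N')⁻¹} : Set ↥(lg_E L N'))), 0 < e ∧
        s ∉ 𝔫.comap (s36ctr_alpha_inv O N' q) ∧ w ∉ 𝔫.comap (s36ctr_alpha_inv O N' q) ∧
        s * y' = w * t0 ^ e) ∧
      tq_GenBy (algebraMap ↥O (fc_chart ↥O ({(lg_lamE (N' * q))⁻¹} : Set ↥(lg_E L (N' * q)))) π)
        (s36ctr_alpha_inv O N' q t0) 𝔫 ∧
      tq_Dom (algebraMap ↥O (fc_chart ↥O ({(lg_lamE (N' * q))⁻¹} : Set ↥(lg_E L (N' * q)))) π)
        𝔫 ∧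
      (∀ s : fc_chart ↥O ({(lg_lamE (N' * q))⁻¹} : Set ↥(lg_E L (N' * q))), s ∉ 𝔫 →
        ¬ algebraMap ↥O (fc_chart ↥O ({(lg_lamE (N' * q))⁻¹} : Set ↥(lg_E L (N' * q)))) π ∣
          s * s36ctr_alpha_inv O N' q t0) ∧
      ∃ (e : ℕ) (s w : fc_chart ↥O ({(lg_lamE (N' * q))⁻¹} : Set ↥(lg_E L (N' * q)))), 0 < e ∧
        s ∉ 𝔫 ∧ w ∉ 𝔫 ∧
        s * s36ctr_alpha_inv O N' q y' = w * s36ctr_alpha_inv O N' q t0 ^ e := by
  haveI := lgf_finite L N'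
  haveI : FiniteDimensional
      L⟮IntermediateField.inclusion (ssm_al_E_le L N' q) (lg_lamE N')⟯ ↥(lg_E L (N' * q)) :=
    lgf_finite L (N' * q)
  haveI := ssm_go_isScalarTower O (lg_E L N')
  haveI := ssm_go_isScalarTower O (lg_E L (N' * q))
  have H := ssm_gl_hyp O hπ N' q hq2 hqN' hprime1
  have hn0 : (1 : ℤ) ≠ 0 := one_ne_zero
  have hyn := ssm_ga_lam_coeff_one O (ssm_gl_two_ne_zero O q hq2)
  have hlam : ((lg_lamE N' : ↥(lg_E L N')) : LaurentSeries L) =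
      coeffMap (algebraMap O L) (hm_lam O) := (hm_coeffMap_lam _).symm
  have hx : Transcendental L (lg_lamE N' : ↥(lg_E L N')) :=
    ssm_go_transcendental O (lg_E L N') (hm_lam O) (lg_lamE N') hlam hn0 hyn
  have hxE : Transcendental L
      (IntermediateField.inclusion (ssm_al_E_le L N' q) (lg_lamE N')) :=
    ssm_go_transcendental O (lg_E L (N' * q)) (hm_lam O)
      (IntermediateField.inclusion (ssm_al_E_le L N' q) (lg_lamE N')) hlam hn0 hyn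
  have hxi : Transcendental L (lg_lamE N' : ↥(lg_E L N'))⁻¹ :=
    fun h => hx (IsAlgebraic.inv_iff.mp h)
  have hxEi : Transcendental L
      (IntermediateField.inclusion (ssm_al_E_le L N' q) (lg_lamE N'))⁻¹ :=
    fun h => hxE (IsAlgebraic.inv_iff.mp h)
  have hover := ssm_go_over O (lg_E L N') (hm_lam O) (lg_lamE N') hlam hπ
    (ssm_ga_E_le_quotField O N') hn0 hyn
  have hover' := ssm_tp_over_inv (fc_ff_transcendental (L := L) hx)
    (fc_ff_transcendental (L := L) hxi) hπ.not_isUnit hover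
  have H' := ssm_tp_ff_hyp_inv (L := L) hπ hxE H
  haveI : FiniteDimensional L⟮(lg_lamE N' : ↥(lg_E L N'))⁻¹⟯ ↥(lg_E L N') := by
    rw [rt_adjoin_inv]; infer_instance
  exact s36ctr_chart O hπ q (lg_E L N') (lg_E L (N' * q)) (ssm_al_E_le L N' q)
    (ssm_ga_E_le_quotField O (N' * q)) (ssm_gl_W L N' q hq2 hqN')
    (ssm_al_WE_WE L N' q hq.out hq2 hqN')
    (fun z => ssm_al_coe_WE_of_mem L N' q hq.out hq2 hqN' z.2 _)
    (ssm_al_relfinrank_E L N' q hq.out hq2 hqN') (hm_lam O) (ssm_ga_lam_frobFixed O q) 1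
    (ssm_gl_not_dvd_one q) hyn (lg_lamE N') hlam (lg_lamE N')⁻¹
    (IntermediateField.inclusion (ssm_al_E_le L N' q) (lg_lamE N'))⁻¹
    (map_inv₀ (IntermediateField.inclusion (ssm_al_E_le L N' q)) (lg_lamE N')) hxi hxEi hover' H'
    hprime2 hic2 (s36ctr_alpha_inv O N' q) (fun _ => rfl) 𝔫 (h𝔫 := h𝔫) hπ𝔫 h2 y'
    (s36ctr_leg_not_dvd_inv O hπ N' q hq2 c y' hy') hT

end Legendre

section NF

variable (L : Type) [Field L] [NumberField L] [Algebra L (AlgebraicClosure ℚ)]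
  (O : ValuationSubring L) [IsDiscreteValuationRing O] {π : O} (hπ : Irreducible π)
variable (N' q : ℕ) [NeZero N'] [NeZero q] [hq : Fact q.Prime] [CharP (ResidueField O) q]
  (hq2 : ¬ 2 ∣ q) (hqN' : ¬ q ∣ N') (ζ : L) (hζ : IsPrimitiveRoot ζ N')

include hζ in
set_option synthInstance.maxHeartbeats 200000 in
set_option maxHeartbeats 1600000 in
/-- **(R1), [NF2-CTX], chart `{λ}`**: at a closed point `𝔫` of `B_λ(N' q)` over `π`, on the component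
`VF` only, lying over the cusp `λ = c` (`c = 0, 1`): the transversal cusp parameter `t0` of level `N'`
at `𝔫 ∩_α B_λ(N')` gives the regular parameter `u = φ_α t0` at `𝔫`: `𝔫 = (π, u)` locally, `π` and `u`
locally prime, `π ∤ u` locally, `λ - c = unit · u ^ e` locally. -/
theorem s36ctr_nf_r1 (c : ↥O) (hc : c = 0 ∨ c = 1)
    (𝔫 : Ideal (fc_chart ↥O ({lg_lamE (N' * q)} : Set ↥(lg_E L (N' * q))))) [h𝔫 : 𝔫.IsMaximal]
    (hπ𝔫 : algebraMap ↥O (fc_chart ↥O ({lg_lamE (N' * q)} : Set ↥(lg_E L (N' * q)))) π ∈ 𝔫)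
    (h2 : ¬ ssm_tp_P (fc_chart ↥O ({lg_lamE (N' * q)} : Set ↥(lg_E L (N' * q))))
      (ssm_gl_V2 O hπ N' q hq2 hqN') ≤ 𝔫)
    (y0 : fc_chart ↥O ({lg_lamE N'} : Set ↥(lg_E L N')))
    (hy0 : (y0 : ↥(lg_E L N')) = lg_lamE N' - algebraMap ↥O ↥(lg_E L N') c)
    (y1 : fc_chart ↥O ({lg_lamE (N' * q)} : Set ↥(lg_E L (N' * q))))
    (hy1 : (y1 : ↥(lg_E L (N' * q))) =
      lg_lamE (N' * q) - algebraMap ↥O ↥(lg_E L (N' * q)) c)
    (hy1n : y1 ∈ 𝔫) :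
    s36ctr_alpha O N' q y0 = y1 ∧
    ∃ t0 : fc_chart ↥O ({lg_lamE N'} : Set ↥(lg_E L N')),
      tq_GenBy (algebraMap ↥O (fc_chart ↥O ({lg_lamE N'} : Set ↥(lg_E L N'))) π) t0
        (𝔫.comap (s36ctr_alpha O N' q)) ∧
      tq_Dom t0 (𝔫.comap (s36ctr_alpha O N' q)) ∧
      (∃ (e : ℕ) (s w : fc_chart ↥O ({lg_lamE N'} : Set ↥(lg_E L N'))), 0 < e ∧
        s ∉ 𝔫.comap (s36ctr_alpha O N' q) ∧ w ∉ 𝔫.comap (s36ctr_alpha O N' q) ∧
        s * y0 = w * t0 ^ e) ∧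
      tq_GenBy (algebraMap ↥O (fc_chart ↥O ({lg_lamE (N' * q)} : Set ↥(lg_E L (N' * q)))) π)
        (s36ctr_alpha O N' q t0) 𝔫 ∧
      tq_Dom (algebraMap ↥O (fc_chart ↥O ({lg_lamE (N' * q)} : Set ↥(lg_E L (N' * q)))) π) 𝔫 ∧
      tq_Dom (s36ctr_alpha O N' q t0) 𝔫 ∧
      (∀ s : fc_chart ↥O ({lg_lamE (N' * q)} : Set ↥(lg_E L (N' * q))), s ∉ 𝔫 →
        ¬ algebraMap ↥O (fc_chart ↥O ({lg_lamE (N' * q)} : Set ↥(lg_E L (N' * q)))) π ∣
          s * s36ctr_alpha O N' q t0) ∧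
      ∃ (e : ℕ) (s w : fc_chart ↥O ({lg_lamE (N' * q)} : Set ↥(lg_E L (N' * q)))), 0 < e ∧
        s ∉ 𝔫 ∧ w ∉ 𝔫 ∧ s * y1 = w * s36ctr_alpha O N' q t0 ^ e := by
  have hqO := ssm_fln_q_mem L O q
  have hq2' : q ≠ 2 := ssm_fl_ne_two q hq2
  have hp := ssm_ll_prime L N' hπ q hqO hq2' hqN' ζ hζ
  have hic1 := ssm_ll_ic1 L N' hπ q hqO hq2' hqN' ζ hζ
  have hα : s36ctr_alpha O N' q y0 = y1 := by
    apply Subtype.ext
    rw [s36ctr_alpha_coe, hy0, hy1, map_sub]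
    rfl
  refine ⟨hα, ?_⟩
  haveI hmax0 : (𝔫.comap (s36ctr_alpha O N' q)).IsMaximal :=
    Ideal.isMaximal_comap_of_isIntegral_of_isMaximal' (s36ctr_alpha O N' q)
      (s36ctr_alpha_isIntegral O N' q) 𝔫
  have hπ0 : algebraMap ↥O (fc_chart ↥O ({lg_lamE N'} : Set ↥(lg_E L N'))) π ∈
      𝔫.comap (s36ctr_alpha O N' q) := by
    rw [Ideal.mem_comap, s36ctr_alpha_algebraMap]
    exact hπ𝔫
  have hy0n : y0 ∈ 𝔫.comap (s36ctr_alpha O N' q) := by
    rw [Ideal.mem_comap, hα]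
    exact hy1n
  have hT := s36ct_ll_trans1 L N' hπ q hqO hq2' hqN' ζ hζ c hc
    (𝔫.comap (s36ctr_alpha O N' q)) hπ0 y0 hy0 hy0n
  obtain ⟨t0, hgen0, hdom0, hrel0, hgenu, hdomπ, hπu, hrel1⟩ :=
    s36ctr_leg_r1 O hπ N' q hq2 hqN' hp.1 hic1 c 𝔫 hπ𝔫 h2 y0 hy0 hT
  -- `u` is locally prime
  haveI := ssm_go_isScalarTower O (lg_E L (N' * q))
  haveI := lgf_finite L (N' * q)
  have hn0 : (1 : ℤ) ≠ 0 := one_ne_zero
  have hyn := ssm_ga_lam_coeff_one O (ssm_gl_two_ne_zero O q hq2)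
  have hlam : ((lg_lamE (N' * q) : ↥(lg_E L (N' * q))) : LaurentSeries L) =
      coeffMap (algebraMap O L) (hm_lam O) := (hm_coeffMap_lam _).symm
  have hxE : Transcendental L (lg_lamE (N' * q) : ↥(lg_E L (N' * q))) :=
    ssm_go_transcendental O (lg_E L (N' * q)) (hm_lam O) (lg_lamE (N' * q)) hlam hn0 hyn
  haveI : IsNoetherianRing ↥(fc_chart ↥O ({lg_lamE (N' * q)} : Set ↥(lg_E L (N' * q)))) :=
    ssm_ths_chart_isNoetherianRing (A0 := ↥O) (L := L) hxE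
  have hπ10 : algebraMap ↥O (fc_chart ↥O ({lg_lamE (N' * q)} : Set ↥(lg_E L (N' * q)))) π ≠ 0 := by
    intro h0
    have h1 : algebraMap ↥O ↥(lg_E L (N' * q)) π = 0 :=
      congrArg (fun z : fc_chart ↥O ({lg_lamE (N' * q)} : Set ↥(lg_E L (N' * q))) =>
        (z : ↥(lg_E L (N' * q)))) h0
    rw [IsScalarTower.algebraMap_apply ↥O L ↥(lg_E L (N' * q)), map_eq_zero] at h1
    exact hπ.ne_zero (Subtype.ext h1)
  have hdomu := s36ct_dom_of_regular 𝔫 hπ10 hgenu hdomπ hπu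
  refine ⟨t0, hgen0, hdom0, hrel0, hgenu, hdomπ, hdomu, hπu, ?_⟩
  rw [← hα]
  exact hrel1

include hζ in
set_option synthInstance.maxHeartbeats 200000 in
set_option maxHeartbeats 1600000 in
/-- **(R1), [NF2-CTX], chart `{λ⁻¹}`**: the twin of `s36ctr_nf_r1` at the cusps `λ⁻¹ = c`
(`c = 0, 1`) of the chart `B_{λ⁻¹}(N' q)`. -/
theorem s36ctr_nf_r1_inv (c : ↥O) (hc : c = 0 ∨ c = 1)
    (𝔫 : Ideal (fc_chart ↥O ({(lg_lamE (N' * q))⁻¹} : Set ↥(lg_E L (N' * q)))))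
    [h𝔫 : 𝔫.IsMaximal]
    (hπ𝔫 : algebraMap ↥O (fc_chart ↥O ({(lg_lamE (N' * q))⁻¹} : Set ↥(lg_E L (N' * q)))) π ∈ 𝔫)
    (h2 : ¬ ssm_tp_P (fc_chart ↥O ({(lg_lamE (N' * q))⁻¹} : Set ↥(lg_E L (N' * q))))
      (ssm_gl_V2 O hπ N' q hq2 hqN') ≤ 𝔫)
    (y0 : fc_chart ↥O ({(lg_lamE N')⁻¹} : Set ↥(lg_E L N')))
    (hy0 : (y0 : ↥(lg_E L N')) = (lg_lamE N')⁻¹ - algebraMap ↥O ↥(lg_E L N') c)
    (y1 : fc_chart ↥O ({(lg_lamE (N' * q))⁻¹} : Set ↥(lg_E L (N' * q))))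
    (hy1 : (y1 : ↥(lg_E L (N' * q))) =
      (lg_lamE (N' * q))⁻¹ - algebraMap ↥O ↥(lg_E L (N' * q)) c)
    (hy1n : y1 ∈ 𝔫) :
    s36ctr_alpha_inv O N' q y0 = y1 ∧
    ∃ t0 : fc_chart ↥O ({(lg_lamE N')⁻¹} : Set ↥(lg_E L N')),
      tq_GenBy (algebraMap ↥O (fc_chart ↥O ({(lg_lamE N')⁻¹} : Set ↥(lg_E L N'))) π) t0
        (𝔫.comap (s36ctr_alpha_inv O N' q)) ∧
      tq_Dom t0 (𝔫.comap (s36ctr_alpha_inv O N' q)) ∧
      (∃ (e : ℕ) (s w : fc_chart ↥O ({(lg_lamE N')⁻¹} : Set ↥(lg_E L N'))), 0 < e ∧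
        s ∉ 𝔫.comap (s36ctr_alpha_inv O N' q) ∧ w ∉ 𝔫.comap (s36ctr_alpha_inv O N' q) ∧
        s * y0 = w * t0 ^ e) ∧
      tq_GenBy (algebraMap ↥O (fc_chart ↥O ({(lg_lamE (N' * q))⁻¹} : Set ↥(lg_E L (N' * q)))) π)
        (s36ctr_alpha_inv O N' q t0) 𝔫 ∧
      tq_Dom (algebraMap ↥O (fc_chart ↥O ({(lg_lamE (N' * q))⁻¹} : Set ↥(lg_E L (N' * q)))) π)
        𝔫 ∧
      tq_Dom (s36ctr_alpha_inv O N' q t0) 𝔫 ∧
      (∀ s : fc_chart ↥O ({(lg_lamE (N' * q))⁻¹} : Set ↥(lg_E L (N' * q))), s ∉ 𝔫 →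
        ¬ algebraMap ↥O (fc_chart ↥O ({(lg_lamE (N' * q))⁻¹} : Set ↥(lg_E L (N' * q)))) π ∣
          s * s36ctr_alpha_inv O N' q t0) ∧
      ∃ (e : ℕ) (s w : fc_chart ↥O ({(lg_lamE (N' * q))⁻¹} : Set ↥(lg_E L (N' * q)))), 0 < e ∧
        s ∉ 𝔫 ∧ w ∉ 𝔫 ∧ s * y1 = w * s36ctr_alpha_inv O N' q t0 ^ e := by
  have hqO := ssm_fln_q_mem L O q
  have hq2' : q ≠ 2 := ssm_fl_ne_two q hq2
  have hp := ssm_ll_prime L N' hπ q hqO hq2' hqN' ζ hζ
  have hic2 := ssm_ll_ic2 L N' hπ q hqO hq2' hqN' ζ hζ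
  have hα : s36ctr_alpha_inv O N' q y0 = y1 := by
    apply Subtype.ext
    rw [s36ctr_alpha_inv_coe, hy0, hy1, map_sub, map_inv₀]
    rfl
  refine ⟨hα, ?_⟩
  have hint := s36ctr_alpha_inv_isIntegral O N' q
  haveI hmax0 : (𝔫.comap (s36ctr_alpha_inv O N' q)).IsMaximal :=
    Ideal.isMaximal_comap_of_isIntegral_of_isMaximal' (s36ctr_alpha_inv O N' q) hint 𝔫
  have hπ0 : algebraMap ↥O (fc_chart ↥O ({(lg_lamE N')⁻¹} : Set ↥(lg_E L N'))) π ∈
      𝔫.comap (s36ctr_alpha_inv O N' q) := by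
    rw [Ideal.mem_comap, s36ctr_alpha_inv_algebraMap]
    exact hπ𝔫
  have hy0n : y0 ∈ 𝔫.comap (s36ctr_alpha_inv O N' q) := by
    rw [Ideal.mem_comap, hα]
    exact hy1n
  have hT := s36ct_ll_trans2 L N' hπ q hqO hq2' hqN' ζ hζ c hc
    (𝔫.comap (s36ctr_alpha_inv O N' q)) hπ0 y0 hy0 hy0n
  obtain ⟨t0, hgen0, hdom0, hrel0, hgenu, hdomπ, hπu, hrel1⟩ :=
    s36ctr_leg_r1_inv O hπ N' q hq2 hqN' hp.1 hp.2.1 hic2 c 𝔫 hπ𝔫 h2 y0 hy0 hT
  -- `u` is locally prime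
  haveI := ssm_go_isScalarTower O (lg_E L (N' * q))
  haveI := lgf_finite L (N' * q)
  have hn0 : (1 : ℤ) ≠ 0 := one_ne_zero
  have hyn := ssm_ga_lam_coeff_one O (ssm_gl_two_ne_zero O q hq2)
  have hlam : ((lg_lamE (N' * q) : ↥(lg_E L (N' * q))) : LaurentSeries L) =
      coeffMap (algebraMap O L) (hm_lam O) := (hm_coeffMap_lam _).symm
  have hxE : Transcendental L (lg_lamE (N' * q) : ↥(lg_E L (N' * q))) :=
    ssm_go_transcendental O (lg_E L (N' * q)) (hm_lam O) (lg_lamE (N' * q)) hlam hn0 hyn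
  have hxEi : Transcendental L (lg_lamE (N' * q) : ↥(lg_E L (N' * q)))⁻¹ :=
    fun h => hxE (IsAlgebraic.inv_iff.mp h)
  haveI : FiniteDimensional L⟮(lg_lamE (N' * q) : ↥(lg_E L (N' * q)))⁻¹⟯ ↥(lg_E L (N' * q)) := by
    rw [rt_adjoin_inv]; infer_instance
  haveI : IsNoetherianRing ↥(fc_chart ↥O ({(lg_lamE (N' * q))⁻¹} : Set ↥(lg_E L (N' * q)))) :=
    ssm_ths_chart_isNoetherianRing (A0 := ↥O) (L := L) hxEi
  have hπ10 : algebraMap ↥O (fc_chart ↥O ({(lg_lamE (N' * q))⁻¹} :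
      Set ↥(lg_E L (N' * q)))) π ≠ 0 := by
    intro h0
    have h1 : algebraMap ↥O ↥(lg_E L (N' * q)) π = 0 :=
      congrArg (fun z : fc_chart ↥O ({(lg_lamE (N' * q))⁻¹} : Set ↥(lg_E L (N' * q))) =>
        (z : ↥(lg_E L (N' * q)))) h0
    rw [IsScalarTower.algebraMap_apply ↥O L ↥(lg_E L (N' * q)), map_eq_zero] at h1
    exact hπ.ne_zero (Subtype.ext h1)
  have hdomu := s36ct_dom_of_regular 𝔫 hπ10 hgenu hdomπ hπu
  refine ⟨t0, hgen0, hdom0, hrel0, hgenu, hdomπ, hdomu, hπu, ?_⟩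
  rw [← hα]
  exact hrel1

end NF

end Fermat.Agent.S36
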