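/-
Project S36, leaf [CUSP-T2] (helper23; prefix `s36ct_`), part 5: (R1) + (R2) FOR A TOWER
`E' ≤ E ≤ Quot(O((X)))` (the generic context of `SS/Model/SmoothInst.lean`, `ssm_si_chart`).

* `s36ct_not_dvd_coord` : `π ∤ (y - c)` in the chart `fc_chart A0 {y}` of a transcendental `y`;
* `s36ct_pair_of_zeroPair` : the zero pairing of two functions at the places of `E / L` gives the
  pairing at the horizontal height-one primes of a chart (hypothesis `hpair` of `s36ct_r2_cover`);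
* `s36ct_mem_of_frob` : `x₁ - c ∈ 𝔫` from `x - c ∈ 𝔫` and the Frobenius congruence on the first
  component;
* `s36ct_si_r1`, `s36ct_si_r2` : `s36ct_r1_cover`, `s36ct_r2_cover` with every structural
  hypothesis discharged from the S34 tower package.
-/
import Mathlib
import Fermat.Agent.SS.Model.SmoothInst
import Fermat.Agent.SS.Model.CuspsLam
import Fermat.Agent.SS.Model.ThickBase
import Fermat.Agent.SS.Local.Places
import Fermat.Agent.S24.Hurwitz.Places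
import Fermat.Agent.S36.CuspTrans.T2Cover

set_option autoImplicit false
set_option linter.unusedSectionVars false
set_option linter.unusedVariables false
set_option linter.style.haveILetI false

noncomputable section

open ModularCurve IntermediateField IsLocalRing Polynomial
open Fermat.Agent.JT3 Fermat.Agent.SS

namespace Fermat.Agent.S36

section Coord

universe v

variable {A0 : Type*} {F0 : Type v} [CommRing A0] [IsDomain A0] [Field F0] [Algebra A0 F0]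

/-- **`π ∤ (y - c)` in the chart of a transcendental coordinate `y`.** -/
theorem s36ct_not_dvd_coord {y : F0} (hy : Transcendental A0 y) {π : A0} (hπ : ¬ IsUnit π)
    (c : A0) {V : ValuationSubring F0}
    (hover : ssm_tp_Over (algebraMap A0 (Algebra.adjoin A0 ({y} : Set F0)) π) V)
    (y' : fc_chart A0 ({y} : Set F0)) (hy' : (y' : F0) = y - algebraMap A0 F0 c) :
    ¬ algebraMap A0 (fc_chart A0 ({y} : Set F0)) π ∣ y' := by
  rintro ⟨b, hb⟩
  have hbV : (b : F0) ∈ V := ssm_tp_mem_of_isIntegral V hover.le b.2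
  have h1 : (y' : F0) = algebraMap A0 F0 π * (b : F0) := by
    have := congrArg (fun z : fc_chart A0 ({y} : Set F0) => (z : F0)) hb
    simpa using this
  have hmem : y - algebraMap A0 F0 c ∈ Algebra.adjoin A0 ({y} : Set F0) :=
    Subalgebra.sub_mem _ (Algebra.subset_adjoin rfl) (Subalgebra.algebraMap_mem _ c)
  have h2 : algebraMap (Algebra.adjoin A0 ({y} : Set F0)) F0 ⟨_, hmem⟩ ∈ V.nonunits := by
    change y - algebraMap A0 F0 c ∈ V.nonunits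
    rw [← hy', h1]
    exact ssm_tp_nonunits_mul V ((hover.cen _).2 (dvd_refl _)) hbV
  have h3 := (hover.cen ⟨_, hmem⟩).1 h2
  have h4 : C π ∣ (X - C c : A0[X]) :=
    (ssm_tp_dvd_aeval_iff hy π (X - C c) ⟨_, hmem⟩ (by simp)).1 h3
  have h5 := (Polynomial.C_dvd_iff_dvd_coeff π (X - C c)).1 h4 1
  rw [Polynomial.coeff_sub, Polynomial.coeff_X_one, Polynomial.coeff_C_succ, sub_zero] at h5
  exact hπ (isUnit_of_dvd_one h5)

end Coord

section Pair

open AlgebraicCurve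

universe v

variable {A0 : Type*} [CommRing A0] [IsDomain A0] [IsDiscreteValuationRing A0]
  {K : Type*} [Field K] [Algebra A0 K] [IsFractionRing A0 K]
  {F0 : Type v} [Field F0] [Algebra A0 F0] [Algebra K F0] [IsScalarTower A0 K F0]
  {R : Type*} [CommRing R] [IsDomain R] [IsNoetherianRing R] [IsIntegrallyClosed R]
  [Algebra A0 R] [Algebra R F0] [IsFractionRing R F0] [IsScalarTower A0 R F0]
  {π : A0}

/-- **zero pairing at the places ⟹ pairing at the horizontal primes**: if `b` vanishes at every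
place of `F0 / K` where `a` does, then `b` lies in every horizontal height-one prime of `R`
containing `a`. -/
theorem s36ct_pair_of_zeroPair (hπ : Irreducible π) {a b : R} (ha0 : a ≠ 0) (hb0 : b ≠ 0)
    (hZ : ∀ c : Place K F0, 0 < c.ord (algebraMap R F0 a) → 0 < c.ord (algebraMap R F0 b))
    (𝔮 : Ideal R) (h𝔮 : 𝔮.IsPrime) (hht : 𝔮.height = 1) (hπ𝔮 : algebraMap A0 R π ∉ 𝔮)
    (ha : a ∈ 𝔮) : b ∈ 𝔮 := by
  haveI := h𝔮
  set P : Place K F0 := ssl_placeAt hπ 𝔮 ⟨h𝔮, hht, hπ𝔮⟩ with hP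
  have haF : algebraMap R F0 a ≠ 0 :=
    (map_ne_zero_iff _ (IsFractionRing.injective R F0)).2 ha0
  have hbF : algebraMap R F0 b ≠ 0 :=
    (map_ne_zero_iff _ (IsFractionRing.injective R F0)).2 hb0
  have h1 : algebraMap R F0 a ∈ (ssl_valAt (F := F0) 𝔮 hht).nonunits :=
    (ssl_mem_valAt_nonunits 𝔮 hht).2 ⟨a, 1, ha, fun h => h𝔮.ne_top ((Ideal.eq_top_iff_one _).2 h),
      by rw [map_one, mul_one]⟩
  have h2 : 0 < P.ord (algebraMap R F0 a) := by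
    rw [Fermat.Agent.S24.hw_ord_pos_iff P haF]
    rcases (ValuationSubring.mem_nonunits_iff_or _).1 h1 with h | h
    · exact absurd h haF
    · exact h
  have h3 : 0 < P.ord (algebraMap R F0 b) := hZ P h2
  have h4 : algebraMap R F0 b ∈ (ssl_valAt (F := F0) 𝔮 hht).nonunits := by
    rw [ValuationSubring.mem_nonunits_iff_or]
    right
    exact (Fermat.Agent.S24.hw_ord_pos_iff P hbF).1 h3
  obtain ⟨b', s, hb', hs, hbs⟩ := (ssl_mem_valAt_nonunits 𝔮 hht).1 h4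
  have h5 : b * s = b' := by
    apply IsFractionRing.injective R F0
    rw [map_mul, hbs]
  have h6 : b * s ∈ 𝔮 := h5 ▸ hb'
  exact (h𝔮.mem_or_mem h6).resolve_right hs

end Pair

section Frob

variable {B : Type*} [CommRing B]

/-- `x₁ - c ∈ 𝔫` from `x - c ∈ 𝔫` and the Frobenius congruence `w (x₁ - c) = (x - c)^q`,
`w ≡ 1` on the first component `P1 ≤ 𝔫`. -/
theorem s36ct_mem_of_frob (P1 𝔫 : Ideal B) [h𝔫 : 𝔫.IsPrime] (hP1 : P1 ≤ 𝔫) {q : ℕ} (hq : 0 < q)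
    {w a a1 : B} (hw1 : w - 1 ∈ P1) (hw : w * a1 = a ^ q) (ha : a ∈ 𝔫) : a1 ∈ 𝔫 := by
  have hwn : w ∉ 𝔫 := by
    intro h
    have h1 : (1 : B) ∈ 𝔫 := by
      have e : (1 : B) = w - (w - 1) := by ring
      rw [e]
      exact 𝔫.sub_mem h (hP1 hw1)
    exact h𝔫.ne_top ((Ideal.eq_top_iff_one _).2 h1)
  have h2 : w * a1 ∈ 𝔫 := by
    rw [hw]
    exact Ideal.pow_mem_of_mem _ ha q hq
  exact (h𝔫.mem_or_mem h2).resolve_left hwn

end Frob

section Generic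

variable {L : Type*} [Field L] [CharZero L] (O : ValuationSubring L)
  [IsDiscreteValuationRing O] {π : O} (hπ : Irreducible π)
variable (q : ℕ) [NeZero q] [hq : Fact q.Prime] [CharP (ResidueField O) q]
variable (E' E : IntermediateField L (LaurentSeries L)) (hle : E' ≤ E)
  (hE : E ≤ gq_quotField O L)

set_option synthInstance.maxHeartbeats 200000 in
set_option maxHeartbeats 800000 in
/-- **(R1) + (R2) on one chart of a tower** `E' ≤ E`: `φA`, `φB` the two chart maps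
(`α` = inclusion, `β = W ∘ α`), `𝔫` a prime of the chart of `E` on the first (Gauss) component
only. -/
theorem s36ct_si_r2 (W : ↥E ≃+* ↥E) (hWW : ∀ x, W (W x) = x)
    (hW : ∀ z : ↥E', ((W (IntermediateField.inclusion hle z) : ↥E) : LaurentSeries L) =
      qExpand L q (z : LaurentSeries L))
    (hrank : IntermediateField.relfinrank E' E = q + 1)
    (ys : LaurentSeries O) (hyF : ssm_ga_FrobFixed q ys) (n : ℤ) (hn : ¬ (q : ℤ) ∣ n)
    (hyn : residue O (ys.coeff n) ≠ 0) (lam' : ↥E')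
    (hlam : (lam' : LaurentSeries L) = coeffMap (algebraMap O L) ys)
    (y : ↥E') (yE : ↥E) (hyE : IntermediateField.inclusion hle y = yE)
    (hy : Transcendental L y) [FiniteDimensional L⟮y⟯ ↥E'] (hyEt : Transcendental L yE)
    [FiniteDimensional L⟮yE⟯ ↥E]
    (hover : ssm_tp_Over (algebraMap ↥O (Algebra.adjoin ↥O ({y} : Set ↥E')) π)
      (gq_valSubOf π hπ.ne_zero hπ.maximalIdeal_eq E' (hle.trans hE)))
    (H : ssm_tp_Hyp (algebraMap ↥O (Algebra.adjoin ↥O ({yE} : Set ↥E)) π)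
      (gq_valSubOf π hπ.ne_zero hπ.maximalIdeal_eq E hE)
      ((gq_valSubOf π hπ.ne_zero hπ.maximalIdeal_eq E hE).comap (W : ↥E →+* ↥E)))
    (hprime : Prime (algebraMap ↥O (fc_chart ↥O ({y} : Set ↥E')) π))
    (hic : IsIntegrallyClosed (fc_chart ↥O ({y} : Set ↥E') ⧸
      (Ideal.span {algebraMap ↥O (fc_chart ↥O ({y} : Set ↥E')) π} :
        Ideal (fc_chart ↥O ({y} : Set ↥E')))))
    (φA φB : fc_chart ↥O ({y} : Set ↥E') →+* fc_chart ↥O ({yE} : Set ↥E))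
    (hφA : ∀ b : fc_chart ↥O ({y} : Set ↥E'), ((φA b : fc_chart ↥O ({yE} : Set ↥E)) : ↥E) =
      IntermediateField.inclusion hle (b : ↥E'))
    (hφB : ∀ b : fc_chart ↥O ({y} : Set ↥E'), ((φB b : fc_chart ↥O ({yE} : Set ↥E)) : ↥E) =
      W (IntermediateField.inclusion hle (b : ↥E')))
    (hWO : ∀ a : ↥O, W (algebraMap ↥O ↥E a) = algebraMap ↥O ↥E a)
    (𝔫 : Ideal (fc_chart ↥O ({yE} : Set ↥E))) [h𝔫 : 𝔫.IsPrime]
    (hπ𝔫 : algebraMap ↥O (fc_chart ↥O ({yE} : Set ↥E)) π ∈ 𝔫)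
    (h2 : ¬ ssm_tp_P (fc_chart ↥O ({yE} : Set ↥E))
        ((gq_valSubOf π hπ.ne_zero hπ.maximalIdeal_eq E hE).comap (W : ↥E →+* ↥E)) ≤ 𝔫)
    (y' : fc_chart ↥O ({y} : Set ↥E'))
    (hy' : ¬ algebraMap ↥O (fc_chart ↥O ({y} : Set ↥E')) π ∣ y')
    (hT : s36ct_TransAt (algebraMap ↥O (fc_chart ↥O ({y} : Set ↥E')) π) y' (𝔫.comap φA))
    (y'' : fc_chart ↥O ({y} : Set ↥E'))
    (hT' : s36ct_TransAt (algebraMap ↥O (fc_chart ↥O ({y} : Set ↥E')) π) y'' (𝔫.comap φB))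
    (hpair : ∀ 𝔮 : Ideal (fc_chart ↥O ({yE} : Set ↥E)), 𝔮.IsPrime → 𝔮 ≤ 𝔫 → 𝔮.height = 1 →
      algebraMap ↥O (fc_chart ↥O ({yE} : Set ↥E)) π ∉ 𝔮 → φB y'' ∈ 𝔮 → φA y' ∈ 𝔮)
    (hrel : ∀ t0 t1 : fc_chart ↥O ({y} : Set ↥E'),
      tq_GenBy (algebraMap ↥O (fc_chart ↥O ({yE} : Set ↥E)) π) (φA t0) 𝔫 →
      tq_GenBy (algebraMap ↥O (fc_chart ↥O ({y} : Set ↥E')) π) t1 (𝔫.comap φB) →
      ∃ s a r : fc_chart ↥O ({yE} : Set ↥E), s ∉ 𝔫 ∧ a ∉ 𝔫 ∧
        s * φA t0 ^ q = a * φB t1 + algebraMap ↥O (fc_chart ↥O ({yE} : Set ↥E)) π * r) :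
    ∃ t0 t1 : fc_chart ↥O ({y} : Set ↥E'),
      tq_GenBy (algebraMap ↥O (fc_chart ↥O ({y} : Set ↥E')) π) t0 (𝔫.comap φA) ∧
      tq_Dom t0 (𝔫.comap φA) ∧
      (∃ (e : ℕ) (s w : fc_chart ↥O ({y} : Set ↥E')), 0 < e ∧ s ∉ 𝔫.comap φA ∧
        w ∉ 𝔫.comap φA ∧ s * y' = w * t0 ^ e) ∧
      tq_GenBy (algebraMap ↥O (fc_chart ↥O ({yE} : Set ↥E)) π) (φA t0) 𝔫 ∧
      tq_Dom (algebraMap ↥O (fc_chart ↥O ({yE} : Set ↥E)) π) 𝔫 ∧
      tq_Dom (φA t0) 𝔫 ∧
      (∃ (e : ℕ) (s w : fc_chart ↥O ({yE} : Set ↥E)), 0 < e ∧ s ∉ 𝔫 ∧ w ∉ 𝔫 ∧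
        s * φA y' = w * φA t0 ^ e) ∧
      tq_GenBy (algebraMap ↥O (fc_chart ↥O ({y} : Set ↥E')) π) t1 (𝔫.comap φB) ∧
      tq_Dom t1 (𝔫.comap φB) ∧
      (∃ (e : ℕ) (s w : fc_chart ↥O ({y} : Set ↥E')), 0 < e ∧ s ∉ 𝔫.comap φB ∧
        w ∉ 𝔫.comap φB ∧ s * y'' = w * t1 ^ e) ∧
      ∃ s w : fc_chart ↥O ({yE} : Set ↥E), s ∉ 𝔫 ∧ w ∉ 𝔫 ∧ s * φB t1 = w * φA t0 ^ q := by
  subst hyE
  letI := ssm_gi_algebra hle
  letI := ssm_gi_algebraV hle (gq_valSubOf π hπ.ne_zero hπ.maximalIdeal_eq E' (hle.trans hE))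
  haveI := ssm_gi_isScalarTower hle
    (gq_valSubOf π hπ.ne_zero hπ.maximalIdeal_eq E' (hle.trans hE))
  have hfr : Module.finrank ↥E' ↥E = q + 1 := (ssm_gt_finrank_eq hle).trans hrank
  haveI : FiniteDimensional ↥E' ↥E := ssm_gi_finiteDimensional hfr
  haveI : Algebra.IsSeparable ↥E' ↥E := ssm_gi_isSeparable
  haveI := ssm_go_isScalarTower O E
  haveI := ssm_go_isScalarTower O E'
  haveI := ssm_gt_isScalarTower O hle
  have D := ssm_gt_data O hπ q E' E hle hE W hWW hW hrank ys hyF n hn hyn lam' hlam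
  have hVK : ∀ z : ↥E', z ∈ gq_valSubOf π hπ.ne_zero hπ.maximalIdeal_eq E' (hle.trans hE) ↔
      z ∈ (algebraMap ↥(gq_valSubOf π hπ.ne_zero hπ.maximalIdeal_eq E' (hle.trans hE)) ↥E').range :=
    fun z => (ssm_gi_mem_range _ z).symm
  have Lk := ssm_cpi_link_ff (L := L) D hπ hy hyEt hprime
    (gq_valSubOf π hπ.ne_zero hπ.maximalIdeal_eq E' (hle.trans hE)) hVK hover H
  have h1 := ssm_cpi_ff (L := L) D hπ hy hyEt hprime hic
    (gq_valSubOf π hπ.ne_zero hπ.maximalIdeal_eq E' (hle.trans hE)) hVK hover H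
  have hC := ssm_tp_ff_chart (L := L) hπ hyEt
  have hyEA : Transcendental ↥O (algebraMap ↥E' ↥E y) := fc_ff_transcendental (L := L) hyEt
  haveI : IsIntegrallyClosed (Algebra.adjoin ↥O ({algebraMap ↥E' ↥E y} : Set ↥E)) :=
    fc_ff_isIntegrallyClosed hyEA
  haveI : FaithfulSMul (Algebra.adjoin ↥O ({algebraMap ↥E' ↥E y} : Set ↥E)) ↥E :=
    (faithfulSMul_iff_algebraMap_injective _ _).2 Subtype.val_injective
  haveI hP1 := Lk.P1_isPrime
  have hφAeq : φA = ssm_cpi_phi ↥O ↥E y := by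
    ext b
    rw [hφA, ssm_cpi_phi_coe]
    rfl
  subst hφAeq
  have hφπ : ssm_cpi_phi ↥O ↥E y (algebraMap ↥O (fc_chart ↥O ({y} : Set ↥E')) π) =
      algebraMap ↥O (fc_chart ↥O ({algebraMap ↥E' ↥E y} : Set ↥E)) π :=
    ssm_cpi_phi_algebraMap y π
  have hφBπ : φB (algebraMap ↥O (fc_chart ↥O ({y} : Set ↥E')) π) =
      ssm_cpi_phi ↥O ↥E y (algebraMap ↥O (fc_chart ↥O ({y} : Set ↥E')) π) := by
    rw [hφπ]
    apply Subtype.ext
    rw [hφB]
    exact hWO π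
  have hP : Ideal.span {ssm_cpi_phi ↥O ↥E y (algebraMap ↥O (fc_chart ↥O ({y} : Set ↥E')) π)} =
      ssm_tp_P (fc_chart ↥O ({algebraMap ↥E' ↥E y} : Set ↥E))
        (gq_valSubOf π hπ.ne_zero hπ.maximalIdeal_eq E hE) ⊓
      ssm_tp_P (fc_chart ↥O ({algebraMap ↥E' ↥E y} : Set ↥E))
        ((gq_valSubOf π hπ.ne_zero hπ.maximalIdeal_eq E hE).comap (W : ↥E →+* ↥E)) := by
    rw [hφπ]
    exact H.P_inf hC _ rfl
  haveI : IsNoetherianRing (fc_chart ↥O ({algebraMap ↥E' ↥E y} : Set ↥E)) :=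
    ssm_ths_chart_isNoetherianRing (A0 := ↥O) (L := L) hyEt
  have hφπ0 : ssm_cpi_phi ↥O ↥E y (algebraMap ↥O (fc_chart ↥O ({y} : Set ↥E')) π) ≠ 0 := by
    rw [hφπ]
    intro h0
    have h3 : ((algebraMap ↥O (fc_chart ↥O ({algebraMap ↥E' ↥E y} : Set ↥E)) π :
        fc_chart ↥O ({algebraMap ↥E' ↥E y} : Set ↥E)) : ↥E) = 0 := by rw [h0]; rfl
    exact H.algebraMap_ne_zero h3
  have key := s36ct_r2_cover (ssm_cpi_phi ↥O ↥E y)
    (algebraMap ↥O (fc_chart ↥O ({y} : Set ↥E')) π) _ _ hP h1.1 (ssm_cpi_comap1 Lk) hprime φB hφBπ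
    hφπ0 𝔫 (by rw [hφπ]; exact hπ𝔫) h2 y' hy' hT y'' hT'
    (by rw [hφπ]; exact hpair) q (by rw [hφπ]; exact hrel)
  rw [hφπ] at key
  exact key

end Generic

end Fermat.Agent.S36
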