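/-
Project S36, leaf [CUSP-T2], (R1)+(R2)+(T2) LEGENDRE INSTANCE (helper6; prefix `s36ctr_`): the
Legendre instance, in [NF2-CTX] (number field `L ∋ ζ_{N'}`, general uniformiser `π`), of helper23's
generic-tower theorem `s36ct_si_r2` (`S36/CuspTrans/T2Inst.lean`).

`B0 := fc_chart O {λ}` at level `N'`, `B1 := fc_chart O {λ}` at level `N' q`, `φA φB : B0 →+* B1` the
two chart maps (`α` = inclusion, `β = W ∘ α`), `𝔫` a closed point of `B1` over `π`, on the component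
`VF` only, lying over the cusp `λ = c` (`c = 0, 1`).  Everything is discharged except the purely
inseparable relation `hrel` (helper23's `s36ct_hrel_of_hyp`):
* (T1) at `𝔫 ∩_α B0` and at `𝔫 ∩_β B0` : `s36ct_ll_trans1` (level `N'`);
* `s36ctr_leg_frob` : `φB y0 ∈ 𝔫` (`s36ct_mem_of_frob` + the integrality package `ssm_fl_facts`);
* `s36ctr_leg_pair` : `hpair` (`s36ct_pair_of_zeroPair` + the cusp facts `ssm_cf_final`);
* `s36ctr_leg_r2`   : the closed statement on the chart `{λ}`, cusps `λ = 0, 1`;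
* `s36ctr_leg_frob_inv`, `s36ctr_leg_pair_inv`, `s36ctr_leg_r2_inv` : the twins on the charts `{λ⁻¹}`
  at the cusp `λ⁻¹ = 0`.
-/
import Mathlib
import Fermat.Agent.S36.CuspTrans.R1Leg
import Fermat.Agent.S36.CuspTrans.T2Inst
import Fermat.Agent.SS.Model.FinalLeg

set_option autoImplicit false
set_option linter.unusedSectionVars false
set_option linter.unusedVariables false
set_option linter.style.haveILetI false

noncomputable section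

open ModularCurve IntermediateField IsLocalRing AlgebraicCurve
open Fermat.Agent.JT3 Fermat.Agent.SS

namespace Fermat.Agent.S36

section Leg

variable {L : Type*} [Field L] [CharZero L] [Algebra L (AlgebraicClosure ℚ)]
  (O : ValuationSubring L) [IsDiscreteValuationRing O] {π : O} (hπ : Irreducible π)
variable (N' q : ℕ) [NeZero N'] [NeZero q] [hq : Fact q.Prime] [CharP (ResidueField O) q]
  (hq2 : ¬ 2 ∣ q) (hqN' : ¬ q ∣ N')

set_option synthInstance.maxHeartbeats 200000 in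
set_option maxHeartbeats 800000 in
/-- the Frobenius step: `φB y0 ∈ 𝔫` from `φA y0 ∈ 𝔫` on the first component. -/
theorem s36ctr_leg_frob
    (hprime1 : Prime (algebraMap ↥O (fc_chart ↥O ({lg_lamE N'} : Set ↥(lg_E L N'))) π))
    (c : ↥O) (hc : c = 0 ∨ c = 1)
    (a a1 : fc_chart ↥O ({lg_lamE (N' * q)} : Set ↥(lg_E L (N' * q))))
    (ha : (a : ↥(lg_E L (N' * q))) = lg_lamE (N' * q) - algebraMap ↥O ↥(lg_E L (N' * q)) c)
    (ha1 : (a1 : ↥(lg_E L (N' * q))) =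
      ssm_gl_W L N' q hq2 hqN' (lg_lamE (N' * q)) - algebraMap ↥O ↥(lg_E L (N' * q)) c)
    (𝔫 : Ideal (fc_chart ↥O ({lg_lamE (N' * q)} : Set ↥(lg_E L (N' * q))))) [h𝔫 : 𝔫.IsPrime]
    (hP1 : ssm_tp_P (fc_chart ↥O ({lg_lamE (N' * q)} : Set ↥(lg_E L (N' * q))))
      (ssm_gl_V1 O hπ N' q) ≤ 𝔫)
    (han : a ∈ 𝔫) : a1 ∈ 𝔫 := by
  have F := ssm_fl_facts O hπ N' q hq2 hqN' hprime1
  have H := ssm_gl_hyp O hπ N' q hq2 hqN' hprime1
  have hxE : Transcendental L (lg_lamE (L := L) (N' * q)) :=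
    lgf_lam_transcendental L (N' * q) two_ne_zero
  have hC := ssm_tp_ff_chart (A0 := ↥O) (L := L) hπ hxE
  have hyEA : Transcendental ↥O (lg_lamE (N' * q) : ↥(lg_E L (N' * q))) :=
    fc_ff_transcendental (L := L) hxE
  haveI : IsIntegrallyClosed (Algebra.adjoin ↥O ({lg_lamE (N' * q)} : Set ↥(lg_E L (N' * q)))) :=
    fc_ff_isIntegrallyClosed hyEA
  haveI : FaithfulSMul (Algebra.adjoin ↥O ({lg_lamE (N' * q)} : Set ↥(lg_E L (N' * q))))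
      ↥(lg_E L (N' * q)) :=
    (faithfulSMul_iff_algebraMap_injective _ _).2 Subtype.val_injective
  have hle1 : ∀ b ∈ fc_chart ↥O ({lg_lamE (N' * q)} : Set ↥(lg_E L (N' * q))),
      b ∈ ssm_gl_V1 O hπ N' q := fun b hb => hC.le H.over1 hb
  have hlam0 : (lg_lamE (N' * q) : ↥(lg_E L (N' * q))) ≠ 0 := by
    intro h
    exact hxE (h ▸ isAlgebraic_zero)
  have hlam1 : (lg_lamE (N' * q) : ↥(lg_E L (N' * q))) - 1 ≠ 0 := by
    intro h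
    have h1 : (lg_lamE (N' * q) : ↥(lg_E L (N' * q))) = 1 := sub_eq_zero.1 h
    exact hxE (h1 ▸ isAlgebraic_one)
  have hW0 : ssm_gl_W L N' q hq2 hqN' (lg_lamE (N' * q)) ≠ 0 :=
    (map_ne_zero _).2 hlam0
  have hW1 : ssm_gl_W L N' q hq2 hqN' (lg_lamE (N' * q)) - 1 ≠ 0 := by
    have := (map_ne_zero (ssm_gl_W L N' q hq2 hqN')).2 hlam1
    rwa [map_sub, map_one] at this
  rcases hc with rfl | rfl
  · rw [map_zero, sub_zero] at ha ha1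
    refine s36ct_mem_of_frob _ 𝔫 hP1 hq.out.pos
      (w := (⟨_, F.w0⟩ : fc_chart ↥O ({lg_lamE (N' * q)} : Set ↥(lg_E L (N' * q)))))
      (a := a) ?_ ?_ han
    · rw [ssm_tp_mem_P hle1]
      exact F.w0_sub
    · apply Subtype.ext
      rw [MulMemClass.coe_mul, SubmonoidClass.coe_pow, ha, ha1]
      exact div_mul_cancel₀ _ hW0
  · rw [map_one] at ha ha1
    refine s36ct_mem_of_frob _ 𝔫 hP1 hq.out.pos
      (w := (⟨_, F.w1⟩ : fc_chart ↥O ({lg_lamE (N' * q)} : Set ↥(lg_E L (N' * q)))))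
      (a := a) ?_ ?_ han
    · rw [ssm_tp_mem_P hle1]
      exact F.w1_sub
    · apply Subtype.ext
      rw [MulMemClass.coe_mul, SubmonoidClass.coe_pow, ha, ha1]
      exact div_mul_cancel₀ _ hW1


include hπ in
set_option synthInstance.maxHeartbeats 200000 in
set_option maxHeartbeats 800000 in
/-- the zero pairing of the two cusp functions at the horizontal primes of `B_λ(N' q)`. -/
theorem s36ctr_leg_pair (c : ↥O) (hc : c = 0 ∨ c = 1)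
    (a a1 : fc_chart ↥O ({lg_lamE (N' * q)} : Set ↥(lg_E L (N' * q))))
    (ha : (a : ↥(lg_E L (N' * q))) = lg_lamE (N' * q) - algebraMap ↥O ↥(lg_E L (N' * q)) c)
    (ha1 : (a1 : ↥(lg_E L (N' * q))) =
      ssm_gl_W L N' q hq2 hqN' (lg_lamE (N' * q)) - algebraMap ↥O ↥(lg_E L (N' * q)) c)
    (𝔮 : Ideal (fc_chart ↥O ({lg_lamE (N' * q)} : Set ↥(lg_E L (N' * q))))) (h𝔮 : 𝔮.IsPrime)
    (hht : 𝔮.height = 1)
    (hπ𝔮 : algebraMap ↥O (fc_chart ↥O ({lg_lamE (N' * q)} : Set ↥(lg_E L (N' * q)))) π ∉ 𝔮)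
    (ha1𝔮 : a1 ∈ 𝔮) : a ∈ 𝔮 := by
  have hq2' : q ≠ 2 := ssm_fl_ne_two q hq2
  haveI := ssm_go_isScalarTower O (lg_E L (N' * q))
  haveI : FiniteDimensional L⟮(lg_lamE (N' * q) : lg_E L (N' * q))⟯ ↥(lg_E L (N' * q)) :=
    lgf_finite L (N' * q)
  have hxE : Transcendental L (lg_lamE (L := L) (N' * q)) :=
    lgf_lam_transcendental L (N' * q) two_ne_zero
  have hlam0 : (lg_lamE (N' * q) : ↥(lg_E L (N' * q))) ≠ 0 := by
    intro h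
    exact hxE (h ▸ isAlgebraic_zero)
  have hlam1 : (lg_lamE (N' * q) : ↥(lg_E L (N' * q))) - 1 ≠ 0 := by
    intro h
    have h1 : (lg_lamE (N' * q) : ↥(lg_E L (N' * q))) = 1 := sub_eq_zero.1 h
    exact hxE (h1 ▸ isAlgebraic_one)
  have hW0 : ssm_gl_W L N' q hq2 hqN' (lg_lamE (N' * q)) ≠ 0 :=
    (map_ne_zero _).2 hlam0
  have hW1 : ssm_gl_W L N' q hq2 hqN' (lg_lamE (N' * q)) - 1 ≠ 0 := by
    have := (map_ne_zero (ssm_gl_W L N' q hq2 hqN')).2 hlam1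
    rwa [map_sub, map_one] at this
  have CF := ssm_cf_final L (N' * q) q hq.out hq2' (dvd_mul_left q N')
    (lg_lam_mem_E L (N' * q)) (ssm_fl_lamq_mem (L := L) N' q hq2)
  rw [← ssm_fl_W_lam (L := L) N' q hq2 hqN'] at CF
  haveI : IsNoetherianRing ↥(fc_chart ↥O ({lg_lamE (N' * q)} : Set ↥(lg_E L (N' * q)))) :=
    ssm_ths_chart_isNoetherianRing (A0 := ↥O) (L := L) hxE
  haveI : IsIntegrallyClosed ↥(fc_chart ↥O ({lg_lamE (N' * q)} : Set ↥(lg_E L (N' * q)))) :=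
    ssm_ths_chart_isIntegrallyClosed (A0 := ↥O) (L := L) _
  haveI : IsFractionRing ↥(fc_chart ↥O ({lg_lamE (N' * q)} : Set ↥(lg_E L (N' * q))))
      ↥(lg_E L (N' * q)) :=
    ssm_ths_chart_isFractionRing (A0 := ↥O) (L := L) _
  have hA0 : a ≠ 0 := by
    intro h
    have h1 : (a : ↥(lg_E L (N' * q))) = 0 := by rw [h]; rfl
    rw [ha] at h1
    rcases hc with rfl | rfl
    · rw [map_zero, sub_zero] at h1; exact hlam0 h1
    · rw [map_one] at h1; exact hlam1 h1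
  have hB0 : a1 ≠ 0 := by
    intro h
    have h1 : (a1 : ↥(lg_E L (N' * q))) = 0 := by rw [h]; rfl
    rw [ha1] at h1
    rcases hc with rfl | rfl
    · rw [map_zero, sub_zero] at h1; exact hW0 h1
    · rw [map_one] at h1; exact hW1 h1
  refine s36ct_pair_of_zeroPair (K := L) (F0 := ↥(lg_E L (N' * q))) hπ hB0 hA0 ?_ 𝔮 h𝔮 hht hπ𝔮 ha1𝔮
  intro P hP
  change 0 < P.ord (a1 : ↥(lg_E L (N' * q))) at hP
  change 0 < P.ord (a : ↥(lg_E L (N' * q)))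
  rw [ha1] at hP
  rw [ha]
  rcases hc with rfl | rfl
  · rw [map_zero, sub_zero] at hP ⊢
    exact (CF.zero' P hP).1
  · rw [map_one] at hP ⊢
    exact (CF.one' P hP).1


set_option synthInstance.maxHeartbeats 200000 in
set_option maxHeartbeats 800000 in
/-- the Frobenius step on the chart `{λ⁻¹}` at the cusp `λ⁻¹ = 0`. -/
theorem s36ctr_leg_frob_inv
    (hprime1 : Prime (algebraMap ↥O (fc_chart ↥O ({lg_lamE N'} : Set ↥(lg_E L N'))) π))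
    (a a1 : fc_chart ↥O ({(lg_lamE (N' * q))⁻¹} : Set ↥(lg_E L (N' * q))))
    (ha : (a : ↥(lg_E L (N' * q))) = (lg_lamE (N' * q))⁻¹)
    (ha1 : (a1 : ↥(lg_E L (N' * q))) = (ssm_gl_W L N' q hq2 hqN' (lg_lamE (N' * q)))⁻¹)
    (𝔫 : Ideal (fc_chart ↥O ({(lg_lamE (N' * q))⁻¹} : Set ↥(lg_E L (N' * q)))))
    [h𝔫 : 𝔫.IsPrime]
    (hP1 : ssm_tp_P (fc_chart ↥O ({(lg_lamE (N' * q))⁻¹} : Set ↥(lg_E L (N' * q))))
      (ssm_gl_V1 O hπ N' q) ≤ 𝔫)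
    (han : a ∈ 𝔫) : a1 ∈ 𝔫 := by
  have F := ssm_fl_facts O hπ N' q hq2 hqN' hprime1
  have H := ssm_gl_hyp O hπ N' q hq2 hqN' hprime1
  haveI := ssm_go_isScalarTower O (lg_E L (N' * q))
  haveI : FiniteDimensional L⟮(lg_lamE (N' * q) : lg_E L (N' * q))⟯ ↥(lg_E L (N' * q)) :=
    lgf_finite L (N' * q)
  have hxE : Transcendental L (lg_lamE (L := L) (N' * q)) :=
    lgf_lam_transcendental L (N' * q) two_ne_zero
  have hxEi : Transcendental L (lg_lamE (L := L) (N' * q))⁻¹ :=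
    fun h => hxE (IsAlgebraic.inv_iff.mp h)
  have H' := ssm_tp_ff_hyp_inv (L := L) hπ hxE H
  have hC := ssm_tp_ff_chart (A0 := ↥O) (L := L) hπ hxEi
  have hyEA : Transcendental ↥O (lg_lamE (N' * q) : ↥(lg_E L (N' * q)))⁻¹ :=
    fc_ff_transcendental (L := L) hxEi
  haveI : IsIntegrallyClosed
      (Algebra.adjoin ↥O ({(lg_lamE (N' * q))⁻¹} : Set ↥(lg_E L (N' * q)))) :=
    fc_ff_isIntegrallyClosed hyEA
  haveI : FaithfulSMul (Algebra.adjoin ↥O ({(lg_lamE (N' * q))⁻¹} : Set ↥(lg_E L (N' * q))))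
      ↥(lg_E L (N' * q)) :=
    (faithfulSMul_iff_algebraMap_injective _ _).2 Subtype.val_injective
  have hle1 : ∀ b ∈ fc_chart ↥O ({(lg_lamE (N' * q))⁻¹} : Set ↥(lg_E L (N' * q))),
      b ∈ ssm_gl_V1 O hπ N' q := fun b hb => hC.le H'.over1 hb
  have hlam0 : (lg_lamE (N' * q) : ↥(lg_E L (N' * q))) ≠ 0 := by
    intro h
    exact hxE (h ▸ isAlgebraic_zero)
  have hW0 : (ssm_gl_W L N' q hq2 hqN' (lg_lamE (N' * q)))⁻¹ ≠ 0 :=
    inv_ne_zero ((map_ne_zero _).2 hlam0)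
  refine s36ct_mem_of_frob _ 𝔫 hP1 hq.out.pos
    (w := (⟨_, F.winf⟩ : fc_chart ↥O ({(lg_lamE (N' * q))⁻¹} : Set ↥(lg_E L (N' * q)))))
    (a := a) ?_ ?_ han
  · rw [ssm_tp_mem_P hle1]
    exact F.winf_sub
  · apply Subtype.ext
    rw [MulMemClass.coe_mul, SubmonoidClass.coe_pow, ha, ha1]
    exact div_mul_cancel₀ _ hW0

include hπ in
set_option synthInstance.maxHeartbeats 200000 in
set_option maxHeartbeats 800000 in
/-- the zero pairing of the two cusp functions at the horizontal primes of `B_{λ⁻¹}(N' q)`. -/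
theorem s36ctr_leg_pair_inv
    (a a1 : fc_chart ↥O ({(lg_lamE (N' * q))⁻¹} : Set ↥(lg_E L (N' * q))))
    (ha : (a : ↥(lg_E L (N' * q))) = (lg_lamE (N' * q))⁻¹)
    (ha1 : (a1 : ↥(lg_E L (N' * q))) = (ssm_gl_W L N' q hq2 hqN' (lg_lamE (N' * q)))⁻¹)
    (𝔮 : Ideal (fc_chart ↥O ({(lg_lamE (N' * q))⁻¹} : Set ↥(lg_E L (N' * q)))))
    (h𝔮 : 𝔮.IsPrime) (hht : 𝔮.height = 1)
    (hπ𝔮 : algebraMap ↥O (fc_chart ↥O ({(lg_lamE (N' * q))⁻¹} : Set ↥(lg_E L (N' * q)))) π ∉ 𝔮)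
    (ha1𝔮 : a1 ∈ 𝔮) : a ∈ 𝔮 := by
  have hq2' : q ≠ 2 := ssm_fl_ne_two q hq2
  haveI := ssm_go_isScalarTower O (lg_E L (N' * q))
  haveI : FiniteDimensional L⟮(lg_lamE (N' * q) : lg_E L (N' * q))⟯ ↥(lg_E L (N' * q)) :=
    lgf_finite L (N' * q)
  haveI : FiniteDimensional L⟮(lg_lamE (N' * q) : lg_E L (N' * q))⁻¹⟯ ↥(lg_E L (N' * q)) := by
    rw [rt_adjoin_inv]; infer_instance
  have hxE : Transcendental L (lg_lamE (L := L) (N' * q)) :=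
    lgf_lam_transcendental L (N' * q) two_ne_zero
  have hxEi : Transcendental L (lg_lamE (L := L) (N' * q))⁻¹ :=
    fun h => hxE (IsAlgebraic.inv_iff.mp h)
  have hlam0 : (lg_lamE (N' * q) : ↥(lg_E L (N' * q))) ≠ 0 := by
    intro h
    exact hxE (h ▸ isAlgebraic_zero)
  have hW0 : ssm_gl_W L N' q hq2 hqN' (lg_lamE (N' * q)) ≠ 0 :=
    (map_ne_zero _).2 hlam0
  have CF := ssm_cf_final L (N' * q) q hq.out hq2' (dvd_mul_left q N')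
    (lg_lam_mem_E L (N' * q)) (ssm_fl_lamq_mem (L := L) N' q hq2)
  rw [← ssm_fl_W_lam (L := L) N' q hq2 hqN'] at CF
  haveI : IsNoetherianRing ↥(fc_chart ↥O ({(lg_lamE (N' * q))⁻¹} : Set ↥(lg_E L (N' * q)))) :=
    ssm_ths_chart_isNoetherianRing (A0 := ↥O) (L := L) hxEi
  haveI : IsIntegrallyClosed ↥(fc_chart ↥O ({(lg_lamE (N' * q))⁻¹} : Set ↥(lg_E L (N' * q)))) :=
    ssm_ths_chart_isIntegrallyClosed (A0 := ↥O) (L := L) _
  haveI : IsFractionRing ↥(fc_chart ↥O ({(lg_lamE (N' * q))⁻¹} : Set ↥(lg_E L (N' * q))))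
      ↥(lg_E L (N' * q)) :=
    ssm_ths_chart_isFractionRing (A0 := ↥O) (L := L) _
  have hA0 : a ≠ 0 := by
    intro h
    have h1 : (a : ↥(lg_E L (N' * q))) = 0 := by rw [h]; rfl
    rw [ha] at h1
    exact inv_ne_zero hlam0 h1
  have hB0 : a1 ≠ 0 := by
    intro h
    have h1 : (a1 : ↥(lg_E L (N' * q))) = 0 := by rw [h]; rfl
    rw [ha1] at h1
    exact inv_ne_zero hW0 h1
  refine s36ct_pair_of_zeroPair (K := L) (F0 := ↥(lg_E L (N' * q))) hπ hB0 hA0 ?_ 𝔮 h𝔮 hht hπ𝔮 ha1𝔮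
  intro P hP
  change 0 < P.ord (a1 : ↥(lg_E L (N' * q))) at hP
  change 0 < P.ord (a : ↥(lg_E L (N' * q)))
  rw [ha1] at hP
  rw [ha]
  exact (CF.inf' P hP).1

end Leg

section NF

variable (L : Type) [Field L] [NumberField L] [Algebra L (AlgebraicClosure ℚ)]
  (O : ValuationSubring L) [IsDiscreteValuationRing O] {π : O} (hπ : Irreducible π)
variable (N' q : ℕ) [NeZero N'] [NeZero q] [hq : Fact q.Prime] [CharP (ResidueField O) q]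
  (hq2 : ¬ 2 ∣ q) (hqN' : ¬ q ∣ N') (ζ : L) (hζ : IsPrimitiveRoot ζ N')

include hζ in
set_option synthInstance.maxHeartbeats 400000 in
set_option maxHeartbeats 3200000 in
/-- **(R1) + (R2) + (T2), Legendre tower, chart `{λ}`, cusps `λ = 0, 1`, [NF2-CTX].** -/
theorem s36ctr_leg_r2 (c : ↥O) (hc : c = 0 ∨ c = 1)
    (φA φB : fc_chart ↥O ({lg_lamE N'} : Set ↥(lg_E L N')) →+*
      fc_chart ↥O ({lg_lamE (N' * q)} : Set ↥(lg_E L (N' * q))))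
    (hφA : ∀ b : fc_chart ↥O ({lg_lamE N'} : Set ↥(lg_E L N')),
      ((φA b : fc_chart ↥O ({lg_lamE (N' * q)} : Set ↥(lg_E L (N' * q)))) : ↥(lg_E L (N' * q))) =
        IntermediateField.inclusion (ssm_al_E_le L N' q) (b : ↥(lg_E L N')))
    (hφB : ∀ b : fc_chart ↥O ({lg_lamE N'} : Set ↥(lg_E L N')),
      ((φB b : fc_chart ↥O ({lg_lamE (N' * q)} : Set ↥(lg_E L (N' * q)))) : ↥(lg_E L (N' * q))) =
        ssm_gl_W L N' q hq2 hqN'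
          (IntermediateField.inclusion (ssm_al_E_le L N' q) (b : ↥(lg_E L N'))))
    (𝔫 : Ideal (fc_chart ↥O ({lg_lamE (N' * q)} : Set ↥(lg_E L (N' * q))))) [h𝔫 : 𝔫.IsMaximal]
    (hπ𝔫 : algebraMap ↥O (fc_chart ↥O ({lg_lamE (N' * q)} : Set ↥(lg_E L (N' * q)))) π ∈ 𝔫)
    (h2 : ¬ ssm_tp_P (fc_chart ↥O ({lg_lamE (N' * q)} : Set ↥(lg_E L (N' * q))))
      (ssm_gl_V2 O hπ N' q hq2 hqN') ≤ 𝔫)
    (y0 : fc_chart ↥O ({lg_lamE N'} : Set ↥(lg_E L N')))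
    (hy0 : (y0 : ↥(lg_E L N')) = lg_lamE N' - algebraMap ↥O ↥(lg_E L N') c)
    (h𝔫y : φA y0 ∈ 𝔫)
    (hrel : ∀ t0 t1 : fc_chart ↥O ({lg_lamE N'} : Set ↥(lg_E L N')),
      tq_GenBy (algebraMap ↥O (fc_chart ↥O ({lg_lamE (N' * q)} : Set ↥(lg_E L (N' * q)))) π)
        (φA t0) 𝔫 →
      tq_GenBy (algebraMap ↥O (fc_chart ↥O ({lg_lamE N'} : Set ↥(lg_E L N'))) π) t1
        (𝔫.comap φB) →
      ∃ s a r : fc_chart ↥O ({lg_lamE (N' * q)} : Set ↥(lg_E L (N' * q))), s ∉ 𝔫 ∧ a ∉ 𝔫 ∧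
        s * φA t0 ^ q = a * φB t1 +
          algebraMap ↥O (fc_chart ↥O ({lg_lamE (N' * q)} : Set ↥(lg_E L (N' * q)))) π * r) :
    ∃ t0 t1 : fc_chart ↥O ({lg_lamE N'} : Set ↥(lg_E L N')),
      tq_GenBy (algebraMap ↥O (fc_chart ↥O ({lg_lamE N'} : Set ↥(lg_E L N'))) π) t0
        (𝔫.comap φA) ∧
      tq_Dom t0 (𝔫.comap φA) ∧
      (∃ (e : ℕ) (s w : fc_chart ↥O ({lg_lamE N'} : Set ↥(lg_E L N'))), 0 < e ∧
        s ∉ 𝔫.comap φA ∧ w ∉ 𝔫.comap φA ∧ s * y0 = w * t0 ^ e) ∧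
      tq_GenBy (algebraMap ↥O (fc_chart ↥O ({lg_lamE (N' * q)} : Set ↥(lg_E L (N' * q)))) π)
        (φA t0) 𝔫 ∧
      tq_Dom (algebraMap ↥O (fc_chart ↥O ({lg_lamE (N' * q)} : Set ↥(lg_E L (N' * q)))) π) 𝔫 ∧
      tq_Dom (φA t0) 𝔫 ∧
      (∃ (e : ℕ) (s w : fc_chart ↥O ({lg_lamE (N' * q)} : Set ↥(lg_E L (N' * q)))), 0 < e ∧
        s ∉ 𝔫 ∧ w ∉ 𝔫 ∧ s * φA y0 = w * φA t0 ^ e) ∧
      tq_GenBy (algebraMap ↥O (fc_chart ↥O ({lg_lamE N'} : Set ↥(lg_E L N'))) π) t1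
        (𝔫.comap φB) ∧
      tq_Dom t1 (𝔫.comap φB) ∧
      (∃ (e : ℕ) (s w : fc_chart ↥O ({lg_lamE N'} : Set ↥(lg_E L N'))), 0 < e ∧
        s ∉ 𝔫.comap φB ∧ w ∉ 𝔫.comap φB ∧ s * y0 = w * t1 ^ e) ∧
      ∃ s w : fc_chart ↥O ({lg_lamE (N' * q)} : Set ↥(lg_E L (N' * q))), s ∉ 𝔫 ∧ w ∉ 𝔫 ∧
        s * φB t1 = w * φA t0 ^ q := by
  classical
  have hqO := ssm_fln_q_mem L O q
  have hq2' : q ≠ 2 := ssm_fl_ne_two q hq2
  have hp := ssm_ll_prime L N' hπ q hqO hq2' hqN' ζ hζ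
  have hic1 := ssm_ll_ic1 L N' hπ q hqO hq2' hqN' ζ hζ
  have F := ssm_fl_facts O hπ N' q hq2 hqN' hp.1
  have hWO := ssm_si_W_algebraMap O N' q hq2 hqN'
  obtain ⟨hWB1, -, -⟩ := ssm_i1_W_charts (ssm_gl_W L N' q hq2 hqN') hWO rfl F
  have hWW := ssm_al_WE_WE L N' q hq.out hq2 hqN'
  haveI := lgf_finite L N'
  haveI hfinE : FiniteDimensional
      L⟮IntermediateField.inclusion (ssm_al_E_le L N' q) (lg_lamE N')⟯ ↥(lg_E L (N' * q)) :=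
    lgf_finite L (N' * q)
  haveI := ssm_go_isScalarTower O (lg_E L N')
  haveI := ssm_go_isScalarTower O (lg_E L (N' * q))
  have H := ssm_gl_hyp O hπ N' q hq2 hqN' hp.1
  have hn0 : (1 : ℤ) ≠ 0 := one_ne_zero
  have hyn := ssm_ga_lam_coeff_one O (ssm_gl_two_ne_zero O q hq2)
  have hlam : ((lg_lamE N' : ↥(lg_E L N')) : LaurentSeries L) =
      coeffMap (algebraMap O L) (hm_lam O) := (hm_coeffMap_lam _).symm
  have hx : Transcendental L (lg_lamE N' : ↥(lg_E L N')) :=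
    ssm_go_transcendental O (lg_E L N') (hm_lam O) (lg_lamE N') hlam hn0 hyn
  have hxE : Transcendental L
      (IntermediateField.inclusion (ssm_al_E_le L N' q) (lg_lamE N')) :=
    ssm_go_transcendental O (lg_E L (N' * q)) (hm_lam O)
      (IntermediateField.inclusion (ssm_al_E_le L N' q) (lg_lamE N')) hlam hn0 hyn
  have hover := ssm_go_over O (lg_E L N') (hm_lam O) (lg_lamE N') hlam hπ
    (ssm_ga_E_le_quotField O N') hn0 hyn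
  -- the chart map `α`
  have hφAeq : φA = s36ctr_alpha O N' q := RingHom.ext fun b => Subtype.ext (hφA b)
  subst hφAeq
  have hintA := s36ctr_alpha_isIntegral O N' q
  -- the chart map `β = W ∘ α`
  have hφBeq : φB = ((ssm_inf_equiv (ssm_gl_W L N' q hq2 hqN') hWW _ hWB1 :
      fc_chart ↥O ({lg_lamE (N' * q)} : Set ↥(lg_E L (N' * q))) ≃+*
        fc_chart ↥O ({lg_lamE (N' * q)} : Set ↥(lg_E L (N' * q)))) :
      fc_chart ↥O ({lg_lamE (N' * q)} : Set ↥(lg_E L (N' * q))) →+*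
        fc_chart ↥O ({lg_lamE (N' * q)} : Set ↥(lg_E L (N' * q)))).comp (s36ctr_alpha O N' q) :=
    RingHom.ext fun b => Subtype.ext (by rw [hφB]; rfl)
  have hintB : φB.IsIntegral := by
    rw [hφBeq]
    exact RingHom.IsIntegral.trans _ _ hintA
      (RingHom.isIntegral_of_surjective _ (ssm_inf_equiv _ hWW _ hWB1).surjective)
  haveI hmA : (𝔫.comap (s36ctr_alpha O N' q)).IsMaximal :=
    ssm_cp_comap_isMaximal _ hintA 𝔫 h𝔫
  haveI hmB : (𝔫.comap φB).IsMaximal := ssm_cp_comap_isMaximal _ hintB 𝔫 h𝔫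
  have hπA : algebraMap ↥O (fc_chart ↥O ({lg_lamE N'} : Set ↥(lg_E L N'))) π ∈
      𝔫.comap (s36ctr_alpha O N' q) := by
    rw [Ideal.mem_comap, s36ctr_alpha_algebraMap]
    exact hπ𝔫
  have hφBπ : φB (algebraMap ↥O (fc_chart ↥O ({lg_lamE N'} : Set ↥(lg_E L N'))) π) =
      algebraMap ↥O (fc_chart ↥O ({lg_lamE (N' * q)} : Set ↥(lg_E L (N' * q)))) π := by
    apply Subtype.ext
    rw [hφB]
    exact hWO π
  have hπB : algebraMap ↥O (fc_chart ↥O ({lg_lamE N'} : Set ↥(lg_E L N'))) π ∈ 𝔫.comap φB := by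
    rw [Ideal.mem_comap, hφBπ]
    exact hπ𝔫
  -- the first component contains `𝔫`
  have hC := ssm_tp_ff_chart (L := L) hπ hxE
  have hyEA : Transcendental ↥O (lg_lamE (N' * q) : ↥(lg_E L (N' * q))) :=
    fc_ff_transcendental (L := L) hxE
  haveI : IsIntegrallyClosed (Algebra.adjoin ↥O ({lg_lamE (N' * q)} : Set ↥(lg_E L (N' * q)))) :=
    fc_ff_isIntegrallyClosed hyEA
  haveI : FaithfulSMul (Algebra.adjoin ↥O ({lg_lamE (N' * q)} : Set ↥(lg_E L (N' * q))))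
      ↥(lg_E L (N' * q)) :=
    (faithfulSMul_iff_algebraMap_injective _ _).2 Subtype.val_injective
  have hP : Ideal.span
      {algebraMap ↥O (fc_chart ↥O ({lg_lamE (N' * q)} : Set ↥(lg_E L (N' * q)))) π} =
      ssm_tp_P (fc_chart ↥O ({lg_lamE (N' * q)} : Set ↥(lg_E L (N' * q))))
        (ssm_gl_V1 O hπ N' q) ⊓
      ssm_tp_P (fc_chart ↥O ({lg_lamE (N' * q)} : Set ↥(lg_E L (N' * q))))
        (ssm_gl_V2 O hπ N' q hq2 hqN') :=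
    H.P_inf hC
      (algebraMap ↥O (fc_chart ↥O ({lg_lamE (N' * q)} : Set ↥(lg_E L (N' * q)))) π) rfl
  have hP1 : ssm_tp_P (fc_chart ↥O ({lg_lamE (N' * q)} : Set ↥(lg_E L (N' * q))))
      (ssm_gl_V1 O hπ N' q) ≤ 𝔫 := by
    have h3 : ssm_tp_P (fc_chart ↥O ({lg_lamE (N' * q)} : Set ↥(lg_E L (N' * q))))
        (ssm_gl_V1 O hπ N' q) ⊓
        ssm_tp_P (fc_chart ↥O ({lg_lamE (N' * q)} : Set ↥(lg_E L (N' * q))))
        (ssm_gl_V2 O hπ N' q hq2 hqN') ≤ 𝔫 := by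
      rw [← hP, Ideal.span_singleton_le_iff_mem]
      exact hπ𝔫
    exact ((Ideal.IsPrime.inf_le h𝔫.isPrime).mp h3).resolve_right h2
  have hcoeA : ((s36ctr_alpha O N' q y0 :
      fc_chart ↥O ({lg_lamE (N' * q)} : Set ↥(lg_E L (N' * q)))) : ↥(lg_E L (N' * q))) =
      lg_lamE (N' * q) - algebraMap ↥O ↥(lg_E L (N' * q)) c := by
    rw [s36ctr_alpha_coe, hy0, map_sub]
    rfl
  have hcoeB : ((φB y0 : fc_chart ↥O ({lg_lamE (N' * q)} : Set ↥(lg_E L (N' * q)))) :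
      ↥(lg_E L (N' * q))) =
      ssm_gl_W L N' q hq2 hqN' (lg_lamE (N' * q)) - algebraMap ↥O ↥(lg_E L (N' * q)) c := by
    rw [hφB, ← s36ctr_alpha_coe, hcoeA, map_sub, hWO]
  haveI := h𝔫.isPrime
  have hyB : φB y0 ∈ 𝔫 :=
    s36ctr_leg_frob O hπ N' q hq2 hqN' hp.1 c hc _ _ hcoeA hcoeB 𝔫 hP1 h𝔫y
  -- (T1) at the two contractions
  have hyA' : y0 ∈ 𝔫.comap (s36ctr_alpha O N' q) := Ideal.mem_comap.2 h𝔫y
  have hyB' : y0 ∈ 𝔫.comap φB := Ideal.mem_comap.2 hyB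
  have hT := s36ct_ll_trans1 L N' hπ q hqO hq2' hqN' ζ hζ c hc
    (𝔫.comap (s36ctr_alpha O N' q)) hπA y0 hy0 hyA'
  have hT' := s36ct_ll_trans1 L N' hπ q hqO hq2' hqN' ζ hζ c hc (𝔫.comap φB) hπB y0 hy0 hyB'
  have hy'A : ¬ algebraMap ↥O (fc_chart ↥O ({lg_lamE N'} : Set ↥(lg_E L N'))) π ∣ y0 :=
    s36ctr_leg_not_dvd O hπ N' q hq2 c y0 hy0
  have hpair : ∀ 𝔮 : Ideal (fc_chart ↥O ({lg_lamE (N' * q)} : Set ↥(lg_E L (N' * q)))),
      𝔮.IsPrime → 𝔮 ≤ 𝔫 → 𝔮.height = 1 →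
      algebraMap ↥O (fc_chart ↥O ({lg_lamE (N' * q)} : Set ↥(lg_E L (N' * q)))) π ∉ 𝔮 →
      φB y0 ∈ 𝔮 → s36ctr_alpha O N' q y0 ∈ 𝔮 :=
    fun 𝔮 h𝔮 _ hht hπ𝔮 ha =>
      s36ctr_leg_pair O hπ N' q hq2 hqN' c hc _ _ hcoeA hcoeB 𝔮 h𝔮 hht hπ𝔮 ha
  exact s36ct_si_r2 O hπ q (lg_E L N') (lg_E L (N' * q)) (ssm_al_E_le L N' q)
    (ssm_ga_E_le_quotField O (N' * q)) (ssm_gl_W L N' q hq2 hqN') hWW
    (fun z => ssm_al_coe_WE_of_mem L N' q hq.out hq2 hqN' z.2 _)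
    (ssm_al_relfinrank_E L N' q hq.out hq2 hqN') (hm_lam O) (ssm_ga_lam_frobFixed O q) 1
    (ssm_gl_not_dvd_one q) hyn (lg_lamE N') hlam (lg_lamE N')
    (IntermediateField.inclusion (ssm_al_E_le L N' q) (lg_lamE N')) rfl hx hxE hover H hp.1 hic1
    (s36ctr_alpha O N' q) φB (fun _ => rfl) hφB hWO 𝔫 (h𝔫 := h𝔫.isPrime) hπ𝔫 h2 y0 hy'A hT y0 hT'
    hpair hrel

include hζ in
set_option synthInstance.maxHeartbeats 400000 in
set_option maxHeartbeats 3200000 in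
/-- **(R1) + (R2) + (T2), Legendre tower, chart `{λ⁻¹}`, cusp `λ⁻¹ = 0`, [NF2-CTX].** -/
theorem s36ctr_leg_r2_inv
    (φA φB : fc_chart ↥O ({(lg_lamE N')⁻¹} : Set ↥(lg_E L N')) →+*
      fc_chart ↥O ({(lg_lamE (N' * q))⁻¹} : Set ↥(lg_E L (N' * q))))
    (hφA : ∀ b : fc_chart ↥O ({(lg_lamE N')⁻¹} : Set ↥(lg_E L N')),
      ((φA b : fc_chart ↥O ({(lg_lamE (N' * q))⁻¹} : Set ↥(lg_E L (N' * q)))) :
        ↥(lg_E L (N' * q))) =
        IntermediateField.inclusion (ssm_al_E_le L N' q) (b : ↥(lg_E L N')))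
    (hφB : ∀ b : fc_chart ↥O ({(lg_lamE N')⁻¹} : Set ↥(lg_E L N')),
      ((φB b : fc_chart ↥O ({(lg_lamE (N' * q))⁻¹} : Set ↥(lg_E L (N' * q)))) :
        ↥(lg_E L (N' * q))) =
        ssm_gl_W L N' q hq2 hqN'
          (IntermediateField.inclusion (ssm_al_E_le L N' q) (b : ↥(lg_E L N'))))
    (𝔫 : Ideal (fc_chart ↥O ({(lg_lamE (N' * q))⁻¹} : Set ↥(lg_E L (N' * q)))))
    [h𝔫 : 𝔫.IsMaximal]
    (hπ𝔫 : algebraMap ↥O (fc_chart ↥O ({(lg_lamE (N' * q))⁻¹} : Set ↥(lg_E L (N' * q)))) π ∈ 𝔫)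
    (h2 : ¬ ssm_tp_P (fc_chart ↥O ({(lg_lamE (N' * q))⁻¹} : Set ↥(lg_E L (N' * q))))
      (ssm_gl_V2 O hπ N' q hq2 hqN') ≤ 𝔫)
    (y0 : fc_chart ↥O ({(lg_lamE N')⁻¹} : Set ↥(lg_E L N')))
    (hy0 : (y0 : ↥(lg_E L N')) = (lg_lamE N')⁻¹)
    (h𝔫y : φA y0 ∈ 𝔫)
    (hrel : ∀ t0 t1 : fc_chart ↥O ({(lg_lamE N')⁻¹} : Set ↥(lg_E L N')),
      tq_GenBy (algebraMap ↥O (fc_chart ↥O ({(lg_lamE (N' * q))⁻¹} :
        Set ↥(lg_E L (N' * q)))) π) (φA t0) 𝔫 →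
      tq_GenBy (algebraMap ↥O (fc_chart ↥O ({(lg_lamE N')⁻¹} : Set ↥(lg_E L N'))) π) t1
        (𝔫.comap φB) →
      ∃ s a r : fc_chart ↥O ({(lg_lamE (N' * q))⁻¹} : Set ↥(lg_E L (N' * q))), s ∉ 𝔫 ∧ a ∉ 𝔫 ∧
        s * φA t0 ^ q = a * φB t1 +
          algebraMap ↥O (fc_chart ↥O ({(lg_lamE (N' * q))⁻¹} : Set ↥(lg_E L (N' * q)))) π * r) :
    ∃ t0 t1 : fc_chart ↥O ({(lg_lamE N')⁻¹} : Set ↥(lg_E L N')),
      tq_GenBy (algebraMap ↥O (fc_chart ↥O ({(lg_lamE N')⁻¹} : Set ↥(lg_E L N'))) π) t0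
        (𝔫.comap φA) ∧
      tq_Dom t0 (𝔫.comap φA) ∧
      (∃ (e : ℕ) (s w : fc_chart ↥O ({(lg_lamE N')⁻¹} : Set ↥(lg_E L N'))), 0 < e ∧
        s ∉ 𝔫.comap φA ∧ w ∉ 𝔫.comap φA ∧ s * y0 = w * t0 ^ e) ∧
      tq_GenBy (algebraMap ↥O (fc_chart ↥O ({(lg_lamE (N' * q))⁻¹} :
        Set ↥(lg_E L (N' * q)))) π) (φA t0) 𝔫 ∧
      tq_Dom (algebraMap ↥O (fc_chart ↥O ({(lg_lamE (N' * q))⁻¹} :
        Set ↥(lg_E L (N' * q)))) π) 𝔫 ∧
      tq_Dom (φA t0) 𝔫 ∧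
      (∃ (e : ℕ) (s w : fc_chart ↥O ({(lg_lamE (N' * q))⁻¹} : Set ↥(lg_E L (N' * q)))), 0 < e ∧
        s ∉ 𝔫 ∧ w ∉ 𝔫 ∧ s * φA y0 = w * φA t0 ^ e) ∧
      tq_GenBy (algebraMap ↥O (fc_chart ↥O ({(lg_lamE N')⁻¹} : Set ↥(lg_E L N'))) π) t1
        (𝔫.comap φB) ∧
      tq_Dom t1 (𝔫.comap φB) ∧
      (∃ (e : ℕ) (s w : fc_chart ↥O ({(lg_lamE N')⁻¹} : Set ↥(lg_E L N'))), 0 < e ∧
        s ∉ 𝔫.comap φB ∧ w ∉ 𝔫.comap φB ∧ s * y0 = w * t1 ^ e) ∧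
      ∃ s w : fc_chart ↥O ({(lg_lamE (N' * q))⁻¹} : Set ↥(lg_E L (N' * q))), s ∉ 𝔫 ∧ w ∉ 𝔫 ∧
        s * φB t1 = w * φA t0 ^ q := by
  classical
  have hqO := ssm_fln_q_mem L O q
  have hq2' : q ≠ 2 := ssm_fl_ne_two q hq2
  have hp := ssm_ll_prime L N' hπ q hqO hq2' hqN' ζ hζ
  have hic2 := ssm_ll_ic2 L N' hπ q hqO hq2' hqN' ζ hζ
  have F := ssm_fl_facts O hπ N' q hq2 hqN' hp.1
  have hWO := ssm_si_W_algebraMap O N' q hq2 hqN'
  obtain ⟨-, hWB2, -⟩ := ssm_i1_W_charts (ssm_gl_W L N' q hq2 hqN') hWO rfl F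
  have hWW := ssm_al_WE_WE L N' q hq.out hq2 hqN'
  haveI := lgf_finite L N'
  haveI hfinE : FiniteDimensional
      L⟮IntermediateField.inclusion (ssm_al_E_le L N' q) (lg_lamE N')⟯ ↥(lg_E L (N' * q)) :=
    lgf_finite L (N' * q)
  haveI := ssm_go_isScalarTower O (lg_E L N')
  haveI := ssm_go_isScalarTower O (lg_E L (N' * q))
  have H := ssm_gl_hyp O hπ N' q hq2 hqN' hp.1
  have hn0 : (1 : ℤ) ≠ 0 := one_ne_zero
  have hyn := ssm_ga_lam_coeff_one O (ssm_gl_two_ne_zero O q hq2)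
  have hlam : ((lg_lamE N' : ↥(lg_E L N')) : LaurentSeries L) =
      coeffMap (algebraMap O L) (hm_lam O) := (hm_coeffMap_lam _).symm
  have hx : Transcendental L (lg_lamE N' : ↥(lg_E L N')) :=
    ssm_go_transcendental O (lg_E L N') (hm_lam O) (lg_lamE N') hlam hn0 hyn
  have hxE : Transcendental L
      (IntermediateField.inclusion (ssm_al_E_le L N' q) (lg_lamE N')) :=
    ssm_go_transcendental O (lg_E L (N' * q)) (hm_lam O)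
      (IntermediateField.inclusion (ssm_al_E_le L N' q) (lg_lamE N')) hlam hn0 hyn
  have hxi : Transcendental L (lg_lamE N' : ↥(lg_E L N'))⁻¹ :=
    fun h => hx (IsAlgebraic.inv_iff.mp h)
  have hxEi : Transcendental L
      (IntermediateField.inclusion (ssm_al_E_le L N' q) (lg_lamE N'))⁻¹ :=
    fun h => hxE (IsAlgebraic.inv_iff.mp h)
  have hover := ssm_go_over O (lg_E L N') (hm_lam O) (lg_lamE N') hlam hπ
    (ssm_ga_E_le_quotField O N') hn0 hyn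
  have hover' := ssm_tp_over_inv (fc_ff_transcendental (L := L) hx)
    (fc_ff_transcendental (L := L) hxi) hπ.not_isUnit hover
  have H' := ssm_tp_ff_hyp_inv (L := L) hπ hxE H
  haveI : FiniteDimensional L⟮(lg_lamE N' : ↥(lg_E L N'))⁻¹⟯ ↥(lg_E L N') := by
    rw [rt_adjoin_inv]; infer_instance
  haveI hfinEi : FiniteDimensional
      L⟮(IntermediateField.inclusion (ssm_al_E_le L N' q) (lg_lamE N'))⁻¹⟯
      ↥(lg_E L (N' * q)) := by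
    rw [rt_adjoin_inv]; infer_instance
  -- the chart map `α`
  have hφAeq : φA = s36ctr_alpha_inv O N' q := RingHom.ext fun b => Subtype.ext (hφA b)
  subst hφAeq
  have hintA := s36ctr_alpha_inv_isIntegral O N' q
  -- the chart map `β = W ∘ α`
  have hφBeq : φB = ((ssm_inf_equiv (ssm_gl_W L N' q hq2 hqN') hWW _ hWB2 :
      fc_chart ↥O ({(lg_lamE (N' * q))⁻¹} : Set ↥(lg_E L (N' * q))) ≃+*
        fc_chart ↥O ({(lg_lamE (N' * q))⁻¹} : Set ↥(lg_E L (N' * q)))) :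
      fc_chart ↥O ({(lg_lamE (N' * q))⁻¹} : Set ↥(lg_E L (N' * q))) →+*
        fc_chart ↥O ({(lg_lamE (N' * q))⁻¹} : Set ↥(lg_E L (N' * q)))).comp
        (s36ctr_alpha_inv O N' q) :=
    RingHom.ext fun b => Subtype.ext (by rw [hφB]; rfl)
  have hintB : φB.IsIntegral := by
    rw [hφBeq]
    exact RingHom.IsIntegral.trans _ _ hintA
      (RingHom.isIntegral_of_surjective _ (ssm_inf_equiv _ hWW _ hWB2).surjective)
  haveI hmA : (𝔫.comap (s36ctr_alpha_inv O N' q)).IsMaximal :=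
    ssm_cp_comap_isMaximal _ hintA 𝔫 h𝔫
  haveI hmB : (𝔫.comap φB).IsMaximal := ssm_cp_comap_isMaximal _ hintB 𝔫 h𝔫
  have hπA : algebraMap ↥O (fc_chart ↥O ({(lg_lamE N')⁻¹} : Set ↥(lg_E L N'))) π ∈
      𝔫.comap (s36ctr_alpha_inv O N' q) := by
    rw [Ideal.mem_comap, s36ctr_alpha_inv_algebraMap]
    exact hπ𝔫
  have hφBπ : φB (algebraMap ↥O (fc_chart ↥O ({(lg_lamE N')⁻¹} : Set ↥(lg_E L N'))) π) =
      algebraMap ↥O (fc_chart ↥O ({(lg_lamE (N' * q))⁻¹} : Set ↥(lg_E L (N' * q)))) π := by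
    apply Subtype.ext
    rw [hφB]
    exact hWO π
  have hπB : algebraMap ↥O (fc_chart ↥O ({(lg_lamE N')⁻¹} : Set ↥(lg_E L N'))) π ∈
      𝔫.comap φB := by
    rw [Ideal.mem_comap, hφBπ]
    exact hπ𝔫
  -- the first component contains `𝔫`
  have hC := ssm_tp_ff_chart (L := L) hπ hxEi
  have hyEA : Transcendental ↥O (lg_lamE (N' * q) : ↥(lg_E L (N' * q)))⁻¹ :=
    fc_ff_transcendental (L := L) hxEi
  haveI : IsIntegrallyClosed
      (Algebra.adjoin ↥O ({(lg_lamE (N' * q))⁻¹} : Set ↥(lg_E L (N' * q)))) :=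
    fc_ff_isIntegrallyClosed hyEA
  haveI : FaithfulSMul (Algebra.adjoin ↥O ({(lg_lamE (N' * q))⁻¹} : Set ↥(lg_E L (N' * q))))
      ↥(lg_E L (N' * q)) :=
    (faithfulSMul_iff_algebraMap_injective _ _).2 Subtype.val_injective
  haveI : IsIntegrallyClosed (Algebra.adjoin ↥O
      ({(IntermediateField.inclusion (ssm_al_E_le L N' q) (lg_lamE N'))⁻¹} :
        Set ↥(lg_E L (N' * q)))) :=
    fc_ff_isIntegrallyClosed (fc_ff_transcendental (L := L) hxEi)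
  haveI : FaithfulSMul (Algebra.adjoin ↥O
      ({(IntermediateField.inclusion (ssm_al_E_le L N' q) (lg_lamE N'))⁻¹} :
        Set ↥(lg_E L (N' * q)))) ↥(lg_E L (N' * q)) :=
    (faithfulSMul_iff_algebraMap_injective _ _).2 Subtype.val_injective
  have hP : Ideal.span
      {algebraMap ↥O (fc_chart ↥O ({(lg_lamE (N' * q))⁻¹} : Set ↥(lg_E L (N' * q)))) π} =
      ssm_tp_P (fc_chart ↥O ({(lg_lamE (N' * q))⁻¹} : Set ↥(lg_E L (N' * q))))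
        (ssm_gl_V1 O hπ N' q) ⊓
      ssm_tp_P (fc_chart ↥O ({(lg_lamE (N' * q))⁻¹} : Set ↥(lg_E L (N' * q))))
        (ssm_gl_V2 O hπ N' q hq2 hqN') :=
    (H' : ssm_tp_Hyp
      (algebraMap ↥O (Algebra.adjoin ↥O ({(lg_lamE (N' * q))⁻¹} : Set ↥(lg_E L (N' * q)))) π)
      (ssm_gl_V1 O hπ N' q) (ssm_gl_V2 O hπ N' q hq2 hqN')).P_inf hC
      (algebraMap ↥O (fc_chart ↥O ({(lg_lamE (N' * q))⁻¹} : Set ↥(lg_E L (N' * q)))) π) rfl
  have hP1 : ssm_tp_P (fc_chart ↥O ({(lg_lamE (N' * q))⁻¹} : Set ↥(lg_E L (N' * q))))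
      (ssm_gl_V1 O hπ N' q) ≤ 𝔫 := by
    have h3 : ssm_tp_P (fc_chart ↥O ({(lg_lamE (N' * q))⁻¹} : Set ↥(lg_E L (N' * q))))
        (ssm_gl_V1 O hπ N' q) ⊓
        ssm_tp_P (fc_chart ↥O ({(lg_lamE (N' * q))⁻¹} : Set ↥(lg_E L (N' * q))))
        (ssm_gl_V2 O hπ N' q hq2 hqN') ≤ 𝔫 := by
      rw [← hP, Ideal.span_singleton_le_iff_mem]
      exact hπ𝔫
    exact ((Ideal.IsPrime.inf_le h𝔫.isPrime).mp h3).resolve_right h2
  have hcoeA : ((s36ctr_alpha_inv O N' q y0 :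
      fc_chart ↥O ({(lg_lamE (N' * q))⁻¹} : Set ↥(lg_E L (N' * q)))) : ↥(lg_E L (N' * q))) =
      (lg_lamE (N' * q))⁻¹ := by
    rw [s36ctr_alpha_inv_coe, hy0, map_inv₀]
    rfl
  have hcoeB : ((φB y0 : fc_chart ↥O ({(lg_lamE (N' * q))⁻¹} : Set ↥(lg_E L (N' * q)))) :
      ↥(lg_E L (N' * q))) = (ssm_gl_W L N' q hq2 hqN' (lg_lamE (N' * q)))⁻¹ := by
    rw [hφB, ← s36ctr_alpha_inv_coe, hcoeA, map_inv₀]
  haveI := h𝔫.isPrime
  have hyB : φB y0 ∈ 𝔫 :=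
    s36ctr_leg_frob_inv O hπ N' q hq2 hqN' hp.1 _ _ hcoeA hcoeB 𝔫 hP1 h𝔫y
  -- (T1) at the two contractions
  have hy0' : (y0 : ↥(lg_E L N')) = (lg_lamE N')⁻¹ - algebraMap ↥O ↥(lg_E L N') 0 := by
    rw [map_zero, sub_zero]
    exact hy0
  have hyA' : y0 ∈ 𝔫.comap (s36ctr_alpha_inv O N' q) := Ideal.mem_comap.2 h𝔫y
  have hyB' : y0 ∈ 𝔫.comap φB := Ideal.mem_comap.2 hyB
  have hT := s36ct_ll_trans2 L N' hπ q hqO hq2' hqN' ζ hζ 0 (Or.inl rfl)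
    (𝔫.comap (s36ctr_alpha_inv O N' q)) hπA y0 hy0' hyA'
  have hT' := s36ct_ll_trans2 L N' hπ q hqO hq2' hqN' ζ hζ 0 (Or.inl rfl) (𝔫.comap φB) hπB y0
    hy0' hyB'
  have hy'A : ¬ algebraMap ↥O (fc_chart ↥O ({(lg_lamE N')⁻¹} : Set ↥(lg_E L N'))) π ∣ y0 :=
    s36ctr_leg_not_dvd_inv O hπ N' q hq2 0 y0 hy0'
  have hpair : ∀ 𝔮 : Ideal (fc_chart ↥O ({(lg_lamE (N' * q))⁻¹} : Set ↥(lg_E L (N' * q)))),
      𝔮.IsPrime → 𝔮 ≤ 𝔫 → 𝔮.height = 1 →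
      algebraMap ↥O (fc_chart ↥O ({(lg_lamE (N' * q))⁻¹} : Set ↥(lg_E L (N' * q)))) π ∉ 𝔮 →
      φB y0 ∈ 𝔮 → s36ctr_alpha_inv O N' q y0 ∈ 𝔮 :=
    fun 𝔮 h𝔮 _ hht hπ𝔮 ha =>
      s36ctr_leg_pair_inv O hπ N' q hq2 hqN' _ _ hcoeA hcoeB 𝔮 h𝔮 hht hπ𝔮 ha
  exact s36ct_si_r2 O hπ q (lg_E L N') (lg_E L (N' * q)) (ssm_al_E_le L N' q)
    (ssm_ga_E_le_quotField O (N' * q)) (ssm_gl_W L N' q hq2 hqN') hWW
    (fun z => ssm_al_coe_WE_of_mem L N' q hq.out hq2 hqN' z.2 _)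
    (ssm_al_relfinrank_E L N' q hq.out hq2 hqN') (hm_lam O) (ssm_ga_lam_frobFixed O q) 1
    (ssm_gl_not_dvd_one q) hyn (lg_lamE N') hlam (lg_lamE N')⁻¹
    (IntermediateField.inclusion (ssm_al_E_le L N' q) (lg_lamE N'))⁻¹
    (map_inv₀ (IntermediateField.inclusion (ssm_al_E_le L N' q)) (lg_lamE N')) hxi hxEi hover' H'
    hp.2.1 hic2 (s36ctr_alpha_inv O N' q) φB (fun _ => rfl) hφB hWO 𝔫 (h𝔫 := h𝔫.isPrime) hπ𝔫 h2 y0
    hy'A hT y0 hT' hpair hrel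

end NF

end Fermat.Agent.S36
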